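import Fermat.Agent.RT.Interface
import Fermat.Agent.GaloisReps.Results
import Fermat.Agent.EichlerShimura.Specialization
import Fermat.Agent.Semistable.WEquiv

/-!
# Mazur's principle at a prime `q ≠ p`: definitions

`EigTors N p S a` is the group of `p`-torsion points of `J₀(N)` on which `T_ℓ`, `ℓ ∉ S`, is `a ℓ`.
`ToricProperty` says that on such points of level `q M` which are fixed by inertia at `q`,
Frobenius is `-q w` if the system `a` does not occur at level `M`.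
-/

set_option autoImplicit false
set_option synthInstance.maxHeartbeats 400000

noncomputable section

namespace Fermat.Agent.RT.LowerQ

open AlgebraicCurve ModularCurve
open Fermat.Agent.Semistable (FB wEquiv)
open Arith (QBar GQ)

/-- The `p`-torsion of `J₀(N)` on which `T_ℓ`, `ℓ ∉ S`, is multiplication by `a ℓ`. -/
def EigTors (N : ℕ) [NeZero N] (p : ℕ) (S : Finset ℕ) (a : ℕ → ZMod p) : AddSubgroup (JZero N) where
  carrier := {x | p • x = 0 ∧ ∀ (ℓ : ℕ) (hℓ : ℓ.Prime), ℓ ∉ S →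
    heckeOperatorBar N ⟨ℓ, hℓ⟩ x = (a ℓ).val • x}
  zero_mem' := ⟨nsmul_zero _, fun ℓ hℓ _ => by rw [map_zero]; exact (nsmul_zero _).symm⟩
  add_mem' := fun {x y} hx hy => ⟨by rw [nsmul_add, hx.1, hy.1, add_zero], fun ℓ hℓ hS => by
    rw [map_add, hx.2 ℓ hℓ hS, hy.2 ℓ hℓ hS]
    exact (nsmul_add x y _).symm⟩
  neg_mem' := fun {x} hx => ⟨by rw [neg_nsmul, hx.1, neg_zero], fun ℓ hℓ hS => by
    rw [map_neg, hx.2 ℓ hℓ hS]
    exact (neg_nsmul x _).symm⟩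

theorem mem_eigTors {N : ℕ} [NeZero N] {p : ℕ} {S : Finset ℕ} {a : ℕ → ZMod p} {x : JZero N} :
    x ∈ EigTors N p S a ↔ p • x = 0 ∧ ∀ (ℓ : ℕ) (hℓ : ℓ.Prime), ℓ ∉ S →
      heckeOperatorBar N ⟨ℓ, hℓ⟩ x = (a ℓ).val • x := Iff.rfl

/-- The involution `w_q` of level `q M` as a semilinear automorphism. -/
def wJ (q M : ℕ) [Fact q.Prime] [NeZero M] (hqM : ¬ q ∣ M) : SemilinearAut QBar (FB (q * M)) :=
  SemilinearAut.ofAlgAut (wEquiv q M hqM)

/-- On inertia-fixed eigen torsion at level `q M` of a system not occurring at level `M`, a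
Frobenius element at `q` is `-q w`. -/
def ToricProperty (p q M : ℕ) [Fact q.Prime] [NeZero M] (hqM : ¬ q ∣ M) : Prop :=
  ∀ (S : Finset ℕ) (a : ℕ → ZMod p),
    (∀ ℓ : ℕ, ℓ.Prime → ℓ ∣ q * M * p → ℓ ∈ S) →
    (∃ ℓ : ℕ, ℓ.Prime ∧ ℓ ∉ S ∧ a ℓ ≠ (ℓ : ZMod p) + 1) →
    EigTors M p S a = ⊥ →
    ∀ A : ValuationSubring QBar, A.LiesOverPrime q →
      ∀ x ∈ EigTors (q * M) p S a, (∀ τ ∈ A.inertiaSubgroupIn ℚ, τ • x = x) →
        ∀ σ : GQ, A.IsFrobeniusAt σ q → σ • x + q • (wJ q M hqM • x) = 0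

end Fermat.Agent.RT.LowerQ

end
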