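import Fermat.Agent.EichlerShimura.Equivariance
import Fermat.Agent.RT.MazurP.HeckeSeries
import Fermat.Agent.RT.LowerQ.Defs

/-!
# Kummer functions and the operators on torsion classes

Semilinear automorphisms and Hecke operators on torsion classes in terms of Kummer functions.
-/

set_option autoImplicit false
set_option synthInstance.maxHeartbeats 400000
set_option maxHeartbeats 1000000
set_option linter.unusedSectionVars false

noncomputable section

namespace Fermat.Agent.RT.LowerQ

open AlgebraicCurve ModularCurve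
open Fermat.Agent.JacTorsion (divGrp toTorsion divQuot smul_divQuot eq_of_smul_eq powGrp)
open Fermat.Agent.Semistable
open Arith (QBar GQ)

section Generic

variable {K F : Type*} [Field K] [Field F] [Algebra K F] [FF.IsFunctionField K F]
  {m : ℕ} [NeZero m]

/-- A semilinear automorphism on functions with divisor divisible by `m`. -/
def smulDiv (g : SemilinearAut K F) (f : divGrp K F m) : divGrp K F m :=
  ⟨Units.mk0 (g • ((f : Fˣ) : F)) ((smul_ne_zero_iff_ne g).mpr (Units.ne_zero _)), fun v => by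
    have h := SemilinearAut.ord_smul g (g⁻¹ • v) ((f : Fˣ) : F)
    rw [smul_inv_smul] at h
    show (m : ℤ) ∣ v.ord (g • ((f : Fˣ) : F))
    rw [h]
    exact f.2 _⟩

theorem coe_smulDiv (g : SemilinearAut K F) (f : divGrp K F m) :
    ((smulDiv g f : Fˣ) : F) = g • ((f : Fˣ) : F) := rfl

/-- Semilinear automorphisms on torsion classes. -/
theorem smul_toTorsion (g : SemilinearAut K F) (f : divGrp K F m) :
    g • (toTorsion (Additive.ofMul f) : Pic0 K F) =
      (toTorsion (Additive.ofMul (smulDiv g f)) : Pic0 K F) := by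
  show g • Pic0.mk _ = Pic0.mk _
  rw [SemilinearAut.pic0_smul_mk]
  refine congrArg Pic0.mk (Subtype.ext (eq_of_smul_eq (m := m) ?_))
  show (m : ℤ) • (g • divQuot f) = (m : ℤ) • divQuot (smulDiv g f)
  rw [smul_divQuot, coe_smulDiv, ← EichlerShimura.smul_div, ← smul_divQuot]
  exact (map_zsmul (DistribSMul.toAddMonoidHom (Divisor K F) g) _ _).symm

theorem toTorsion_congr {f f' : divGrp K F m} (h : ((f : Fˣ) : F) = ((f' : Fˣ) : F)) :
    toTorsion (Additive.ofMul f) = toTorsion (Additive.ofMul f') := by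
  rw [show f = f' from Subtype.ext (Units.ext h)]

/-- A Kummer function is a power exactly when its class vanishes. -/
theorem toTorsion_eq_zero_of_eq_pow [IsAlgClosed K] {f : divGrp K F m} {g : F}
    (h : ((f : Fˣ) : F) = g ^ m) : toTorsion (Additive.ofMul f) = 0 := by
  have hg : g ≠ 0 := fun h0 => (f : Fˣ).ne_zero (by rw [h, h0, zero_pow (NeZero.ne m)])
  exact (JacTorsion.toTorsion_eq_zero_iff f).mpr ⟨Units.mk0 g hg, Units.ext (by simpa using h.symm)⟩

theorem exists_eq_pow_of_toTorsion_eq_zero [IsAlgClosed K] {f : divGrp K F m}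
    (h : toTorsion (Additive.ofMul f) = 0) : ∃ g : F, g ≠ 0 ∧ ((f : Fˣ) : F) = g ^ m := by
  obtain ⟨g, hg⟩ := (JacTorsion.toTorsion_eq_zero_iff f).mp h
  refine ⟨g, g.ne_zero, ?_⟩
  have h1 := congrArg Units.val hg
  simpa using h1.symm

theorem nsmul_toTorsion (f : divGrp K F m) (k : ℕ) :
    (toTorsion (Additive.ofMul (f ^ k)) : Pic0 K F) =
      k • (toTorsion (Additive.ofMul f) : Pic0 K F) := by
  rw [ofMul_pow, map_nsmul, AddSubgroupClass.coe_nsmul]

theorem add_toTorsion (f f' : divGrp K F m) :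
    (toTorsion (Additive.ofMul (f * f')) : Pic0 K F) =
      (toTorsion (Additive.ofMul f) : Pic0 K F) + (toTorsion (Additive.ofMul f') : Pic0 K F) := by
  rw [ofMul_mul, map_add, AddSubgroup.coe_add]

theorem nsmul_m_toTorsion (f : divGrp K F m) :
    m • (toTorsion (Additive.ofMul f) : Pic0 K F) = 0 := by
  have := Pic0.mem_torsion.mp (toTorsion (Additive.ofMul f)).2
  rwa [natCast_zsmul] at this

end Generic

section Modular

variable {N : ℕ} [NeZero N] {m : ℕ} [NeZero m]

/-- Galois on Kummer classes. -/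
theorem galois_smul_toTorsion (σ : GQ) (f : divGrp QBar (FB N) m) :
    σ • (toTorsion (Additive.ofMul f) : JZero N) =
      (toTorsion (Additive.ofMul (smulDiv (arithmeticGalois (modularFunctionFieldFull N) σ) f)) :
        JZero N) :=
  smul_toTorsion _ f

theorem coe_smulDiv_galois (σ : GQ) (f : divGrp QBar (FB N) m) :
    ((smulDiv (arithmeticGalois (modularFunctionFieldFull N) σ) f : (FB N)ˣ) : FB N) =
      galF N σ ((f : (FB N)ˣ) : FB N) :=
  rfl

variable (l : ℕ) [NeZero l]

theorem exists_norm_divGrp (hl : l.Prime) (f : divGrp QBar (FB N) m) :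
    ∃ f' : divGrp QBar (FB N) m,
      ((f' : (FB N)ˣ) : FB N) = MazurP.heckeNorm N l ((f : (FB N)ˣ) : FB N) ∧
      heckeOperatorBar N ⟨l, hl⟩ (toTorsion (Additive.ofMul f) : JZero N) =
        (toTorsion (Additive.ofMul f') : JZero N) := by
  have hin := FF.heckeInputsAlong QBar N l
  haveI := hin.snd.snd.fst
  obtain ⟨f', hf', htor⟩ := GaloisReps.correspondence_toTorsion (heckeBetaBar QBar N l)
    (heckeAlphaBar QBar N l) hin.snd.fst hin.fst hin.snd.snd.snd.snd.1
    hin.snd.snd.snd.fst hin.snd.snd.snd.snd.2 f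
  refine ⟨f', hf', ?_⟩
  show heckeOperatorAlong QBar N l _ = _
  rw [heckeOperatorAlong, dif_pos hin]
  exact htor.symm

/-- A class is an eigen class if the norm of its function is a power of it up to `m`-th powers. -/
theorem eigen_of_norm_eq (hl : l.Prime) (f : divGrp QBar (FB N) m) (a : ℕ) {h : FB N}
    (he : MazurP.heckeNorm N l ((f : (FB N)ˣ) : FB N) = ((f : (FB N)ˣ) : FB N) ^ a * h ^ m) :
    heckeOperatorBar N ⟨l, hl⟩ (toTorsion (Additive.ofMul f) : JZero N) =
      a • (toTorsion (Additive.ofMul f) : JZero N) := by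
  obtain ⟨f', hf', hT⟩ := exists_norm_divGrp l hl f
  have h0 : toTorsion (Additive.ofMul (f' * (f ^ a)⁻¹)) = 0 := by
    refine toTorsion_eq_zero_of_eq_pow (g := h) ?_
    push_cast
    rw [hf', he, mul_comm (_ ^ a), mul_assoc, mul_inv_cancel₀ (pow_ne_zero _ (Units.ne_zero _)),
      mul_one]
  rw [ofMul_mul, ofMul_inv, map_add, map_neg, add_neg_eq_zero] at h0
  rw [hT, h0, nsmul_toTorsion]

end Modular

section Involution

variable {q M : ℕ} [Fact q.Prime] [NeZero M] {hqM : ¬ q ∣ M} {m : ℕ} [NeZero m]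

theorem coe_smulDiv_wJ (f : divGrp QBar (FB (q * M)) m) :
    ((smulDiv (wJ q M hqM) f : (FB (q * M))ˣ) : FB (q * M)) =
      wEquiv q M hqM ((f : (FB (q * M))ˣ) : FB (q * M)) :=
  rfl

/-- `w` commutes with the Hecke operators away from the level on torsion. -/
theorem hecke_wJ {l : ℕ} (hl : l.Prime) (hN : ¬ l ∣ q * M) {x : JZero (q * M)} (hx : m • x = 0) :
    heckeOperatorBar (q * M) ⟨l, hl⟩ (wJ q M hqM • x) =
      wJ q M hqM • heckeOperatorBar (q * M) ⟨l, hl⟩ x := by
  have : NeZero l := ⟨hl.ne_zero⟩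
  obtain ⟨f', hf⟩ := JacTorsion.toTorsion_surjective (m := m)
    (⟨x, Pic0.mem_torsion.mpr (by rw [natCast_zsmul]; exact hx)⟩ :
      Pic0.torsion QBar (FB (q * M)) m)
  obtain ⟨f, rfl⟩ : ∃ f, Additive.ofMul f = f' := ⟨Additive.toMul f', rfl⟩
  obtain rfl : x = (toTorsion (Additive.ofMul f) : JZero (q * M)) :=
    (congrArg Subtype.val hf).symm
  obtain ⟨f₁, h1, hT1⟩ := exists_norm_divGrp l hl f
  obtain ⟨f₂, h2, hT2⟩ := exists_norm_divGrp l hl (smulDiv (wJ q M hqM) f)
  rw [hT1, smul_toTorsion, smul_toTorsion, hT2]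
  refine congrArg Subtype.val (toTorsion_congr ?_)
  rw [h2, coe_smulDiv_wJ, coe_smulDiv_wJ, h1, MazurP.heckeNorm_wEquiv q M l hqM hl hN]

/-- `w` commutes with Galois. -/
theorem galois_wJ (σ : GQ) {x : JZero (q * M)} (hx : m • x = 0) :
    σ • (wJ q M hqM • x) = wJ q M hqM • (σ • x) := by
  obtain ⟨f', hf⟩ := JacTorsion.toTorsion_surjective (m := m)
    (⟨x, Pic0.mem_torsion.mpr (by rw [natCast_zsmul]; exact hx)⟩ :
      Pic0.torsion QBar (FB (q * M)) m)
  obtain ⟨f, rfl⟩ : ∃ f, Additive.ofMul f = f' := ⟨Additive.toMul f', rfl⟩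
  obtain rfl : x = (toTorsion (Additive.ofMul f) : JZero (q * M)) :=
    (congrArg Subtype.val hf).symm
  rw [smul_toTorsion, galois_smul_toTorsion, galois_smul_toTorsion, smul_toTorsion]
  refine congrArg Subtype.val (toTorsion_congr ?_)
  rw [coe_smulDiv_galois, coe_smulDiv_wJ, coe_smulDiv_wJ, coe_smulDiv_galois]
  exact (wEquiv_galois q M hqM σ _).symm

end Involution

end Fermat.Agent.RT.LowerQ

end
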