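import Fermat.Agent.FF.Along
import Fermat.Agent.Gamma0.Coset
import Fermat.Agent.Semistable.Spaces
import Fermat.Agent.Semistable.GaloisAction
import Fermat.Agent.RT.Mazur.Scale

/-!
# Inclusions of levels of degree prime to `p`

For `M ∣ M'` the inclusion of level `q M` in level `q M'` commutes with `w`, keeps both
reductions, and orders divisible by `p`, as well as `p`-th powers, descend along inclusions of
degree prime to `p`.
-/

set_option autoImplicit false
set_option synthInstance.maxHeartbeats 400000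
set_option maxHeartbeats 1000000
set_option linter.unusedSectionVars false

noncomputable section

namespace Fermat.Agent.RT.LowerQ

open AlgebraicCurve ModularCurve
open Fermat.Agent.Semistable Fermat.Agent.RT.Mazur
open Arith (QBar GQ)

/-! ### Descent along a finite morphism of function fields -/

section Descent

variable {K F F' : Type*} [Field K] [Field F] [Field F'] [Algebra K F] [Algebra K F']
  [FF.IsFunctionField K F] [FF.IsFunctionField K F'] (j : F →ₐ[K] F')

theorem norm_along_apply (f : F) :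
    (letI := algebraAlong j; Algebra.norm F (j f)) = f ^ finrankAlong K j :=
  letI := algebraAlong j
  Algebra.norm_algebraMap (S := F') f

/-- The degree of a morphism from the degrees of the poles of a function. -/
theorem finrankAlong_mul {x : F} (hx : Transcendental K x) :
    Divisor.degree (FF.poles K x) * (finrankAlong K j : ℤ) =
      Divisor.degree (FF.poles K (j x)) := by
  letI := algebraAlong j
  haveI := isScalarTower_along j
  haveI : Module.Finite F F' := FF.finiteAlong j
  rw [show j x = algebraMap F F' x from rfl, FF.degree_poles hx,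
    FF.degree_poles (FF.transcendental_algebraMap (F' := F') hx),
    (FF.finite_and_finrank_adjoin_algebraMap (F' := F') hx).2]
  push_cast [finrankAlong]
  rfl

variable {m : ℕ}

/-- Divisibility of orders descends along a morphism of degree prime to `m`. -/
theorem dvd_ord_descend (hd : m.Coprime (finrankAlong K j)) {f : F} (hf : f ≠ 0)
    (h : ∀ w : Place K F', (m : ℤ) ∣ w.ord (j f)) (v : Place K F) : (m : ℤ) ∣ v.ord f := by
  letI := algebraAlong j
  have h1 := FF.ord_norm_along j (FF.isIntegralAlong j) v (f := j f) ((map_ne_zero j).mpr hf)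
  rw [norm_along_apply j f, FF.ord_pow] at h1
  have h2 : (m : ℤ) ∣ (finrankAlong K j : ℤ) * v.ord f :=
    h1 ▸ Finset.dvd_sum fun w _ => (h w).mul_right _
  refine (Int.isCoprime_iff_nat_coprime.mpr ?_).dvd_of_dvd_mul_left h2
  simpa using hd

/-- Powers descend along a morphism of degree prime to `m`. -/
theorem exists_pow_descend (hm : m ≠ 0) (hd : m.Coprime (finrankAlong K j)) {f : F} (hf : f ≠ 0) {g : F'}
    (h : j f = g ^ m) : ∃ g₀ : F, g₀ ≠ 0 ∧ f = g₀ ^ m := by
  letI := algebraAlong j
  have h1 : f ^ (finrankAlong K j : ℤ) = (Algebra.norm F g) ^ (m : ℤ) := by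
    rw [zpow_natCast, zpow_natCast, ← map_pow, ← h, norm_along_apply j f]
  obtain ⟨u, v, huv⟩ := Int.isCoprime_iff_nat_coprime.mpr
    (show Nat.Coprime ((m : ℤ)).natAbs ((finrankAlong K j : ℤ)).natAbs by simpa using hd)
  have e : f = (f ^ u * (Algebra.norm F g) ^ v) ^ m := by
    rw [← zpow_natCast, mul_zpow, ← zpow_mul, ← zpow_mul, mul_comm v, zpow_mul _ (m : ℤ), ← h1,
      ← zpow_mul, ← zpow_add₀ hf, mul_comm (finrankAlong K j : ℤ), huv, zpow_one]
  exact ⟨_, fun h0 => hf (by rw [e, h0, zero_pow hm]), e⟩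

end Descent

/-! ### The level `4 M` -/

theorem dedekindPsi_four_mul {M : ℕ} :
    dedekindPsi (4 * M) = 4 * dedekindPsi M ∨ dedekindPsi (4 * M) = 6 * dedekindPsi M := by
  rw [show 4 * M = 2 * (2 * M) by ring,
    Gamma0.dedekindPsi_mul_of_dvd Nat.prime_two (dvd_mul_right 2 M)]
  by_cases h : 2 ∣ M
  · left
    rw [Gamma0.dedekindPsi_mul_of_dvd Nat.prime_two h]; ring
  · right
    rw [Gamma0.dedekindPsi_mul_of_not_dvd Nat.prime_two h]; ring

theorem coprime_degree {p d a : ℕ} (hp : p.Prime) (hp5 : 5 ≤ p) (ha : 0 < a)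
    (h : a * d = 4 * a ∨ a * d = 6 * a) : p.Coprime d := by
  rw [mul_comm 4 a, mul_comm 6 a, Nat.mul_right_inj ha.ne', Nat.mul_right_inj ha.ne'] at h
  refine (Nat.Prime.coprime_iff_not_dvd hp).mpr fun hd => ?_
  have : p ≤ d := Nat.le_of_dvd (by omega) hd
  rcases h with rfl | rfl
  · omega
  · interval_cases p <;> simp_all (config := { decide := true })

/-! ### The inclusions -/

theorem fb_le_of_dvd {N N' : ℕ} [NeZero N] [NeZero N'] (h : N ∣ N') : FB N ≤ FB N' := by
  rw [fb_eq_adjoin N, IntermediateField.adjoin_le_iff]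
  rintro _ ⟨d, rfl⟩
  exact gen_mem N' ⟨d.1, d.2.trans h⟩

/-- The inclusion of a lower level. -/
def inclF {N N' : ℕ} [NeZero N] [NeZero N'] (h : N ∣ N') : FB N →ₐ[QBar] FB N' :=
  IntermediateField.inclusion (fb_le_of_dvd h)

theorem coe_inclF {N N' : ℕ} [NeZero N] [NeZero N'] (h : N ∣ N') (x : FB N) :
    (inclF h x : LSer) = (x : LSer) :=
  IntermediateField.coe_inclusion (fb_le_of_dvd h) x

theorem galF_inclF {N N' : ℕ} [NeZero N] [NeZero N'] (h : N ∣ N') (σ : GQ) (x : FB N) :
    galF N' σ (inclF h x) = inclF h (galF N σ x) :=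
  Subtype.ext (by
    rw [coe_arithmeticRingAut, coe_inclF, coe_inclF, coe_arithmeticRingAut])

variable {q : ℕ} [hq : Fact q.Prime] {M M' : ℕ} [NeZero M] [NeZero M'] {hqM : ¬ q ∣ M}
  {hqM' : ¬ q ∣ M'}

theorem wEquiv_inclF (h : M ∣ M') (x : FB (q * M)) :
    wEquiv q M' hqM' (inclF (mul_dvd_mul_left q h) x) =
      inclF (mul_dvd_mul_left q h) (wEquiv q M hqM x) := by
  refine Subtype.ext ?_
  rw [coe_inclF]
  have key : ((FB (q * M')).val.comp ((wEquiv q M' hqM').toAlgHom.comp
        (inclF (mul_dvd_mul_left q h)))).toRingHom =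
      ((FB (q * M)).val.comp (wEquiv q M hqM).toAlgHom).toRingHom := by
    refine fb_ringHom_ext (fun a => ?_) fun d => ?_
    · simp
    show (wEquiv q M' hqM' (inclF (mul_dvd_mul_left q h) (genF _ d)) : LSer) =
      (wEquiv q M hqM (genF _ d) : LSer)
    obtain ⟨d, hd⟩ := d
    have e : (inclF (mul_dvd_mul_left q h) (genF (q * M) ⟨d, hd⟩) : FB (q * M')) =
        genF (q * M') ⟨d, hd.trans (mul_dvd_mul_left q h)⟩ :=
      Subtype.ext (coe_inclF _ _)
    rw [e]
    rcases dvs_cases q M hq.out hd with hdM | ⟨d', hd', rfl⟩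
    · have : NeZero d := ⟨fun h0 => NeZero.ne M (Nat.eq_zero_of_zero_dvd (h0 ▸ hdM))⟩
      rw [wEquiv_gen_of_dvd q M' hqM' (hdM.trans h), wEquiv_gen_of_dvd q M hqM hdM]
    · have : NeZero d' := ⟨fun h0 => NeZero.ne M (Nat.eq_zero_of_zero_dvd (h0 ▸ hd'))⟩
      rw [wEquiv_gen_mul q M' hqM' (hd'.trans h), wEquiv_gen_mul q M hqM hd']
  exact DFunLike.congr_fun key x

theorem iota2_inclF (h : M ∣ M') (s : Fin 2) (x : FB (q * M)) :
    iota2 M' q hqM' s (inclF (mul_dvd_mul_left q h) x) = iota2 M q hqM s x := by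
  fin_cases s
  · exact coe_inclF (mul_dvd_mul_left q h) x
  · show (wEquiv q M' hqM' (inclF (mul_dvd_mul_left q h) x) : LSer) = (wEquiv q M hqM x : LSer)
    rw [wEquiv_inclF (hqM := hqM) h, coe_inclF]

variable {A : ValuationSubring QBar}

theorem inclF_mem_loc2 (h : M ∣ M') (x : loc2 A (iota2 M q hqM)) :
    inclF (mul_dvd_mul_left q h) (x : FB (q * M)) ∈ loc2 A (iota2 M' q hqM') :=
  (mem_loc2 _).mpr fun s => by rw [iota2_inclF (hqM := hqM) h]; exact (mem_loc2 _).mp x.2 s

/-- The inclusion on integral elements. -/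
def inclLoc (h : M ∣ M') (x : loc2 A (iota2 M q hqM)) : loc2 A (iota2 M' q hqM') :=
  ⟨_, inclF_mem_loc2 (hqM' := hqM') h x⟩

theorem red2_inclLoc (h : M ∣ M') (x : loc2 A (iota2 M q hqM)) :
    red2 A (iota2 M' q hqM') (inclLoc (hqM' := hqM') h x) = red2 A (iota2 M q hqM) x :=
  funext fun s => redL_congr _ _ (iota2_inclF h s _)

/-- The inclusion over the residue field. -/
theorem km_le (A : ValuationSubring QBar) (h : M ∣ M') : KM A M ≤ KM A M' :=
  IntermediateField.adjoin.mono _ _ _ (by
    rintro _ ⟨d, hd, hdM, rfl⟩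
    exact ⟨d, hd, hdM.trans h, rfl⟩)

/-- The inclusion of residual function fields. -/
def inclK (A : ValuationSubring QBar) (h : M ∣ M') : KM A M →ₐ[Res A] KM A M' :=
  IntermediateField.inclusion (km_le A h)

theorem coe_inclK (h : M ∣ M') (x : KM A M) :
    (inclK A h x : LaurentSeries (Res A)) = (x : LaurentSeries (Res A)) :=
  IntermediateField.coe_inclusion (km_le A h) x

/-- The degree from level `q M` to level `4 q M` is prime to `p ≥ 5`. -/
theorem coprime_finrankAlong_inclF {p : ℕ} (hp : p.Prime) (hp5 : 5 ≤ p) (hM' : M' = 4 * M)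
    [FF.IsFunctionField QBar (FB (q * M))] [FF.IsFunctionField QBar (FB (q * M'))]
    (h : M ∣ M') : p.Coprime (finrankAlong QBar (inclF (mul_dvd_mul_left q h) :
      FB (q * M) →ₐ[QBar] FB (q * M'))) := by
  have h1 := finrankAlong_mul (inclF (mul_dvd_mul_left q h) : FB (q * M) →ₐ[QBar] FB (q * M'))
    (x := upF M q (jM M)) (transcendental_upF_jM M q)
  rw [show inclF (mul_dvd_mul_left q h) (upF M q (jM M)) = upF M' q (jM M') from Subtype.ext (by
      rw [coe_inclF, coe_upF, coe_upF, coe_jM, coe_jM]),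
    degree_poles_upF_jM, degree_poles_upF_jM] at h1
  refine coprime_degree hp hp5 (dedekindPsi_pos (q * M)) ?_
  have hψ : dedekindPsi (q * M') = dedekindPsi (4 * (q * M)) :=
    congrArg dedekindPsi (by rw [hM']; ring)
  rcases dedekindPsi_four_mul (M := q * M) with e | e
  · exact Or.inl (Nat.cast_injective (R := ℤ) (by push_cast; rw [h1, hψ, e]; push_cast; ring))
  · exact Or.inr (Nat.cast_injective (R := ℤ) (by push_cast; rw [h1, hψ, e]; push_cast; ring))

/-- The same over the residue field. -/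
theorem coprime_finrankAlong_inclK {p : ℕ} (hp : p.Prime) (hp5 : 5 ≤ p) (hM' : M' = 4 * M)
    [FF.IsFunctionField (Res A) (KM A M)] [FF.IsFunctionField (Res A) (KM A M')]
    (hM : (M : Res A) ≠ 0) (hM'0 : (M' : Res A) ≠ 0)
    (h : M ∣ M') : p.Coprime (finrankAlong (Res A) (inclK A h)) := by
  have h1 := finrankAlong_mul (inclK A h) (x := jK A M) (jK_transcendental (A := A) M)
  rw [show inclK A h (jK A M) = jK A M' from Subtype.ext (by rw [coe_inclK, coe_jK, coe_jK]),
    degree_poles_jK M hM, degree_poles_jK M' hM'0] at h1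
  refine coprime_degree hp hp5 (dedekindPsi_pos M) ?_
  have hψ : dedekindPsi M' = dedekindPsi (4 * M) := congrArg dedekindPsi hM'
  rcases dedekindPsi_four_mul (M := M) with e | e
  · exact Or.inl (Nat.cast_injective (R := ℤ) (by push_cast; rw [h1, hψ, e]; push_cast; ring))
  · exact Or.inr (Nat.cast_injective (R := ℤ) (by push_cast; rw [h1, hψ, e]; push_cast; ring))

end Fermat.Agent.RT.LowerQ

end
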