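import Fermat.Agent.RT.Assembly.Final
import Fermat.Agent.RT.Lifting.GalAlg.Cond
import Fermat.Agent.RT.Lifting.Transfer

/-!
# The glued representations satisfy a condition which holds at the points

`condAtPInput_of_pointCond`: a pair condition holding for the representations of newforms of level
not divisible by `p ^ 2` holds for the glued representations at squarefree levels.
-/

set_option autoImplicit false
set_option linter.style.haveILetI false

noncomputable section

namespace Fermat.Agent.RT.LowerQ

open IsLocalRing Module CongruenceSubgroup ModularFormClass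
open Fermat.Agent.Deform Fermat.Agent.Arith Fermat.Agent.RT.Assembly
open Fermat.Agent.GaloisReps (HeckeGaloisModel)
open Fermat.Agent.RT.Lifting (IsPairCond PointCond)

variable {O : Type} [CommRing O] [IsDomain O] [IsDiscreteValuationRing O]
  [IsAdicComplete (maximalIdeal O) O]

section Ker

variable {ρbar : ResidualGaloisRep (ResidueField O)} {C : CondAt O} {W : Rigid O}
  {bb : Basis (Fin 2) (ResidueField O) ρbar.V} {R B : Type} [CommRing R] [IsLocalRing R]
  [Algebra O R] [Module.Finite O R] [CommRing B] [IsDomain B] [IsLocalRing B] [Algebra O B]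
  [Module.Finite O B]

omit [IsAdicComplete (maximalIdeal O) O] [IsDomain B] [Module.Finite O B] in
/-- A map from a finite algebra with residue field that of `O` is local. -/
theorem isLocalHom_algHom (hB : IsLocalHom (algebraMap O B)) (x : R →ₐ[O] B) :
    IsLocalHom (x : R →+* B) := by
  refine ⟨fun a ha => ?_⟩
  by_contra h
  obtain ⟨k, hk⟩ : ∃ k, maximalIdeal R ^ k ≤ (maximalIdeal O).map (algebraMap O R) := by
    haveI : IsNoetherianRing R := IsNoetherianRing.of_finite O R
    refine Ideal.exists_pow_le_of_le_radical_of_fg ?_ (IsNoetherian.noetherian _)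
    rw [Ideal.radical_eq_sInf]
    refine le_sInf fun P hP => ?_
    haveI := hP.2
    have hc : P.comap (algebraMap O R) = maximalIdeal O := by
      refine le_antisymm (IsLocalRing.le_maximalIdeal ?_) fun o ho => hP.1 (Ideal.mem_map_of_mem _ ho)
      exact (Ideal.IsPrime.comap _).ne_top
    have : P.IsMaximal := Ideal.isMaximal_of_isIntegral_of_isMaximal_comap P
      (by rw [hc]; exact maximalIdeal.isMaximal O)
    exact (IsLocalRing.eq_maximalIdeal this).ge
  have h1 : (x : R →+* B) (a ^ k) ∈ maximalIdeal B := by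
    have h2 := Ideal.mem_map_of_mem (x : R →+* B) (hk (Ideal.pow_mem_pow h k))
    rw [Ideal.map_map, x.comp_algebraMap] at h2
    refine (Ideal.map_le_iff_le_comap.mpr fun o ho => ?_) h2
    haveI := hB
    exact map_nonunit (algebraMap O B) o ho
  rw [map_pow] at h1
  exact h1 (ha.pow k)

omit [IsDomain B] in
/-- A point with values in a finite domain satisfying the condition gives it modulo its kernel. -/
theorem condMod_ker_of_finite (hW : W.rb = matRes ρbar bb) (hC : IsPairCond ρbar C)
    (hR : IsResAlg O R) {ρ : Gal →* M2 R} (hl : Lifts W hR ρ) (hc : IsCont ρ)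
    (hB : IsLocalHom (algebraMap O B)) (x : R →ₐ[O] B)
    (hx : ∀ hc', C (toRep (mapM (x : R →+* B) ρ) hc')) :
    Lifting.GalAlg.CondMod C ρ (RingHom.ker x) := by
  intro _ hcJ
  haveI := (Lifting.GalAlg.isResAlg_quotient (J := RingHom.ker x) hR).isLocalHom
  let φ : R ⧸ RingHom.ker x →ₐ[O] B := Ideal.Quotient.liftₐ (RingHom.ker x) x fun _ h => h
  have hinj : Function.Injective φ := RingHom.kerLift_injective (x : R →+* B)
  have hxl : IsLocalHom (x : R →+* B) := isLocalHom_algHom hB x
  have hφl : IsLocalHom (φ : R ⧸ RingHom.ker x →+* B) := ⟨fun a ha => by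
    obtain ⟨a, rfl⟩ := Ideal.Quotient.mk_surjective a
    exact (hxl.map_nonunit a ha).map _⟩
  refine hC.descend φ hφl _ hinj (Lifting.GalAlg.residual_quotient hW hC hR hl hcJ) ?_
  refine hC.of_isEquiv (isEquiv_symm (isEquiv_trans (isEquiv_baseChangeAlong_toRep _ hφl _ hcJ)
    (isEquiv_toRep_congr ?_ _ (hc.map _ hxl)))) (hx _)
  rw [mapM_mapM]
  rfl

/-- A finite jointly injective family of points in finite domains gives the condition. -/
theorem cond_of_finite_points (hW : W.rb = matRes ρbar bb) (hC : IsPairCond ρbar C)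
    (hR : IsResAlg O R) {ρ : Gal →* M2 R} (hl : Lifts W hR ρ) (hc : IsCont ρ) {I : Type}
    [Finite I] [Nonempty I] (J : I → Ideal R) (hJ : ∀ i, J i ≠ ⊤)
    (hinj : ∀ a, (∀ i, a ∈ J i) → a = 0) (hcond : ∀ i, Lifting.GalAlg.CondMod C ρ (J i)) :
    C (toRep ρ hc) := by
  classical
  haveI := Fintype.ofFinite I
  have hne : ∀ s : Finset I, s.Nonempty → s.inf J ≠ ⊤ := by
    rintro s ⟨i, hi⟩ htop
    exact hJ i (top_le_iff.1 (htop ▸ Finset.inf_le hi))
  have key : ∀ s : Finset I, s.Nonempty → Lifting.GalAlg.CondMod C ρ (s.inf J) := by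
    intro s hs
    induction hs using Finset.Nonempty.cons_induction with
    | singleton i =>
      rw [Finset.inf_singleton]
      exact hcond i
    | cons i s hi hs ih =>
      rw [Finset.inf_cons]
      exact Lifting.GalAlg.condMod_inf hW hC hR hl hc (hJ i) (hne s hs) (hcond i) ih
  set J' := Finset.univ.inf J
  haveI := Lifting.GalAlg.isLocalRing_quotient (hne _ Finset.univ_nonempty)
  have hinj' : Function.Injective (Ideal.Quotient.mkₐ O J') := by
    refine (injective_iff_map_eq_zero _).2 fun a ha => hinj a fun i => ?_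
    exact Finset.inf_le (f := J) (Finset.mem_univ i) (Ideal.Quotient.eq_zero_iff_mem.1 ha)
  haveI := hR.isLocalHom
  have hres := residual_isEquiv_of_lifts hW hR (toRep ρ hc) (Pi.basisFun R (Fin 2))
    ((matOf_toRep ρ hc).symm ▸ hl)
  exact hC.descend (Ideal.Quotient.mkₐ O J') Lifting.GalAlg.isLocalHom_mk _ hinj' hres
    (hC.of_isEquiv (isEquiv_symm (isEquiv_baseChangeAlong_toRep _ Lifting.GalAlg.isLocalHom_mk ρ hc))
      (key _ Finset.univ_nonempty (hc.map _ Lifting.GalAlg.isLocalHom_mk)))

end Ker

omit [IsDomain O] [IsDiscreteValuationRing O] [IsAdicComplete (maximalIdeal O) O] in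
/-- A finite algebra has finitely many points in a field. -/
theorem finite_algHom_field {A K : Type} [CommRing A] [Algebra O A] [Module.Finite O A] [Field K]
    [Algebra O K] : Finite (A →ₐ[O] K) := by
  classical
  obtain ⟨n, t, ht⟩ := Submodule.fg_iff_exists_fin_generating_family.mp
    (Module.Finite.fg_top (R := O) (M := A))
  choose P hP hP0 using fun i => Algebra.IsIntegral.isIntegral (R := O) (t i)
  have hmem : ∀ (χ : A →ₐ[O] K) (i : Fin n),
      χ (t i) ∈ ((P i).map (algebraMap O K)).roots.toFinset := fun χ i => by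
    rw [Multiset.mem_toFinset, Polynomial.mem_roots ((hP i).map _).ne_zero, Polynomial.IsRoot,
      Polynomial.eval_map]
    exact (Polynomial.aeval_algHom_apply χ (t i) (P i)).trans
      ((congrArg χ (hP0 i)).trans (map_zero χ))
  refine Finite.of_injective (β := ∀ i : Fin n, ((P i).map (algebraMap O K)).roots.toFinset)
    (fun χ i => ⟨χ (t i), hmem χ i⟩) fun χ χ' h => AlgHom.ext fun a => ?_
  have ha : a ∈ Submodule.span O (Set.range t) := ht ▸ Submodule.mem_top
  induction ha using Submodule.span_induction with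
  | mem x hx =>
    obtain ⟨i, rfl⟩ := hx
    exact congrArg Subtype.val (congrFun h i)
  | zero => rw [map_zero, map_zero]
  | add x y _ _ hx hy => rw [map_add, map_add, hx, hy]
  | smul c x _ hx => rw [map_smul, map_smul, hx]

variable [Finite (ResidueField O)] [CharZero O] {p : ℕ} [Fact p.Prime]
  [CharP (ResidueField O) p]

/-- The diamonds at `p` are trivial at a squarefree level. -/
theorem psi_eq_one_at_p {L : ℕ} [NeZero L] {Δ : Type} [CommGroup Δ] (hΔ : IsPGroup p Δ)
    (ψ : (ZMod L)ˣ →* Δ) (hL : Squarefree L) (hpL : p ∣ L) (u : (ZMod L)ˣ)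
    (hu : ((u : ZMod L).cast : ZMod (L / p)) = 1) : ψ u = 1 := by
  have hpp : p.Prime := Fact.out
  have hLp : p * (L / p) = L := Nat.mul_div_cancel' hpL
  have hco : Nat.Coprime p (L / p) := Nat.coprime_of_squarefree_mul (hLp.symm ▸ hL)
  have h1 : u ^ (p - 1) = 1 := by
    refine Units.ext ?_
    rw [Units.val_pow_eq_pow_val, Units.val_one]
    have hd1 : p ∣ L := hpL
    have hd2 : L / p ∣ L := Nat.div_dvd_of_dvd hpL
    obtain ⟨a, ha⟩ : ∃ a : ℕ, (u : ZMod L) = (a : ZMod L) := ⟨_, (ZMod.natCast_zmod_val _).symm⟩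
    have e1 : ((a ^ (p - 1) : ℕ) : ZMod p) = 1 := by
      rw [Nat.cast_pow]
      refine ZMod.pow_card_sub_one_eq_one fun h0 => ?_
      have hu' : IsUnit (ZMod.castHom hd1 (ZMod p) (u : ZMod L)) := u.isUnit.map _
      rw [ha, map_natCast, h0] at hu'
      exact not_isUnit_zero hu'
    have e2 : ((a ^ (p - 1) : ℕ) : ZMod (L / p)) = 1 := by
      rw [ha, ZMod.cast_natCast hd2] at hu
      rw [Nat.cast_pow, hu, one_pow]
    rw [ha, ← Nat.cast_pow]
    have m1 : a ^ (p - 1) ≡ 1 [MOD p] := (ZMod.natCast_eq_natCast_iff _ _ _).mp (by rw [e1, Nat.cast_one])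
    have m2 : a ^ (p - 1) ≡ 1 [MOD L / p] :=
      (ZMod.natCast_eq_natCast_iff _ _ _).mp (by rw [e2, Nat.cast_one])
    have m := (Nat.modEq_and_modEq_iff_modEq_mul hco).mp ⟨m1, m2⟩
    rw [hLp] at m
    simpa using (ZMod.natCast_eq_natCast_iff _ _ _).mpr m
  obtain ⟨k, hk⟩ := hΔ (ψ u)
  have h2 : ψ u ^ (p - 1) = 1 := by rw [← map_pow, h1, map_one]
  have hcop : Nat.Coprime (p ^ k) (p - 1) := by
    refine (hpp.coprime_iff_not_dvd.mpr fun h => ?_).pow_left k
    have h2 := hpp.two_le
    have := Nat.le_of_dvd (by omega) h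
    omega
  have h3 : ψ u ^ Nat.gcd (p ^ k) (p - 1) = 1 := pow_gcd_eq_one.mpr ⟨hk, h2⟩
  rwa [hcop.gcd_eq_one, pow_one] at h3

omit [CharP (ResidueField O) p] in
set_option maxHeartbeats 1600000 in
set_option synthInstance.maxHeartbeats 400000 in
/-- **The condition at `p` from the condition at the points.** -/
theorem condAtPInput_of_pointCond (hp : (p : O) ∈ maximalIdeal O)
    {ρbar : ResidualGaloisRep (ResidueField O)} (habs : ρbar.IsAbsolutelyIrreducible)
    (abar : ℕ → ResidueField O) (D : ∀ (M : ℕ) [NeZero M], HeckeGaloisModel M p)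
    {C : CondAt O} (hC : IsPairCond ρbar C) {good : ℕ → Prop}
    (hpt : PointCond p ρbar C good) (hgood : ∀ M : ℕ, ¬ p ^ 2 ∣ M → good M)
    (M₀ : ℕ) (S : Finset ℕ) : CondAtPInput p ρbar abar D C M₀ S := by
  intro L _ Δ _ _ ψ T H _ hΔ hL _ hS pt G hG
  classical
  have hpp : p.Prime := Fact.out
  haveI := Glue.isLocalHom_algebraMap H hp hΔ
  haveI := Glue.isAdicComplete_algebra H
  have hA : IsResAlg O H.algebra :=
    ⟨inferInstance, Glue.residue_algebraMap_surjective H hp hΔ⟩
  obtain ⟨W, hW⟩ := exists_rigid ρbar habs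
    (Module.finBasisOfFinrankEq (ResidueField O) ρbar.V ρbar.finrank_eq)
  obtain ⟨ru, hrc, hl, -, hequiv, -, htr, -⟩ := exists_normalised hW hA G.rep hG
  have hdet : (toRep ru hrc).DetIsCyclotomic p := by
    refine ⟨(G.detIsCyclotomic hp hΔ).1, fun k σ a ha => ?_⟩
    have h := (G.detIsCyclotomic hp hΔ).2 k σ a ha
    obtain ⟨e⟩ := hequiv
    rw [← LinearMap.det_conj (G.rep.ρ σ) e.toLinearEquiv] at h
    refine (congrArg (fun f => LinearMap.det f - (a : H.algebra) ∈ Ideal.span _) ?_).mp h
    refine LinearMap.ext fun x => ?_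
    rw [LinearMap.comp_apply, LinearMap.comp_apply, LinearEquiv.coe_coe, LinearEquiv.coe_coe,
      e.map_apply, LinearEquiv.apply_symm_apply]
  refine hC.of_isEquiv (isEquiv_symm hequiv) ?_
  haveI : Finite (H.algebra →ₐ[O] Glue.KBar O) := finite_algHom_field
  haveI : Nonempty (H.algebra →ₐ[O] Glue.KBar O) := by
    by_contra hne
    haveI : IsEmpty (H.algebra →ₐ[O] Glue.KBar O) := not_nonempty_iff.mp hne
    exact one_ne_zero (α := H.algebra) (Glue.eq_zero_of_forall_point fun θ => isEmptyElim θ)
  refine cond_of_finite_points hW hC hA hl hrc (fun θ : H.algebra →ₐ[O] Glue.KBar O =>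
    RingHom.ker θ) (fun θ => RingHom.ker_ne_top θ)
    (fun a ha => Glue.eq_zero_of_forall_point fun θ => ha θ) fun θ => ?_
  -- a finite extension containing the values of the point
  set K := FractionRing O
  obtain ⟨n, t, ht⟩ := Submodule.fg_iff_exists_fin_generating_family.mp
    (Module.Finite.fg_top (R := O) (M := H.algebra))
  let L' : IntermediateField K (Glue.KBar O) :=
    IntermediateField.adjoin K (Set.range fun i => θ (t i))
  have : FiniteDimensional K L' := IntermediateField.finiteDimensional_adjoin fun x _ =>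
    Algebra.IsIntegral.isIntegral x
  obtain ⟨hdvr, hfin, hloc, hhom, hcomp⟩ := GaloisReps.exists_integralClosure_dvr O L'
  have hθL : ∀ a, θ a ∈ L' := fun a => by
    have ha : a ∈ Submodule.span O (Set.range t) := ht ▸ Submodule.mem_top
    induction ha using Submodule.span_induction with
    | mem x hx =>
      obtain ⟨i, rfl⟩ := hx
      exact IntermediateField.subset_adjoin _ _ ⟨i, rfl⟩
    | zero => rw [map_zero]; exact zero_mem _
    | add x y _ _ hx hy => rw [map_add]; exact add_mem hx hy
    | smul c x _ hx =>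
      rw [map_smul, Algebra.smul_def, IsScalarTower.algebraMap_apply O K (Glue.KBar O)]
      exact mul_mem (L'.algebraMap_mem _) hx
  let θL : H.algebra →ₐ[O] L' :=
    { toFun := fun a => ⟨θ a, hθL a⟩
      map_one' := Subtype.ext (map_one θ)
      map_mul' := fun a b => Subtype.ext (map_mul θ a b)
      map_zero' := Subtype.ext (map_zero θ)
      map_add' := fun a b => Subtype.ext (map_add θ a b)
      commutes' := fun c => Subtype.ext ((θ.commutes c).trans
        (IsScalarTower.algebraMap_apply O K (Glue.KBar O) c)) }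
  let x : H.algebra →ₐ[O] integralClosure O L' := θL.codRestrict _ fun a =>
    (Algebra.IsIntegral.isIntegral (R := O) a).map θL
  have hker : RingHom.ker θ = RingHom.ker x := by
    ext a
    rw [RingHom.mem_ker, RingHom.mem_ker]
    exact ⟨fun h => Subtype.ext (Subtype.ext h),
      fun h => congrArg (fun y : integralClosure O L' => ((y : L') : Glue.KBar O)) h⟩
  rw [hker]
  intro _
  refine condMod_ker_of_finite hW hC hA hl hrc hhom x fun hc' => ?_
  haveI : CharZero (integralClosure O L') := by
    refine charZero_of_injective_algebraMap (R := O) fun a b h => ?_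
    have h' := congrArg (fun y : integralClosure O L' => ((y : L') : Glue.KBar O)) h
    exact (IsFractionRing.injective O K) ((algebraMap K (Glue.KBar O)).injective h')
  haveI : Finite (ResidueField (integralClosure O L')) := by
    letI := (ResidueField.map (algebraMap O (integralClosure O L'))).toAlgebra
    haveI : Module.Finite (ResidueField O) (ResidueField (integralClosure O L')) := inferInstance
    exact Module.finite_of_finite (ResidueField O)
  let j₀ : integralClosure O L' →+* Glue.KBar O :=
    L'.val.toRingHom.comp (integralClosure O L').val.toRingHom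
  have hxl : IsLocalHom (x : H.algebra →+* integralClosure O L') :=
    isLocalHom_algHom hhom x
  refine hpt (pt θ).M (pt θ).g (pt θ).isNewform (hgood _ fun h2 => ?_) (integralClosure O L')
    (toRep (mapM (x : H.algebra →+* integralClosure O L') ru) hc')
    ((pt θ).emb.toRingHom.comp j₀)
    ((pt θ).emb.injective.comp (Subtype.val_injective.comp Subtype.val_injective)) ?_ ?_ ?_
  · by_cases hpL : p ∣ L
    · obtain ⟨u, hu, hne⟩ := ((pt θ).sq_dvd p hpp hpL).mp h2
      refine hne ?_
      rw [psi_eq_one_at_p hΔ ψ hL hpL u hu, map_one, map_one]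
    · exact hpL (hpp.dvd_of_dvd_pow (((dvd_pow_self p two_ne_zero).trans h2).trans (pt θ).dvd))
  · letI := (ResidueField.map (algebraMap O (integralClosure O L'))).toAlgebra
    refine isEquiv_of_matRes_eq ((Pi.basisFun _ (Fin 2)).baseChange _)
      ((Module.finBasisOfFinrankEq (ResidueField O) ρbar.V ρbar.finrank_eq).baseChange _) ?_
    refine (matRes_residual (toRep (mapM (x : H.algebra →+* integralClosure O L') ru) hc')
      (Pi.basisFun _ (Fin 2))).trans ?_
    refine Eq.trans ?_ (matRes_baseChangeAlong
      (ResidueField.map (algebraMap O (integralClosure O L'))) ρbar _).symm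
    rw [← hW, matOf_toRep, mapM_mapM]
    haveI := hA.isLocalHom
    haveI := hxl
    refine MonoidHom.ext fun σ => Matrix.ext fun i j => ?_
    rw [mapM_apply, mapM_apply, RingHom.comp_apply]
    have h1 := hl σ i j
    rw [← h1, ← ResidueField.map_residue (x : H.algebra →+* integralClosure O L'),
      ← map_augment hA]
    obtain ⟨o, ho⟩ := residue_surjective (augment hA (ru σ i j))
    rw [← ho, ResidueField.map_residue, ResidueField.map_residue, ResidueField.map_residue]
    exact congrArg (residue _) (x.commutes o)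
  · have h := CFT.Tangent.DetIsCyclotomic.baseChange
      (x : H.algebra →+* integralClosure O L') hxl hdet
    refine ⟨h.1, fun k σ a ha => ?_⟩
    have h' := h.2 k σ a ha
    have e1 : LinearMap.det (((toRep ru hrc).baseChangeAlong
        (x : H.algebra →+* integralClosure O L') hxl).ρ σ) =
          (x : H.algebra →+* integralClosure O L') (LinearMap.det ((toRep ru hrc).ρ σ)) := by
      letI := (x : H.algebra →+* integralClosure O L').toAlgebra
      exact LinearMap.det_baseChange _
    rw [e1, Assembly.det_toRep, RingHom.map_det] at h'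
    rw [Assembly.det_toRep]
    exact h'
  · intro ℓ hℓ hℓp hℓM A hA' σ hσ
    rw [Lifting.trace_toRep, show (mapM (x : H.algebra →+* integralClosure O L') ru σ).trace =
      (x : H.algebra →+* integralClosure O L') (ru σ).trace from
        (AddMonoidHom.map_trace
          (x : H.algebra →+* integralClosure O L').toAddMonoidHom (ru σ)).symm]
    show (pt θ).emb (θ (ru σ).trace) = _
    rw [htr, ← G.trace_adicRep θ σ]
    have hℓMp : ¬ ℓ ∣ (pt θ).M * p := fun h => (hℓ.dvd_mul.mp h).elim hℓM fun h' =>
      hℓp ((Nat.prime_dvd_prime_iff_eq hℓ hpp).mp h')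
    have hch := (D (pt θ).M).charpoly_eigenAction_frobenius (pt θ).ι (pt θ).θ'
      GaloisReps.frobeniusDensity (pt θ).p_mem hℓ hℓMp hA' hσ
    have h1 := congrArg (fun f => Polynomial.coeff f 1) (show LinearMap.charpoly
      (((pt θ).adicRep (D := D)).ρ σ) = _ from hch)
    let bR := Module.finBasisOfFinrankEq (pt θ).R ((pt θ).adicRep (D := D)).V
      ((pt θ).adicRep (D := D)).finrank_eq
    rw [← LinearMap.charpoly_toMatrix (((pt θ).adicRep (D := D)).ρ σ) bR,
      Matrix.charpoly_fin_two, ← LinearMap.trace_eq_matrix_trace (pt θ).R bR] at h1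
    simp [Polynomial.coeff_X_pow] at h1
    refine (congrArg (fun z => (pt θ).emb ((pt θ).j z)) h1).trans ?_
    rw [(pt θ).emb_θ', HeckeDuality.heckeOp, dif_neg hℓM,
      ConductorLevel.eigenChar_T (pt θ).isNewform.1 hℓ hℓM]

end Fermat.Agent.RT.LowerQ
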