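import Fermat.Agent.RT.LowerQ.Main
import Fermat.Agent.GaloisReps.UnipotentModel
import Fermat.Agent.Semistable.Toric.Model

/-!
# The Steinberg input of the principle, unconditionally
-/

set_option autoImplicit false

noncomputable section

namespace Fermat.Agent.RT.LowerQ

/-- The models of the torsion of `J₀(M)` are unipotent and toric at the primes dividing `M`
exactly. -/
theorem specialInput (p : ℕ) [Fact p.Prime] : SpecialInput p :=
  ⟨fun M _ => GaloisReps.heckeGaloisModel M p, fun M _ v hv hvp hvM hv2 =>
    haveI := Fact.mk hv
    ⟨GaloisReps.unipotentAt_modelOfCongruence _ hv hvp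
      (Semistable.Unipotent.torsionUnipotentAt hv hvM hv2),
      Semistable.Toric.toricSquareAt hvp hv2⟩⟩

/-- Mazur's principle for semistable curves, unconditionally. -/
theorem mazurStep {p : ℕ} [Fact p.Prime] (hp2 : p ≠ 2) : MazurStepProperty p :=
  mazurStepProperty hp2 fun _ => specialInput p

end Fermat.Agent.RT.LowerQ

end
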