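import Fermat.Agent.RT.LowerQ.PatchFlat
import Fermat.Agent.RT.LowerQ.Special
import Fermat.Agent.RT.LowerQ.PatchCond
import Fermat.Agent.RT.Lifting.AtP.Points
import Fermat.Agent.RT.Lifting.AtP.Residual
import Fermat.Agent.RT.Lifting.AtP.UnitRoot
import Fermat.Agent.RT.Lifting.Setup
import Fermat.Agent.OrdinaryAtP.NoTrivial

/-!
# The patching step at levels divisible by `p`

`scalarDropProperty`: the local inputs at `p ∣ M` are given by the ordinary condition, the curve
being multiplicative and très ramifiée at `p`.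
-/

set_option autoImplicit false
set_option linter.style.haveILetI false

noncomputable section

namespace Fermat.Agent.RT.LowerQ

open IsLocalRing Module
open Fermat.Agent.Deform Fermat.Agent.CFT.Tangent Fermat.Agent.Arith Fermat.Agent.RT.Assembly
open Fermat.Agent.RT.Lifting (ordCond IsTresRamified LocalPBound IsDistinguishedOrdinary)

variable {p : ℕ} [Fact p.Prime] {E : WeierstrassCurve ℤ} {hΔ : E.Δ ≠ 0}

/-- The determinant of `E[p]` in any basis over an extension of `ZMod p`. -/
theorem det_matRes_curveRho {k : Type} [Field k] [CharP k p]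
    (bb : Basis (Fin 2) k (curveRho E p k hΔ).V) (σ : Gal) (n : ℕ)
    (hn : ∀ μ : QBar, μ ^ p = 1 → σ μ = μ ^ n) :
    (matRes (curveRho E p k hΔ) bb σ).det = (n : k) := by
  obtain ⟨bb', hbb'⟩ := exists_matRes_curveRho (k := k) (hΔ := hΔ)
    (Module.finBasisOfFinrankEq (ZMod p) _ (EC.Rep.residualRep E p hΔ).finrank_eq)
  have h : (matRes (curveRho E p k hΔ) bb σ).det = (matRes (curveRho E p k hΔ) bb' σ).det :=
    (LinearMap.det_toMatrix bb _).trans (LinearMap.det_toMatrix bb' _).symm
  rw [h, hbb']
  show ((matRes _ _ σ).map (ZMod.castHom dvd_rfl k)).det = _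
  rw [← RingHom.mapMatrix_apply, ← RingHom.map_det, det_matRes_residual _ hn, map_natCast]


/-- The local bound of a très ramifiée ordinary representation. -/
theorem localPBound_ord {O : Type} [CommRing O] [IsDomain O] [IsDiscreteValuationRing O]
    [Finite (ResidueField O)] [CharP (ResidueField O) p] {W : Rigid O}
    {ρbar : ResidualGaloisRep (ResidueField O)} {bb : Basis (Fin 2) (ResidueField O) ρbar.V}
    (hW : W.rb = matRes ρbar bb) (hp2 : p ≠ 2)
    (hdet : ∀ (σ : Gal) (n : ℕ), (∀ μ : QBar, μ ^ p = 1 → σ μ = μ ^ n) →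
      (W.rb σ).det = (n : ResidueField O))
    (htres : IsTresRamified p ρbar) :
    LocalPBound p (IsTangentClass (fun _A _ _ _ ρ => ρ.IsOrdinaryAt p ∧ ρ.DetIsCyclotomic p) W.rb)
      W.rb :=
  fun V _ hcoc hlev hb => finrank_le_ordinary hp2
    (Ring.two_ne_zero (by rw [ringChar.eq (ResidueField O) p]; exact hp2))
    (by rw [hW]; exact CFT.TWPrimes.finiteLevel_matRes ρbar bb) hdet V hcoc hlev
    fun b hbV hne => by
      letI := dualAlgebra O
      obtain ⟨ρ, B, hρ, hB⟩ := hb b hbV hne
      refine ⟨ρ, B, htres ρ ?_ hρ.2 hρ.1, hρ.2, hB⟩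
      refine isEquiv_of_matRes_eq (B.baseChange (ResidueField (DualNumber (ResidueField O))))
        (letI := ((IsLocalRing.residue (DualNumber (ResidueField O))).comp
            (algebraMap (ResidueField O) (DualNumber (ResidueField O)))).toAlgebra;
          bb.baseChange (ResidueField (DualNumber (ResidueField O)))) ?_
      rw [matRes_residual, matRes_baseChangeAlong, ← hW]
      refine MonoidHom.ext fun σ => Matrix.ext fun i j => ?_
      rw [mapM_apply, mapM_apply, hB, RingHom.comp_apply, ← sub_eq_zero, ← map_sub,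
        residue_eq_zero_iff, mem_maximalIdeal, mem_nonunits_iff,
        TrivSqZeroExt.isUnit_iff_isUnit_fst, TrivSqZeroExt.fst_sub]
      have e : ((fstM ((1 + epsM (b σ)) * inlM (W.rb σ))) : M2 _) i j = W.rb σ i j := by
        rw [fstM_mul, fstM_add, fstM_one, fstM_epsM, fstM_inlM, add_zero, one_mul]
      rw [show TrivSqZeroExt.fst (((1 + epsM (b σ)) * inlM (W.rb σ)) i j) = W.rb σ i j from e,
        TrivSqZeroExt.algebraMap_eq_inl, TrivSqZeroExt.fst_inl, sub_self]
      exact not_isUnit_zero

/-- The ordinary condition at a level divisible by `p`. -/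
theorem localInputs_ord (hp35 : p = 3 ∨ p = 5)
    (htres : Lifting.TresOfMultiplicative) (hss : E.IsSemistableModel)
    (hirr : E.ModRepIsIrreducible p) {M : ℕ} (hpM : p ∣ M) (hlev : LevelAtP E p M) :
    LocalInputs p E hΔ M := by
  intro O _ _ _ _ _ _ _ W bb hpO hW hsplit
  have hp : p.Prime := Fact.out
  have hp2 : p ≠ 2 := by rcases hp35 with h | h <;> omega
  obtain ⟨hbad, hv⟩ := hlev hpM
  have habs : (curveRho E p (ResidueField O) hΔ).IsAbsolutelyIrreducible := isAbsolutelyIrreducible_curveRho hΔ hp2 hirr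
  let b := Module.finBasisOfFinrankEq (ZMod p) _ (EC.Rep.residualRep E p hΔ).finrank_eq
  obtain ⟨bb', hbb'⟩ := exists_matRes_curveRho (k := ResidueField O) (hΔ := hΔ) b
  obtain ⟨W', hW'⟩ := exists_rigid _ habs bb'
  have hE : Lifting.IsResidualOf E hΔ p W' := ⟨b, fun σ i j => by
    rw [hW', hbb', mapM_apply]⟩
  have hdist : IsDistinguishedOrdinary p (curveRho E p (ResidueField O) hΔ) :=
    Lifting.isDistinguishedOrdinary_of_multiplicative hW' hE hss hp2 hbad
  have hC : Lifting.IsPairCond (curveRho E p (ResidueField O) hΔ) (ordCond (O := O) p) := Lifting.isPairCond_ord hdist.2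
  refine ⟨ordCond p, hC.toIsLocalCond,
    condAtPInput_of_pointCond hpO habs _ (models p) hC
      (Lifting.pointCond_ord hp hp2 habs hdist (Lifting.AtP.unitRootProperty p) fun A N _ hA h4 hN => ?_)
      (fun _ h => h) M (curveSet E p M),
    localPBound_ord hW hp2 (fun σ n hn => by rw [hW]; exact det_matRes_curveRho bb σ n hn)
      (htres p hp35 E hΔ hss hirr hbad (fun h => hv (Int.natCast_dvd_natCast.mp h)) O W' _ bb'
        hW' hE)⟩
  haveI : NeZero N := ⟨fun h => NeZero.ne (p * N) (by rw [h, mul_zero])⟩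
  exact OrdinaryAtP.noTrivialQuotient hp2 hA h4 hN

/-- **The patching step of level lowering** at `p = 3, 5`. -/
theorem scalarDropProperty (hp35 : p = 3 ∨ p = 5)
    (htres : Lifting.TresOfMultiplicative) : ScalarDropProperty p :=
  scalarDropProperty_of_selmer (by rcases hp35 with h | h <;> omega)
    (fun k _ _ _ => selmerBound p k)
    fun _ _ hss hirr _ _ hpM hlev => localInputs_ord hp35 htres hss hirr hpM hlev

/-- **Level lowering at an unramified prime** at `p = 3, 5`. -/
theorem lowerQInput_threeFive (hp35 : p = 3 ∨ p = 5)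
    (htres : Lifting.TresOfMultiplicative) : Lifting.LowerQInput p :=
  lowerQInput (mazurStep (by rcases hp35 with h | h <;> omega)) (scalarDropProperty hp35 htres)

end Fermat.Agent.RT.LowerQ

end
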