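import Fermat.Agent.RT.LowerQ.CurveDefs
import Fermat.Agent.RT.Assembly.SpecialGen
import Fermat.Agent.EC.Rep.Local.Unipotent
import Fermat.Agent.GaloisReps.Models

/-!
# The residual system of a semistable curve: congruent levels and residual modularity
-/

set_option autoImplicit false

noncomputable section

open Polynomial CongruenceSubgroup ModularFormClass
open scoped TensorProduct

namespace Fermat.Agent.RT.LowerQ

local notation "Q̄" => AlgebraicClosure ℚ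
local notation "GQ" => AlgebraicClosure ℚ ≃ₐ[ℚ] AlgebraicClosure ℚ

variable {W : WeierstrassCurve ℤ} {p : ℕ} [Fact p.Prime] {k : Type} [Field k]

omit [Fact p.Prime] in
theorem self_mem_curveSet {M : ℕ} : p ∈ curveSet W p M := Finset.mem_insert_self _ _

omit [Fact p.Prime] in
theorem dvd_mem_curveSet (hΔ : W.Δ ≠ 0) {M : ℕ} [NeZero M] {q : ℕ} (hq : q.Prime) (h : q ∣ M) :
    q ∈ curveSet W p M :=
  Finset.mem_insert_of_mem (Nat.mem_primeFactors.mpr ⟨hq, dvd_mul_of_dvd_right h _,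
    mul_ne_zero (Int.natAbs_ne_zero.mpr hΔ) (NeZero.ne M)⟩)

omit [Fact p.Prime] in
theorem isGoodPrimeFor_of_not_mem_curveSet (hΔ : W.Δ ≠ 0) {M : ℕ} [NeZero M] {q : ℕ}
    (hq : q.Prime) (h : q ∉ curveSet W p M) : W.IsGoodPrimeFor q := fun hd =>
  h (Finset.mem_insert_of_mem (Nat.mem_primeFactors.mpr ⟨hq,
    dvd_mul_of_dvd_left (Int.natCast_dvd.mp hd) _,
    mul_ne_zero (Int.natAbs_ne_zero.mpr hΔ) (NeZero.ne M)⟩))

section CharP

variable [CharP k p]

/-- The representation on the `p`-torsion, over `k`. -/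
def curveRho (W : WeierstrassCurve ℤ) (p : ℕ) [Fact p.Prime] (k : Type) [Field k] [CharP k p]
    (hΔ : W.Δ ≠ 0) : ResidualGaloisRep k :=
  letI := ZMod.algebra k p
  (EC.Rep.residualRep W p hΔ).baseChange k

theorem charpoly_curveRho (hΔ : W.Δ ≠ 0) (σ : GQ) :
    LinearMap.charpoly ((curveRho W p k hΔ).ρ σ) =
      (LinearMap.charpoly ((EC.Rep.residualRep W p hΔ).ρ σ)).map (ZMod.castHom dvd_rfl k) :=
  letI := ZMod.algebra k p
  LinearMap.charpoly_baseChange _ k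

theorem charpoly_curveRho_frobenius (hΔ : W.Δ ≠ 0) {ℓ : ℕ} (hℓ : ℓ.Prime)
    (hgood : W.IsGoodPrimeFor ℓ) (hne : ℓ ≠ p) {A : ValuationSubring Q̄} (hA : A.LiesOverPrime ℓ)
    {σ : GQ} (hσ : A.IsFrobeniusAt σ ℓ) :
    LinearMap.charpoly ((curveRho W p k hΔ).ρ σ) =
      X ^ 2 - C (curveAbar W k ℓ) * X + C (ℓ : k) := by
  rw [charpoly_curveRho, EC.Rep.charpoly_residualRep_frobenius hΔ hℓ hgood hne hA hσ]
  simp [curveAbar]

theorem hasCharpolys_curveRho (hΔ : W.Δ ≠ 0) (M : ℕ) [NeZero M] :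
    ∀ ℓ : ℕ, ℓ.Prime → ℓ ∉ curveSet W p M → ∀ A : ValuationSubring Q̄, A.LiesOverPrime ℓ →
      ∀ σ : GQ, A.IsFrobeniusAt σ ℓ → LinearMap.charpoly ((curveRho W p k hΔ).ρ σ) =
        X ^ 2 - C (curveAbar W k ℓ) * X + C (ℓ : k) :=
  fun ℓ hℓ hS _ hA _ hσ => charpoly_curveRho_frobenius hΔ hℓ
    (isGoodPrimeFor_of_not_mem_curveSet hΔ hℓ hS) (fun e => hS (e ▸ self_mem_curveSet)) hA hσ

theorem isAbsolutelyIrreducible_curveRho (hΔ : W.Δ ≠ 0) (hp2 : p ≠ 2)
    (hirr : W.ModRepIsIrreducible p) : (curveRho W p k hΔ).IsAbsolutelyIrreducible :=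
  letI := ZMod.algebra k p
  Assembly.isAbsolutelyIrreducible_baseChange _ fun K =>
    EC.Rep.baseChange_residualRep_isIrreducible hΔ hp2 hirr K

theorem isUnramifiedAt_curveRho (hΔ : W.Δ ≠ 0) {q : ℕ}
    (h : (EC.Rep.residualRep W p hΔ).IsUnramifiedAt q) :
    (curveRho W p k hΔ).IsUnramifiedAt q := by
  intro A hA σ hσ
  letI := ZMod.algebra k p
  show LinearMap.baseChange k ((EC.Rep.residualRep W p hΔ).ρ σ) = 1
  rw [h A hA σ hσ, LinearMap.baseChange_one]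

theorem charpoly_curveRho_inertia (hΔ : W.Δ ≠ 0) (hss : W.IsSemistableModel) {q : ℕ}
    (hq : q.Prime) (hqp : q ≠ p) {A : ValuationSubring Q̄} (hA : A.LiesOverPrime q) {σ : GQ}
    (hσ : σ ∈ A.inertiaSubgroupIn ℚ) :
    LinearMap.charpoly ((curveRho W p k hΔ).ρ σ) = (X - C 1) ^ 2 := by
  have h := EC.Rep.isUnipotentOnInertiaAt_residualRep hΔ hq hqp (fun h => hss q hq h.2 h.1) A hA σ hσ
  rw [charpoly_curveRho]
  exact (congrArg (Polynomial.map _) h).trans (by simp)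

theorem trace_curveRho_inertia (hΔ : W.Δ ≠ 0) (hss : W.IsSemistableModel) {q : ℕ}
    (hq : q.Prime) (hqp : q ≠ p) {A : ValuationSubring Q̄} (hA : A.LiesOverPrime q) {σ : GQ}
    (hσ : σ ∈ A.inertiaSubgroupIn ℚ) :
    LinearMap.trace k _ ((curveRho W p k hΔ).ρ σ) = 2 := by
  have h := charpoly_curveRho_inertia (k := k) hΔ hss hq hqp hA hσ
  rw [EC.FrobTrace.charpoly_of_finrank_eq_two (curveRho W p k hΔ).finrank_eq] at h
  have h1 := congrArg (fun f => Polynomial.coeff f 1) h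
  rw [show ((X : k[X]) - C 1) ^ 2 = X ^ 2 - C 2 * X + C 1 by
    rw [show (2 : k) = 1 + 1 by norm_num, map_add, map_one]; ring] at h1
  simpa [coeff_C, coeff_one] using h1

/-- Residual modularity gives a congruent level. -/
theorem isCongruentLevel_of_isResiduallyModular (hΔ : W.Δ ≠ 0) {M : ℕ} [NeZero M]
    (h : W.IsResiduallyModularOfLevel p M) :
    IsCongruentLevel (curveSet W p M) (curveAbar W k) M := by
  classical
  obtain ⟨f, 𝔪, hf, h𝔪, hp𝔪, hcong⟩ := h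
  let : Field (integralClosure ℤ ℂ ⧸ 𝔪) := Ideal.Quotient.field 𝔪
  have hpF : CharP (integralClosure ℤ ℂ ⧸ 𝔪) p := by
    refine (CharP.charP_iff_prime_eq_zero (Fact.out : p.Prime)).mpr ?_
    rw [← map_natCast (Ideal.Quotient.mk 𝔪), Ideal.Quotient.eq_zero_iff_mem]
    exact hp𝔪
  have : CharP (AlgebraicClosure k) p :=
    charP_of_injective_algebraMap (algebraMap k (AlgebraicClosure k)).injective p
  let : Algebra (ZMod p) (integralClosure ℤ ℂ ⧸ 𝔪) := ZMod.algebra _ p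
  let : Algebra (ZMod p) (AlgebraicClosure k) := ZMod.algebra _ p
  have : Algebra.IsIntegral ℤ (integralClosure ℤ ℂ ⧸ 𝔪) := inferInstance
  have : Algebra.IsIntegral (ZMod p) (integralClosure ℤ ℂ ⧸ 𝔪) :=
    ⟨fun x => (Algebra.IsIntegral.isIntegral (R := ℤ) x).tower_top⟩
  let j : (integralClosure ℤ ℂ ⧸ 𝔪) →ₐ[ZMod p] AlgebraicClosure k := IsAlgClosed.lift
  refine ⟨f, hf, j.toRingHom.comp (Ideal.Quotient.mk 𝔪), fun ℓ hℓ hℓS a ha => ?_⟩
  obtain ⟨b, hb, hbm⟩ := hcong ℓ hℓ (isGoodPrimeFor_of_not_mem_curveSet hΔ hℓ hℓS)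
    (fun h => hℓS (dvd_mem_curveSet hΔ hℓ h)) (fun e => hℓS (e ▸ self_mem_curveSet))
  rw [show a = b from Subtype.ext (ha.trans hb.symm), RingHom.comp_apply,
    (Ideal.Quotient.mk_eq_mk_iff_sub_mem _ _).mpr hbm, map_intCast, map_intCast, curveAbar,
    map_intCast]

/-- A congruent level makes the representation residually modular of that level. -/
theorem isResiduallyModular_of_isCongruentLevel (hΔ : W.Δ ≠ 0) {S : Finset ℕ} {M : ℕ}
    (h : IsCongruentLevel S (curveAbar W k) M) : W.IsResiduallyModularOfLevel p M := by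
  classical
  obtain ⟨g, hg, φ, hφ⟩ := h
  have : CharP (AlgebraicClosure k) p :=
    charP_of_injective_algebraMap (algebraMap k (AlgebraicClosure k)).injective p
  have hp : p.Prime := Fact.out
  have hmax : (RingHom.ker φ).IsMaximal := by
    have hP : (RingHom.ker φ).IsPrime := RingHom.ker_isPrime φ
    refine Ideal.isMaximal_of_isIntegral_of_isMaximal_comap (R := ℤ) _ ?_
    have hle : Ideal.span {(p : ℤ)} ≤ (RingHom.ker φ).comap (algebraMap ℤ _) := by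
      rw [Ideal.span_le, Set.singleton_subset_iff, SetLike.mem_coe, Ideal.mem_comap,
        RingHom.mem_ker, map_natCast, map_natCast]
      exact CharP.cast_eq_zero _ _
    have hmax' : (Ideal.span {(p : ℤ)}).IsMaximal :=
      PrincipalIdealRing.isMaximal_of_irreducible (Nat.prime_iff_prime_int.mp hp).irreducible
    rw [← hmax'.eq_of_le (Ideal.IsPrime.comap _).ne_top hle]
    exact hmax'
  refine ⟨g, RingHom.ker φ, hg, hmax, ?_, fun ℓ hℓ hgood hℓM hℓp => ?_⟩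
  · rw [RingHom.mem_ker, map_natCast]
    exact CharP.cast_eq_zero _ _
  · have : NeZero M := ⟨fun h => hℓM (h ▸ dvd_zero ℓ)⟩
    obtain ⟨θ, hθ⟩ := GaloisReps.exists_eigenform_character hg
    refine ⟨θ (HeckeDuality.heckeOp M 2 ℓ hℓ), hθ ℓ hℓ, ?_⟩
    have hS' : ℓ ∉ curveSet W p 1 := fun h => by
      rcases Finset.mem_insert.mp h with h | h
      · exact hℓp h
      · have h' := Nat.dvd_of_mem_primeFactors h
        rw [mul_one] at h'
        exact hgood (Int.natCast_dvd.mpr h')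
    rw [RingHom.mem_ker, map_sub, sub_eq_zero,
      Assembly.congr_of_congr_outside_gen (hasCharpolys_curveRho hΔ 1)
        GaloisReps.nonempty_heckeGaloisModel hg φ S hφ hℓ hS' hℓM hℓp (hθ ℓ hℓ), curveAbar,
      map_intCast, map_intCast]

/-- Auxiliary primes at which the system is regular drop out of a congruent level. -/
theorem isResiduallyModular_drop (hΔ : W.Δ ≠ 0)
    (D : ∀ (M : ℕ) [NeZero M], GaloisReps.HeckeGaloisModel M p)
    (hspec : ∀ (M : ℕ) [NeZero M] (v : ℕ), v.Prime → v ≠ p → v ∣ M → ¬ v ^ 2 ∣ M →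
      NewformLocal.UnipotentAt (D M) v ∧ NewformLocal.ToricSquareAt (D M) v)
    {M₀ N : ℕ} {Q : Finset ℕ} [NeZero M₀] [NeZero N] (hN : Squarefree N)
    (hNQ : ∀ q : ℕ, q.Prime → q ∣ N → q ∣ M₀ ∨ q ∈ Q)
    (hQS : ∀ q ∈ Q, q ∉ curveSet W p M₀)
    (hreg : ∀ q ∈ Q, ∀ A : ValuationSubring Q̄, A.LiesOverPrime q → ∀ σ : GQ,
      A.IsFrobeniusAt σ q →
        LinearMap.trace k _ ((curveRho W p k hΔ).ρ σ) ^ 2 ≠ ((q : k) + 1) ^ 2)
    (h : IsCongruentLevel (curveSet W p M₀ ∪ Q) (curveAbar W k) N) :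
    W.IsResiduallyModularOfLevel p M₀ :=
  isResiduallyModular_of_isCongruentLevel hΔ (Assembly.isCongruentLevel_of_regular
    (hasCharpolys_curveRho hΔ M₀) GaloisReps.nonempty_heckeGaloisModel D hspec hN hNQ
    (fun _ hq h => dvd_mem_curveSet hΔ hq h) self_mem_curveSet hQS hreg h)

end CharP

omit [Fact p.Prime] in
/-- Residual modularity goes up to squarefree multiples. -/
theorem residuallyModular_of_dvd {M₂ M : ℕ} (hdvd : M₂ ∣ M) (hM : Squarefree M)
    (h : W.IsResiduallyModularOfLevel p M₂) : W.IsResiduallyModularOfLevel p M := by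
  obtain ⟨f, 𝔪, hf, h𝔪, hp𝔪, hcong⟩ := h
  obtain ⟨g, hg, hgf⟩ := ConductorLevel.exists_raise hM hdvd hf
  refine ⟨g, 𝔪, hg, h𝔪, hp𝔪, fun ℓ hℓ hgood hℓM hℓp => ?_⟩
  obtain ⟨a, ha, ham⟩ := hcong ℓ hℓ hgood (fun h => hℓM (h.trans hdvd)) hℓp
  exact ⟨a, ha.trans (hgf ℓ hℓ hℓM).symm, ham⟩

omit [Fact p.Prime] in
/-- Congruent levels go up. -/
theorem isCongruentLevel_raise {S : Finset ℕ} {a : ℕ → k} {M₂ M : ℕ} [NeZero M]
    (h : IsCongruentLevel S a M₂) (hdvd : M₂ ∣ M) (hS : ∀ q : ℕ, q.Prime → q ∣ M → q ∈ S) :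
    IsCongruentLevel S a M := by
  obtain ⟨g, hg, φ, hφ⟩ := h
  obtain ⟨f, hf, hfg⟩ := Newforms.exists_eigenform_of_dvd hdvd hg
  exact ⟨f, hf, φ, fun ℓ hℓ hℓT b hb => hφ ℓ hℓ hℓT b
    (hb.trans (hfg ℓ hℓ (Or.inr fun h => hℓT (hS ℓ hℓ h))))⟩

end Fermat.Agent.RT.LowerQ

end
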