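import Fermat.Agent.RT.LowerQ.Defs
import Fermat.Agent.RT.MazurP.Eigen
import Fermat.Agent.GaloisReps.Characters
import Mathlib.RingTheory.Ideal.AssociatedPrime.Localization

/-!
# Congruent forms of level `N` and eigen `p`-torsion of `J₀(N)`

A nonzero eigen torsion point gives a congruent form and conversely.
-/

set_option autoImplicit false
set_option synthInstance.maxHeartbeats 400000
set_option maxHeartbeats 1000000

noncomputable section

namespace Fermat.Agent.RT.LowerQ

open AlgebraicCurve ModularCurve CongruenceSubgroup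
open scoped Matrix Polynomial
open Fermat.Agent.Semistable
open Arith (QBar GQ)

/-- A character in characteristic dividing `n` of a ring of integral matrices kills a nonzero
vector modulo `n`. -/
theorem exists_vec_of_character {T κ : Type*} [CommRing T] [Module.Finite ℤ T] [Field κ] {d n : ℕ}
    [NeZero n] (L : T →+* Matrix (Fin d) (Fin d) ℤ) (hL : Function.Injective L) (χ : T →+* κ)
    (hn : (n : κ) = 0) :
    ∃ v : Fin d → ZMod n, v ≠ 0 ∧
      ∀ t, χ t = 0 → ((Int.castRingHom (ZMod n)).mapMatrix (L t)) *ᵥ v = 0 := by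
  classical
  let r : T →+* Module.End (ZMod n) (Fin d → ZMod n) :=
    (Matrix.toLinAlgEquiv' (R := ZMod n) (n := Fin d)).toRingEquiv.toRingHom.comp
      ((Int.castRingHom (ZMod n)).mapMatrix.comp L)
  let _ : Module T (Fin d → ZMod n) := Module.compHom _ r
  have hsmul : ∀ (t : T) v, t • v = ((Int.castRingHom (ZMod n)).mapMatrix (L t)) *ᵥ v :=
    fun _ _ => rfl
  -- the annihilator lies in the kernel
  have hker : Module.annihilator T (Fin d → ZMod n) ≤ RingHom.ker χ := by
    intro t ht
    rw [Module.mem_annihilator] at ht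
    have h0 : (Int.castRingHom (ZMod n)).mapMatrix (L t) = 0 :=
      Matrix.toLin'.injective (LinearMap.ext fun v => by
        rw [Matrix.toLin'_apply, ← hsmul, ht, map_zero, LinearMap.zero_apply])
    have hdiv : ∀ i j, (n : ℤ) ∣ L t i j := fun i j => by
      have h := congrFun (congrFun h0 i) j
      rw [RingHom.mapMatrix_apply, Matrix.map_apply, Matrix.zero_apply, eq_intCast] at h
      exact (ZMod.intCast_zmod_eq_zero_iff_dvd _ _).mp h
    choose B hB using hdiv
    have hB' : L t = algebraMap ℤ (Matrix (Fin d) (Fin d) ℤ) n * Matrix.of B := by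
      rw [← Algebra.smul_def]
      ext i j
      simp [hB i j]
    set Q := (Matrix.charpoly (Matrix.of B)).scaleRoots (n : ℤ) with hQ
    have h1 : Polynomial.aeval (L t) Q = 0 := by
      rw [hB', hQ]
      exact Polynomial.scaleRoots_aeval_eq_zero (Matrix.aeval_self_charpoly _)
    have h2 : Polynomial.aeval t Q = 0 := hL (by
      rw [map_zero, ← h1]
      exact (Polynomial.aeval_algHom_apply L.toIntAlgHom t Q).symm)
    have h3 : Polynomial.aeval (χ t) Q = 0 := by
      show Polynomial.aeval (χ.toIntAlgHom t) Q = 0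
      rw [Polynomial.aeval_algHom_apply, h2, map_zero]
    have hmonic := Matrix.charpoly_monic (Matrix.of B)
    rw [Polynomial.aeval_def, ← Polynomial.eval_map, hQ, Polynomial.map_scaleRoots _ _ _
      (by rw [hmonic.leadingCoeff, map_one]; exact one_ne_zero), map_natCast, hn,
      Polynomial.scaleRoots_zero, (hmonic.map _).leadingCoeff, one_smul, Polynomial.eval_pow,
      Polynomial.eval_X] at h3
    exact eq_zero_of_pow_eq_zero h3
  -- the kernel is minimal above the annihilator
  have hnoeth : IsNoetherianRing T := IsNoetherianRing.of_finite ℤ T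
  have hfinM : Module.Finite T (Fin d → ZMod n) := Module.Finite.of_finite
  have hprime : (RingHom.ker χ).IsPrime := RingHom.ker_isPrime χ
  have hmin : RingHom.ker χ ∈ (Module.annihilator T (Fin d → ZMod n)).minimalPrimes := by
    refine ⟨⟨hprime, hker⟩, fun P hP hPle => ?_⟩
    have hfin : Finite (T ⧸ Module.annihilator T (Fin d → ZMod n)) := by
      refine Finite.of_injective (β := (Fin d → ZMod n) → (Fin d → ZMod n))
        (Quotient.lift (fun t v => t • v) fun s t hst => funext fun v => ?_) ?_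
      · rw [← sub_eq_zero, ← sub_smul]
        exact Module.mem_annihilator.mp ((Submodule.quotientRel_def _).mp hst) v
      · rintro ⟨s⟩ ⟨t⟩ h
        exact Quotient.sound ((Submodule.quotientRel_def _).mpr (Module.mem_annihilator.mpr
          fun v => by rw [sub_smul, sub_eq_zero]; exact congrFun h v))
    have : Finite (T ⧸ P) := Finite.of_surjective (Ideal.Quotient.factor hP.2)
      (Ideal.Quotient.factor_surjective hP.2)
    have := hP.1
    have hmax : P.IsMaximal :=
      Ideal.Quotient.maximal_of_isField _ (Finite.isField_of_domain _)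
    exact (hmax.eq_of_le hprime.ne_top hPle).ge
  obtain ⟨-, v, hv⟩ := isAssociatedPrime_iff.mp
    (Module.associatedPrimes.minimalPrimes_annihilator_subset_associatedPrimes T
      (Fin d → ZMod n) hmin)
  refine ⟨v, fun h0 => hprime.ne_top ?_, fun t ht => ?_⟩
  · rw [hv, h0, Ideal.eq_top_iff_one, Submodule.mem_colon_singleton, smul_zero]
    exact zero_mem _
  · have h : t ∈ Submodule.colon (⊥ : Submodule T (Fin d → ZMod n)) {v} := hv ▸ ht
    rw [Submodule.mem_colon_singleton, Submodule.mem_bot, hsmul] at h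
    exact h

variable {N p : ℕ} [NeZero N] [Fact p.Prime] {S : Finset ℕ} {a : ℕ → ZMod p}

theorem natCast_val_algebraMap (x : ZMod p) :
    ((x.val : ℕ) : AlgebraicClosure (ZMod p)) = algebraMap (ZMod p) _ x := by
  rw [← map_natCast (algebraMap (ZMod p) _), ZMod.natCast_zmod_val]

/-- Nonzero eigen torsion comes from a congruent form. -/
theorem isCongruentLevel_of_eigTors_ne_bot (h : EigTors N p S a ≠ ⊥) :
    IsCongruentLevel S a N := by
  classical
  obtain ⟨⟨x, hxp, hxT⟩, hx0⟩ : ∃ x : EigTors N p S a, (x : JZero N) ≠ 0 := by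
    by_contra! h0
    exact h ((AddSubgroup.eq_bot_iff_forall _).mpr fun x hx => h0 ⟨x, hx⟩)
  let κ := AlgebraicClosure (ZMod p)
  have : CharP κ p := charP_of_injective_algebraMap (algebraMap (ZMod p) κ).injective p
  have hκ : CharP κ (p ^ 1) := by rw [pow_one]; infer_instance
  let c : ZMod (p ^ 1) →+* κ := @ZMod.castHom _ _ (dvd_refl _) κ _ hκ
  have hc : Function.Injective c := @ZMod.castHom_injective _ κ _ hκ
  clear_value c
  clear hκ
  let E := GaloisReps.torsionIso N p (GaloisReps.conjProperty N)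
  let x₁ : GaloisReps.JTors N p 1 := ⟨x, Pic0.mem_torsion.mpr (by
    rw [natCast_zsmul, pow_one]; exact hxp)⟩
  let w := E.psi 1 x₁
  have hint := IntegralStructure.hasIntegralStructure N 2
  have := HeckeDuality.heckeAlgebra_finite_of_integralStructure (N := N) ∅ hint
  let ρ : GaloisReps.FullHecke N →+* Module.End κ (Fin (2 * Gamma0.genus N) → κ) :=
    (Matrix.toLinAlgEquiv' (R := κ) (n := Fin (2 * Gamma0.genus N))).toRingEquiv.toRingHom.comp
      ((Int.castRingHom κ).mapMatrix.comp (GaloisReps.latticeMat N))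
  let v : Fin (2 * Gamma0.genus N) → κ := fun i => c (w i)
  have hv0 : v ≠ 0 := fun h0 => hx0 <| by
    have hw : w = 0 := funext fun i => hc (by simpa [v] using congrFun h0 i)
    exact congrArg Subtype.val ((E.psi 1).injective (hw.trans (map_zero (E.psi 1)).symm))
  have heig : ∀ (l : ℕ) (hl : l.Prime), l ∉ S →
      ρ (HeckeDuality.heckeOp N 2 l hl) v = ((a l).val : κ) • v := by
    intro l hl hlS
    show ((Int.castRingHom κ).mapMatrix (GaloisReps.latticeMat N _)) *ᵥ v = _
    have h1 := E.mat_mulVec 1 (GaloisReps.heckeTors 1 ⟨l, hl⟩) x₁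
    rw [E.mat_heckeTors, show GaloisReps.heckeTors 1 ⟨l, hl⟩ x₁ = (a l).val • x₁ from
      Subtype.ext (hxT l hl hlS), map_nsmul] at h1
    funext i
    have h2 := congrArg c (congrFun h1 i)
    rw [RingHom.map_mulVec] at h2
    simp only [RingHom.mapMatrix_apply, GaloisReps.latticeMat_heckeOp, v] at h2 ⊢
    rw [Matrix.map_map, ← RingHom.coe_comp, RingHom.ext_int (c.comp (Int.castRingHom _))
      (Int.castRingHom κ)] at h2
    refine h2.trans ?_
    rw [Pi.smul_apply, map_nsmul, nsmul_eq_mul, Pi.smul_apply, smul_eq_mul]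
  let W : Submodule κ (Fin (2 * Gamma0.genus N) → κ) := ⨅ l : {l : ℕ // l.Prime ∧ l ∉ S},
    LinearMap.ker (ρ (HeckeDuality.heckeOp N 2 l.1 l.2.1) -
      ((a l.1).val : κ) • (1 : Module.End κ _))
  have hW : W ≠ ⊥ := (Submodule.ne_bot_iff _).mpr ⟨v, (Submodule.mem_iInf _).mpr fun l =>
    LinearMap.mem_ker.mpr (by simp [heig l.1 l.2.1 l.2.2]), hv0⟩
  have hinv : ∀ t, ∀ w ∈ W, ρ t w ∈ W := by
    intro t u hu
    refine (Submodule.mem_iInf _).mpr fun l => ?_
    have hu' := LinearMap.mem_ker.mp ((Submodule.mem_iInf _).mp hu l)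
    simp only [LinearMap.sub_apply, LinearMap.smul_apply, Module.End.one_apply, sub_eq_zero] at hu'
    simp only [LinearMap.mem_ker, LinearMap.sub_apply, LinearMap.smul_apply, Module.End.one_apply,
      sub_eq_zero]
    rw [← Module.End.mul_apply, ← map_mul, mul_comm (HeckeDuality.heckeOp N 2 l.1 l.2.1) t, map_mul,
      Module.End.mul_apply, hu', map_smul]
  obtain ⟨χ, u, huW, hu, hχ⟩ := MazurP.exists_common_eigen ρ W hW hinv
  have : Finite χ.range := (MazurP.finite_range_of_charP p χ).to_subtype
  let _ : Field χ.range := (Finite.isField_of_domain χ.range).toField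
  have : CharP χ.range p := RingHom.charP χ.range.subtype Subtype.val_injective p
  obtain ⟨g, hg, 𝔪, h𝔪, hp𝔪, hcong⟩ :=
    HeckeDuality.exists_eigenform_lifting (p := p) hint χ.rangeRestrict
  let : Field (integralClosure ℤ ℂ ⧸ 𝔪) := Ideal.Quotient.field 𝔪
  have hpF : CharP (integralClosure ℤ ℂ ⧸ 𝔪) p := by
    refine (CharP.charP_iff_prime_eq_zero Fact.out).mpr ?_
    rw [← map_natCast (Ideal.Quotient.mk 𝔪), Ideal.Quotient.eq_zero_iff_mem]
    exact hp𝔪
  let : Algebra (ZMod p) (integralClosure ℤ ℂ ⧸ 𝔪) := ZMod.algebra _ p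
  have : Algebra.IsIntegral ℤ (integralClosure ℤ ℂ ⧸ 𝔪) := inferInstance
  have : Algebra.IsIntegral (ZMod p) (integralClosure ℤ ℂ ⧸ 𝔪) :=
    ⟨fun x => (Algebra.IsIntegral.isIntegral (R := ℤ) x).tower_top⟩
  let j : (integralClosure ℤ ℂ ⧸ 𝔪) →ₐ[ZMod p] κ := IsAlgClosed.lift
  refine ⟨g, hg, j.toRingHom.comp (Ideal.Quotient.mk 𝔪), fun l hl hlS b hb => ?_⟩
  have hu' := LinearMap.mem_ker.mp ((Submodule.mem_iInf _).mp huW ⟨l, hl, hlS⟩)
  simp only [LinearMap.sub_apply, LinearMap.smul_apply, Module.End.one_apply, sub_eq_zero, hχ]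
    at hu'
  obtain ⟨b', hb', hbm⟩ := hcong l hl ((a l).val : ℤ) (Subtype.ext (by
    rw [SubringClass.coe_intCast, Int.cast_natCast]
    exact smul_left_injective κ hu hu'))
  rw [show b = b' from Subtype.ext (hb.trans hb'.symm), RingHom.comp_apply,
    (Ideal.Quotient.mk_eq_mk_iff_sub_mem _ _).mpr hbm, map_intCast, map_intCast, Int.cast_natCast,
    natCast_val_algebraMap]

/-- A congruent form gives nonzero eigen torsion. -/
theorem eigTors_ne_bot_of_isCongruentLevel (h : IsCongruentLevel S a N) :
    EigTors N p S a ≠ ⊥ := by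
  obtain ⟨g, hg, φ, hφ⟩ := h
  have := HeckeDuality.heckeAlgebra_finite_of_integralStructure (N := N) ∅
    (IntegralStructure.hasIntegralStructure N 2)
  obtain ⟨θ, hθ⟩ := GaloisReps.exists_eigenform_character hg
  let χ := φ.comp θ
  have : NeZero (p ^ 1) := ⟨pow_ne_zero 1 (Fact.out : p.Prime).ne_zero⟩
  have : CharP (AlgebraicClosure (ZMod p)) p :=
    charP_of_injective_algebraMap (algebraMap (ZMod p) _).injective p
  obtain ⟨v, hv0, hv⟩ := exists_vec_of_character (n := p ^ 1) (GaloisReps.latticeMat N)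
    GaloisReps.latticeMat_injective χ (by rw [pow_one]; exact CharP.cast_eq_zero _ p)
  let E := GaloisReps.torsionIso N p (GaloisReps.conjProperty N)
  obtain ⟨x, rfl⟩ := (E.psi 1).surjective v
  refine fun hbot => hv0 ?_
  suffices hmem : (x : JZero N) ∈ EigTors N p S a by
    rw [hbot, AddSubgroup.mem_bot] at hmem
    rw [show x = 0 from Subtype.ext hmem, map_zero]
  refine mem_eigTors.mpr ⟨?_, fun l hl hlS => ?_⟩
  · have := Pic0.mem_torsion.mp x.2
    rwa [natCast_zsmul, pow_one] at this
  have h := hv (HeckeDuality.heckeOp N 2 l hl - ((a l).val : GaloisReps.FullHecke N)) (by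
    rw [map_sub, map_natCast, natCast_val_algebraMap, sub_eq_zero]
    exact hφ l hl hlS _ (hθ l hl))
  rw [map_sub, map_natCast, map_sub, map_natCast, GaloisReps.latticeMat_heckeOp,
    RingHom.mapMatrix_apply, Matrix.sub_mulVec, sub_eq_zero, ← E.mat_heckeTors, E.mat_mulVec,
    Matrix.natCast_mulVec, Nat.cast_smul_eq_nsmul, ← map_nsmul] at h
  exact congrArg Subtype.val ((E.psi 1).injective h)

end Fermat.Agent.RT.LowerQ

end
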