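import Fermat.Agent.RT.LowerQ.Defs
import Fermat.Agent.RT.MazurP.Basic
import Fermat.Agent.EichlerShimura.GlobalRed
import Fermat.Agent.EichlerShimura.Equivariance
import Fermat.Agent.FiniteFlat.Instance
import Fermat.Agent.CurveTorsion.Main
import Fermat.Agent.Mazur.Eisenstein.RedKernel

/-!
# Reduction of the `p`-torsion of `J₀(M)` on Kummer functions

At a prime `q ∤ M` of good reduction the reduction is bijective on `p`-torsion, `p ≠ q`.
-/

set_option autoImplicit false
set_option synthInstance.maxHeartbeats 400000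
set_option maxHeartbeats 1000000

noncomputable section

namespace Fermat.Agent.RT.LowerQ

open AlgebraicCurve ModularCurve IsLocalRing
open Fermat.Agent.Semistable
open Arith (QBar GQ)
open MazurP (IsRed)

variable {A : ValuationSubring QBar} {q p M : ℕ} [Fact q.Prime] [Fact p.Prime] [CharP (Res A) q]
  [NeZero M] [FF.IsFunctionField (Res A) (KM A M)] [FF.IsFunctionField QBar (FB M)]

/-- An integral function with nonzero reduction: its reduction up to constants and its divisor. -/
theorem isRed_sint (hNA : (M : Res A) ≠ 0) {r : Place QBar (FB M) → Place (Res A) (KM A M)}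
    (hr : IsPlaceReductionModL A M r) (u : RedTorsion.sint A (FB M))
    (hu : RedTorsion.redF EichlerShimura.hFb hNA u ≠ 0) :
    IsRed A ((u : FB M) : LSer) (RedTorsion.redF EichlerShimura.hFb hNA u : LaurentSeries (Res A)) ∧
      Finsupp.mapDomain r (FF.div QBar (u : FB M)) =
        FF.div (Res A) (RedTorsion.redF EichlerShimura.hFb hNA u) := by
  have hint : ((u : FB M) : LSer) ∈ intS A :=
    mem_intS_of_coeff (mem_fracS_of_mem _) (RedTorsion.mem_serInt.mp u.2)
  have e : redL A ⟨_, intS_le_locS hint⟩ =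
      (RedTorsion.redF EichlerShimura.hFb hNA u : LaurentSeries (Res A)) := by
    rw [redL_of_mem_intS ⟨_, hint⟩, RedTorsion.coe_redF]
    ext n
    exact ((coeff_red A _ n).trans (RedTorsion.coeff_serRed ⟨_, u.2⟩ n).symm)
  refine ⟨?_, ?_⟩
  · rw [← e]
    exact IsRed.of_locS _ (e ▸ fun h0 => hu (Subtype.ext h0))
  · obtain ⟨y, hy⟩ := u.2
    refine EichlerShimura.mapDomain_div hr y _ _ hy ?_ hu
    rw [RedTorsion.coe_redF, ← RedTorsion.serRed_coeffMap y ⟨y, rfl⟩]
    exact congrArg (RedTorsion.serRed A) (Subtype.ext hy)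

/-- Every function has a reduction, and its divisor is the reduced divisor. -/
theorem exists_isRed_div (hA : A.LiesOverPrime q) (hNA : (M : Res A) ≠ 0)
    {r : Place QBar (FB M) → Place (Res A) (KM A M)} (hr : IsPlaceReductionModL A M r)
    {f : FB M} (hf : f ≠ 0) :
    ∃ z : KM A M, IsRed A (f : LSer) (z : LaurentSeries (Res A)) ∧
      Finsupp.mapDomain r (FF.div QBar f) = FF.div (Res A) z := by
  classical
  have hFb : FB M = modularFunctionFieldFullC QBar M := EichlerShimura.hFb
  let _ := RedTorsion.ratAlgebra (RedTorsion.transcendental_jF (F := FB M) hFb)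
  let _ := RedTorsion.ratAlgebra
    (RedTorsion.transcendental_jF (K := Res A) (N := M) (F := KM A M) rfl)
  have := EichlerShimura.isScalarTower_ratAlgebra (RedTorsion.transcendental_jF (F := FB M) hFb)
  obtain ⟨c, hc, z, hfz, hz⟩ := (RedTorsion.model hFb hNA).exists_scale' hf
  obtain ⟨d, P, hd, hzd⟩ := (RedTorsion.model hFb hNA).exists_common_den z
  have he : ∀ s : Polynomial A, algebraMap (RatFunc QBar) (FB M) (EichlerShimura.ratIncl A s) =
      ((RedTorsion.evalS (F := FB M) hFb s : RedTorsion.sint A (FB M)) : FB M) := fun s => by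
    rw [RedTorsion.coe_evalS]
    exact RedTorsion.ratLine_algebraMap (RedTorsion.transcendental_jF (F := FB M) hFb) _
  set w : RedTorsion.sint A (FB M) := RedTorsion.evalS hFb d with hw
  let u : RedTorsion.sint A (FB M) :=
    ∑ i, RedTorsion.evalS hFb (P i) * ⟨_, RedTorsion.basisInt_mem hFb hNA i⟩
  have hu : (u : FB M) = (z : FB M) * (w : FB M) := by
    rw [hw, ← he, hzd, AddSubmonoidClass.coe_finsetSum]
    refine Finset.sum_congr rfl fun i _ => ?_
    rw [he]
    rfl
  have hwr : RedTorsion.redF hFb hNA w ≠ 0 := fun h => by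
    have h' := congrArg Subtype.val h
    rw [RedTorsion.coe_redF, hw, RedTorsion.sred_evalS, ZeroMemClass.coe_zero] at h'
    exact hd ((transcendental_iff_injective.mp (transcendental_jqModC (Res A)))
      (h'.trans (map_zero _).symm))
  have hur : RedTorsion.redF hFb hNA u ≠ 0 := by
    have h : (⟨_, RedTorsion.mem_model_S hFb hNA u⟩ : (RedTorsion.model hFb hNA).S) =
        z * ⟨_, RedTorsion.mem_model_S hFb hNA w⟩ := Subtype.ext hu
    have h' := congrArg (RedTorsion.model hFb hNA).red h
    rw [map_mul, RedTorsion.model_red, RedTorsion.model_red] at h'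
    rw [h']
    exact mul_ne_zero hz hwr
  have hw0 : (w : FB M) ≠ 0 := fun h => hwr (by rw [show w = 0 from Subtype.ext h, map_zero])
  have hu0 : (u : FB M) ≠ 0 := fun h => hur (by rw [show u = 0 from Subtype.ext h, map_zero])
  obtain ⟨hU, hUd⟩ := isRed_sint hNA hr u hur
  obtain ⟨hW, hWd⟩ := isRed_sint hNA hr w hwr
  have hfe : f = algebraMap QBar (FB M) c * ((u : FB M) / (w : FB M)) := by
    rw [hu, mul_div_assoc, div_self hw0, mul_one, hfz, ← RatFunc.algebraMap_eq_C,
      ← IsScalarTower.algebraMap_apply]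
  refine ⟨RedTorsion.redF hFb hNA u / RedTorsion.redF hFb hNA w, ?_, ?_⟩
  · have h := (IsRed.const (A := A) hc).mul (hU.div hW)
    rw [one_mul] at h
    rw [hfe]
    push_cast
    exact h
  · have h1 : FF.div QBar f = FF.div QBar (u : FB M) - FF.div QBar (w : FB M) := by
      ext P
      rw [Finsupp.sub_apply, FF.div_apply, FF.div_apply, FF.div_apply, hfe,
        P.ord_mul ((_root_.map_ne_zero _).mpr hc) (div_ne_zero hu0 hw0), FF.ord_algebraMap,
        zero_add, FF.ord_div P hu0 hw0]
    rw [h1, Finsupp.mapDomain_sub, hUd, hWd]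
    ext P
    rw [Finsupp.sub_apply, FF.div_apply, FF.div_apply, FF.div_apply, FF.ord_div P hur hwr]

/-- A reduction of a Kummer function is a Kummer function representing the reduced class. -/
theorem reductionModL_toTorsion_of_isRed (hA : A.LiesOverPrime q) (hNA : (M : Res A) ≠ 0)
    (h : JacTorsion.divGrp QBar (FB M) p) {z : LaurentSeries (Res A)}
    (hz : IsRed A (((h : (FB M)ˣ) : FB M) : LSer) z) :
    ∃ e : JacTorsion.divGrp (Res A) (KM A M) p,
      (((e : (KM A M)ˣ) : KM A M) : LaurentSeries (Res A)) = z ∧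
      reductionModL A M ((JacTorsion.toTorsion (Additive.ofMul h) : Pic0.torsion QBar (FB M) p) :
          JZero M) =
        ((JacTorsion.toTorsion (Additive.ofMul e) : Pic0.torsion (Res A) (KM A M) p) :
          JZeroC (Res A) M) := by
  have := Arith.residueField_isAlgClosed A
  have hI := EichlerShimura.reductionInputsModL (A := A) (N := M) hNA
  set r := placeReductionModL hI with hrdef
  have hr := isPlaceReductionModL_placeReductionModL hI
  have hf0 : ((h : (FB M)ˣ) : FB M) ≠ 0 := Units.ne_zero _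
  obtain ⟨z₀, hz₀, hd⟩ := exists_isRed_div hA hNA hr hf0
  obtain ⟨c, hc, hcz⟩ := IsRed.unique hz₀ hz
  set g : KM A M := algebraMap (Res A) (KM A M) c * z₀ with hgdef
  have hgz : (g : LaurentSeries (Res A)) = z := by rw [hcz, hgdef]; push_cast; rfl
  have hg0 : g ≠ 0 := fun h0 => hz.1 (by rw [← hgz, h0]; rfl)
  have hz₀0 : z₀ ≠ 0 := fun h0 => hg0 (by rw [hgdef, h0, mul_zero])
  have hgd : FF.div (Res A) g = (p : ℤ) • Finsupp.mapDomain r (JacTorsion.divQuot h) := by
    rw [← Finsupp.mapDomain_smul, JacTorsion.smul_divQuot, hd]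
    ext P
    rw [FF.div_apply, FF.div_apply, hgdef, P.ord_mul ((_root_.map_ne_zero _).mpr hc) hz₀0,
      FF.ord_algebraMap, zero_add]
  have hmem : Units.mk0 g hg0 ∈ JacTorsion.divGrp (Res A) (KM A M) p := fun P => by
    rw [Units.val_mk0, ← FF.div_apply, hgd, Finsupp.smul_apply, smul_eq_mul]
    exact dvd_mul_right _ _
  refine ⟨⟨_, hmem⟩, hgz, ?_⟩
  show reductionModL A M (Pic0.mk _) = Pic0.mk _
  rw [reductionModL_mk hI]
  refine congrArg Pic0.mk (Subtype.ext (JacTorsion.eq_of_smul_eq (m := p) ?_))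
  rw [coe_reductionDegZeroAlong]
  show (p : ℤ) • Finsupp.mapDomain r (JacTorsion.divQuot h) = (p : ℤ) • JacTorsion.divQuot _
  rw [← hgd, JacTorsion.smul_divQuot]
  rfl

theorem natCast_residue_ne_zero (hA : A.LiesOverPrime q) (hqM : ¬ q ∣ M) : (M : Res A) ≠ 0 :=
  EichlerShimura.natCast_ne_zero (Fact.out : q.Prime) hqM hA

/-- Reduction is bijective on `p`-torsion. -/
theorem exists_torsion_lift (hA : A.LiesOverPrime q) (hqM : ¬ q ∣ M)
    (hinj : EichlerShimura.InjectiveOnTorsion M) (hpq : p ≠ q)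
    (y : Pic0.torsion (Res A) (KM A M) p) :
    ∃ x : Pic0.torsion QBar (FB M) p, reductionModL A M (x : JZero M) = (y : JZeroC (Res A) M) := by
  classical
  have hNA := natCast_residue_ne_zero hA hqM
  have := Arith.residueField_isAlgClosed A
  have hp : p.Prime := Fact.out
  have hqp : ¬ q ∣ p := fun h => hpq ((Nat.prime_dvd_prime_iff_eq Fact.out hp).mp h).symm
  let R : Pic0.torsion QBar (FB M) p → Pic0.torsion (Res A) (KM A M) p := fun x =>
    ⟨reductionModL A M (x : JZero M), by
      rw [Pic0.mem_torsion, ← map_zsmul, Pic0.mem_torsion.mp x.2, map_zero]⟩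
  have hRinj : Function.Injective R := fun x x' hxx' => by
    refine Subtype.ext (sub_eq_zero.mp (hinj hqM A hA
      (EichlerShimura.reductionInputsModL hNA) p hqp _ ?_ ?_))
    · rw [← natCast_zsmul, zsmul_sub, Pic0.mem_torsion.mp x.2, Pic0.mem_torsion.mp x'.2, sub_self]
    · rw [map_sub, sub_eq_zero]
      exact congrArg Subtype.val hxx'
  have h1 := CurveTorsion.natCard_torsion_pow_of_charZero QBar (FB M) p 1
  have h2 := CurveTorsion.natCard_torsion_of_isFrob
    (Mazur.Eisenstein.isFrob_coeffAut M A (q := q) hA) p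
    (fun h => hpq ((Nat.prime_dvd_prime_iff_eq hp Fact.out).mp (by rwa [pow_one] at h))) 1
  rw [FiniteFlat.genusFF_residue_eq hNA] at h2
  rw [pow_one] at h1 h2
  have hfin : Finite (Pic0.torsion (Res A) (KM A M) p) :=
    Nat.finite_of_card_ne_zero (by rw [h2]; exact pow_ne_zero _ hp.ne_zero)
  obtain ⟨x, hx⟩ := (hRinj.bijective_of_nat_card_le (by rw [h1, h2])).2 y
  exact ⟨x, congrArg Subtype.val hx⟩

/-- **Every residual Kummer function is, up to a `p`-th power, the reduction of one.** -/
theorem exists_kummer_lift (hA : A.LiesOverPrime q) (hqM : ¬ q ∣ M)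
    (hinj : EichlerShimura.InjectiveOnTorsion M) (hpq : p ≠ q) {z : KM A M} (hz : z ≠ 0)
    (hdiv : ∀ P : Place (Res A) (KM A M), (p : ℤ) ∣ P.ord z) :
    ∃ (h : JacTorsion.divGrp QBar (FB M) p) (z' g : KM A M), g ≠ 0 ∧
      MazurP.IsRed A (((h : (FB M)ˣ) : FB M) : LSer) (z' : LaurentSeries (Res A)) ∧
      z = z' * g ^ p := by
  have := Arith.residueField_isAlgClosed A
  have hNA := natCast_residue_ne_zero hA hqM
  let zu : JacTorsion.divGrp (Res A) (KM A M) p :=
    ⟨Units.mk0 z hz, fun P => by rw [Units.val_mk0]; exact hdiv P⟩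
  obtain ⟨x, hx⟩ := exists_torsion_lift hA hqM hinj hpq (JacTorsion.toTorsion (Additive.ofMul zu))
  obtain ⟨h, rfl⟩ := JacTorsion.toTorsion_surjective x
  obtain ⟨z₀, hz₀, -⟩ := exists_isRed_div hA hNA
    (isPlaceReductionModL_placeReductionModL (EichlerShimura.reductionInputsModL (A := A) hNA))
    (f := (((h.toMul : JacTorsion.divGrp QBar (FB M) p) : (FB M)ˣ) : FB M)) (Units.ne_zero _)
  obtain ⟨e, he, hred⟩ := reductionModL_toTorsion_of_isRed hA hNA h.toMul hz₀
  have h0 : JacTorsion.toTorsion (Additive.ofMul (zu / e)) = 0 := by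
    rw [ofMul_div, map_sub, sub_eq_zero]
    refine Subtype.ext ?_
    rw [← hx, ← hred]
    rfl
  obtain ⟨g, hg⟩ := (JacTorsion.toTorsion_eq_zero_iff _).mp h0
  refine ⟨h.toMul, (e : (KM A M)ˣ), g, Units.ne_zero _, by rw [he]; exact hz₀, ?_⟩
  have h' : g ^ p = (Units.mk0 z hz) / (e : (KM A M)ˣ) := by
    simpa [zu] using hg
  rw [eq_div_iff_mul_eq'] at h'
  rw [mul_comm]
  exact (congrArg Units.val h').symm.trans (by simp)

/-- A Kummer function whose reduction is a constant times a `p`-th power has trivial class. -/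
theorem toTorsion_eq_zero_of_isRed_pow (hA : A.LiesOverPrime q) (hqM : ¬ q ∣ M)
    (hinj : EichlerShimura.InjectiveOnTorsion M) (hpq : p ≠ q)
    (h : JacTorsion.divGrp QBar (FB M) p) {g : KM A M} (c : Res A)
    (hred : MazurP.IsRed A (((h : (FB M)ˣ) : FB M) : LSer)
      (algebraMap (Res A) (LaurentSeries (Res A)) c * (g : LaurentSeries (Res A)) ^ p)) :
    JacTorsion.toTorsion (Additive.ofMul h) = 0 := by
  have := Arith.residueField_isAlgClosed A
  have hNA := natCast_residue_ne_zero hA hqM
  have hp : p.Prime := Fact.out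
  obtain ⟨e, he, hr⟩ := reductionModL_toTorsion_of_isRed hA hNA h hred
  obtain ⟨d, hd⟩ := IsAlgClosed.exists_pow_nat_eq c hp.pos
  have heq : ((e : (KM A M)ˣ) : KM A M) = (algebraMap (Res A) (KM A M) d * g) ^ p := by
    refine Subtype.ext (he.trans ?_)
    rw [mul_pow, ← map_pow, hd]
    push_cast
    rfl
  have hne : algebraMap (Res A) (KM A M) d * g ≠ 0 := fun h0 => by
    rw [h0, zero_pow hp.ne_zero] at heq
    exact Units.ne_zero _ heq
  have he0 : JacTorsion.toTorsion (Additive.ofMul e) = 0 :=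
    (JacTorsion.toTorsion_eq_zero_iff e).mpr ⟨Units.mk0 _ hne, Units.ext (by simpa using heq.symm)⟩
  refine Subtype.ext (hinj hqM A hA (EichlerShimura.reductionInputsModL hNA) p
    (fun hd' => hpq ((Nat.prime_dvd_prime_iff_eq Fact.out hp).mp hd').symm) _ ?_ ?_)
  · rw [← natCast_zsmul]
    exact Pic0.mem_torsion.mp (JacTorsion.toTorsion (Additive.ofMul h)).2
  · rw [hr, he0]
    rfl

end Fermat.Agent.RT.LowerQ

end
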