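import Fermat.Agent.RT.LowerQ.CurveDefs
import Fermat.Agent.EC.Rep.TWHypothesis
import Fermat.Agent.Arith.Chebotarev.Main

/-!
# The auxiliary prime for `p = 3`

For semistable `W` with irreducible `E[3]` and a character `χ` of `Gal(ℚ̄/ℚ)` with abelian values
there is `h` in the kernel of `χ` with `tr ρ(c h) ≠ 0`, `c` complex conjugation. Otherwise the kernel
acts, in an eigenbasis of `c`, by a commutative algebra normalised by the whole image, so a
non-scalar endomorphism commutes or anticommutes with every element and a subgroup of index at most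
two would be reducible. Chebotarev for `c h` and the twelfth roots of unity gives the prime.
-/

set_option autoImplicit false

noncomputable section

open WeierstrassCurve Fermat.Agent.Arith

namespace Fermat.Agent.RT.LowerQ

open EC.Rep (residualRep)

variable {W : WeierstrassCurve ℤ} (hΔ : W.Δ ≠ 0)

local notation "ρ₃" => residualRep W 3 hΔ

/-- No non-scalar endomorphism commutes or anticommutes with the whole image. -/
theorem false_of_comm_or_anticomm (hW : W.IsSemistableModel) (hirr : W.ModRepIsIrreducible 3)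
    (T : Module.End (ZMod 3) (ρ₃).V) (hT : ∀ a : ZMod 3, T ≠ a • 1)
    (hg : ∀ g : GQ, (ρ₃).ρ g * T = T * (ρ₃).ρ g ∨ (ρ₃).ρ g * T = -(T * (ρ₃).ρ g)) : False := by
  classical
  set R := ((ρ₃).baseChange (AlgebraicClosure (ZMod 3))) with hR
  let T' : Module.End (AlgebraicClosure (ZMod 3)) R.V := T.baseChange (AlgebraicClosure (ZMod 3))
  have : Nontrivial R.V := Module.nontrivial_of_finrank_eq_succ R.finrank_eq
  obtain ⟨μ, hμ⟩ := Module.End.exists_eigenvalue T'
  set V := Module.End.eigenspace T' μ with hV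
  have hVtop : V ≠ ⊤ := by
    intro h
    have hall : ∀ v, T' v = μ • v := fun v => Module.End.mem_eigenspace_iff.1
      (show v ∈ V from h ▸ Submodule.mem_top)
    let b := Module.finBasisOfFinrankEq (ZMod 3) (ρ₃).V (ρ₃).finrank_eq
    have hμk : μ = algebraMap (ZMod 3) _ (b.repr (T (b 0)) 0) := by
      have h1 : T.baseChange (AlgebraicClosure (ZMod 3)) (1 ⊗ₜ b 0) =
          μ • ((1 : AlgebraicClosure (ZMod 3)) ⊗ₜ[ZMod 3] b 0) := hall (1 ⊗ₜ b 0)
      rw [LinearMap.baseChange_tmul] at h1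
      have h0 := congrArg (fun w => (b.baseChange (AlgebraicClosure (ZMod 3))).repr w 0) h1
      simpa [Module.Basis.baseChange_repr_tmul, Algebra.algebraMap_eq_smul_one] using h0.symm
    refine hT (b.repr (T (b 0)) 0) (EC.Rep.baseChange_injective (ρ := ρ₃)
      (K := AlgebraicClosure (ZMod 3)) (LinearMap.ext fun v => ?_))
    rw [LinearMap.baseChange_smul, Module.End.one_eq_id, LinearMap.baseChange_id,
      LinearMap.smul_apply, LinearMap.id_apply, ← algebraMap_smul (AlgebraicClosure (ZMod 3)), ← hμk]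
    exact hall v
  let G : Subgroup GQ :=
    { carrier := {g | (ρ₃).ρ g * T = T * (ρ₃).ρ g}
      one_mem' := by simp
      mul_mem' := fun {g g'} h h' => by
        show (ρ₃).ρ (g * g') * T = T * (ρ₃).ρ (g * g')
        rw [map_mul]
        exact Commute.mul_left h h'
      inv_mem' := fun {g} h => by
        show (ρ₃).ρ g⁻¹ * T = T * (ρ₃).ρ g⁻¹
        have h1 : (ρ₃).ρ g⁻¹ * (ρ₃).ρ g = 1 := by rw [← map_mul, inv_mul_cancel, map_one]
        have h2 : (ρ₃).ρ g * (ρ₃).ρ g⁻¹ = 1 := by rw [← map_mul, mul_inv_cancel, map_one]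
        calc (ρ₃).ρ g⁻¹ * T = (ρ₃).ρ g⁻¹ * (T * (ρ₃).ρ g) * (ρ₃).ρ g⁻¹ := by
              rw [mul_assoc, mul_assoc, h2, mul_one]
          _ = (ρ₃).ρ g⁻¹ * ((ρ₃).ρ g * T) * (ρ₃).ρ g⁻¹ := by rw [h]
          _ = T * (ρ₃).ρ g⁻¹ := by rw [← mul_assoc, h1, one_mul] }
  have hstab : ∀ σ ∈ G, ∀ x ∈ V, R.ρ σ x ∈ V := fun σ hσ x hx => by
    rw [hV, Module.End.mem_eigenspace_iff] at hx ⊢
    have h1 : R.ρ σ * T' = T' * R.ρ σ := by
      show ((ρ₃).ρ σ).baseChange _ * T.baseChange _ = T.baseChange _ * ((ρ₃).ρ σ).baseChange _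
      rw [← LinearMap.baseChange_mul, ← LinearMap.baseChange_mul]
      exact congrArg _ (show (ρ₃).ρ σ * T = T * (ρ₃).ρ σ from hσ)
    rw [← Module.End.mul_apply, ← h1, Module.End.mul_apply, hx, map_smul]
  by_cases htop : G = ⊤
  · exact (EC.Rep.baseChange_residualRep_isIrreducible hΔ (by norm_num) hirr _ V
      fun σ x hx => hstab σ (htop ▸ Subgroup.mem_top σ) x hx).elim hμ hVtop
  obtain ⟨t, ht⟩ : ∃ t, t ∉ G := by
    by_contra! hall
    exact htop ((Subgroup.eq_top_iff' G).2 hall)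
  have hanti : ∀ g, g ∉ G → (ρ₃).ρ g * T = -(T * (ρ₃).ρ g) := fun g h => (hg g).resolve_left h
  have hmul : ∀ g, g ∉ G → g * t ∈ G := fun g h => by
    show (ρ₃).ρ (g * t) * T = T * (ρ₃).ρ (g * t)
    rw [map_mul, mul_assoc, hanti t ht, mul_neg, ← mul_assoc, hanti g h, neg_mul, neg_neg, mul_assoc]
  have hidx : G.index = 2 := Subgroup.index_eq_two_iff.2 ⟨t, fun g => by
    by_cases hgG : g ∈ G
    · exact Or.inr ⟨hgG, fun h => ht ((G.mul_mem_cancel_left hgG).1 h)⟩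
    · exact Or.inl ⟨hmul g hgG, hgG⟩⟩
  exact (EC.Rep.residualRep_indexTwo_irreducible hW (by norm_num) hirr _ G hidx V hstab).elim hμ hVtop

/-- Complex conjugation can be multiplied into trace nonzero inside the kernel of an abelian
character. -/
theorem exists_trace_ne_zero (hW : W.IsSemistableModel) (hirr : W.ModRepIsIrreducible 3)
    {A : Type*} [CommGroup A] (χ : GQ →* A) :
    ∃ h : GQ, χ h = 1 ∧
      LinearMap.trace (ZMod 3) (ρ₃).V ((ρ₃).ρ (complexConjugation * h)) ≠ 0 := by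
  classical
  by_contra! hall
  set c : GQ := complexConjugation
  set C := (ρ₃).ρ c with hC
  have hCC : C * C = 1 := by rw [hC, ← map_mul, complexConjugation_mul_self, map_one]
  have hCd : LinearMap.det C = -1 := EC.Rep.det_residualRep_involution hΔ (by norm_num)
    complexConjugation_mul_self EC.Rep.complexConjugation_ne_one
  have hCns : ∀ a : ZMod 3, C ≠ a • 1 := fun a h => by
    rw [h, LinearMap.det_smul, map_one, mul_one, (ρ₃).finrank_eq] at hCd
    exact (by decide : ∀ a : ZMod 3, a ^ 2 ≠ -1) a hCd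
  have hunits : ∀ s : ZMod 3, s ≠ 0 → s = 1 ∨ s = -1 := by decide
  have hnz : ∀ g : GQ, (ρ₃).ρ g ≠ 0 := fun g h => by
    have : Nontrivial (ρ₃).V := Module.nontrivial_of_finrank_eq_succ (ρ₃).finrank_eq
    have h1 : (ρ₃).ρ g * (ρ₃).ρ g⁻¹ = 1 := by rw [← map_mul, mul_inv_cancel, map_one]
    rw [h, zero_mul] at h1
    exact zero_ne_one h1
  by_cases hscal : ∀ h, χ h = 1 → ∃ a : ZMod 3, (ρ₃).ρ h = a • 1
  · refine false_of_comm_or_anticomm hΔ hW hirr C hCns fun g => ?_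
    obtain ⟨s, hs⟩ := hscal (g * c * g⁻¹ * c⁻¹) (by simp [mul_comm, mul_left_comm])
    have h1 : (ρ₃).ρ (g * c) = s • (ρ₃).ρ (c * g) := by
      rw [show g * c = (g * c * g⁻¹ * c⁻¹) * (c * g) by group, map_mul, hs, smul_one_mul]
    rcases hunits s (fun h0 => hnz (g * c) (by rw [h1, h0, zero_smul])) with rfl | rfl
    · exact Or.inl (by rw [hC, ← map_mul, ← map_mul, h1, one_smul])
    · exact Or.inr (by rw [hC, ← map_mul, ← map_mul, h1, neg_one_smul])
  push Not at hscal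
  obtain ⟨h₀, hh₀, hh₀s⟩ := hscal
  -- an eigenbasis of `C`
  obtain ⟨u, hu⟩ : ∃ u, C u + u ≠ 0 := by
    by_contra! h
    exact hCns (-1) (LinearMap.ext fun u => by
      simpa using eq_neg_of_add_eq_zero_left (h u))
  obtain ⟨w, hw⟩ : ∃ w, C w - w ≠ 0 := by
    by_contra! h
    exact hCns 1 (LinearMap.ext fun u => by simpa using sub_eq_zero.1 (h u))
  have hC1 : C (C u + u) = C u + u := by
    rw [map_add, ← Module.End.mul_apply, hCC, Module.End.one_apply, add_comm]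
  have hC2 : C (C w - w) = -(C w - w) := by
    rw [map_sub, ← Module.End.mul_apply, hCC, Module.End.one_apply, neg_sub]
  have hli : LinearIndependent (ZMod 3) ![C u + u, C w - w] := by
    refine (LinearIndependent.pair_iff' hu).2 fun a ha => hw ?_
    have h1 := congrArg C ha
    rw [map_smul, hC1, hC2, ha] at h1
    have h2 : (2 : ZMod 3) • (C w - w) = 0 := by
      rw [two_smul]
      exact eq_neg_iff_add_eq_zero.1 h1
    exact (smul_eq_zero.1 h2).resolve_left (by decide)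
  let f := basisOfLinearIndependentOfCardEqFinrank hli (by simp [(ρ₃).finrank_eq])
  let M : Module.End (ZMod 3) (ρ₃).V ≃ₐ[ZMod 3] Matrix (Fin 2) (Fin 2) (ZMod 3) :=
    LinearMap.toMatrixAlgEquiv f
  have hMC : M C = !![1, 0; 0, -1] := by
    have e0 : C (f 0) = f 0 := by simpa [f] using hC1
    have e1 : C (f 1) = -f 1 := by simpa [f] using hC2
    ext i j
    fin_cases i <;> fin_cases j <;> simp [M, LinearMap.toMatrixAlgEquiv_apply, e0, e1]
  have htrace : ∀ T, LinearMap.trace (ZMod 3) _ T = M T 0 0 + M T 1 1 := fun T => by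
    rw [LinearMap.trace_eq_matrix_trace (ZMod 3) f T, Matrix.trace_fin_two]
    rfl
  have hdiag : ∀ h, χ h = 1 → M ((ρ₃).ρ h) 0 0 = M ((ρ₃).ρ h) 1 1 := fun h hh => by
    have e := hall h hh
    rw [map_mul, htrace, map_mul M, ← hC, hMC] at e
    simpa [Matrix.mul_apply, Fin.sum_univ_two, ← sub_eq_add_neg, sub_eq_zero] using e
  have hprop : ∀ h h', χ h = 1 → χ h' = 1 → M ((ρ₃).ρ h) 0 1 * M ((ρ₃).ρ h') 1 0 =
      M ((ρ₃).ρ h) 1 0 * M ((ρ₃).ρ h') 0 1 := fun h h' hh hh' => by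
    have e := hdiag (h * h') (by rw [map_mul, hh, hh', mul_one])
    simp only [map_mul, Matrix.mul_apply, Fin.sum_univ_two, hdiag h hh, hdiag h' hh'] at e
    linear_combination e
  set a := M ((ρ₃).ρ h₀) 0 0 with ha
  have hoff : ∀ h, χ h = 1 → (∀ s : ZMod 3, (ρ₃).ρ h ≠ s • 1) →
      M ((ρ₃).ρ h) 0 1 ≠ 0 ∨ M ((ρ₃).ρ h) 1 0 ≠ 0 := fun h hh hs => by
    by_contra! h0
    refine hs (M ((ρ₃).ρ h) 0 0) (M.injective ?_)
    rw [map_smul, map_one]
    ext i j
    fin_cases i <;> fin_cases j <;> simp [h0.1, h0.2, hdiag h hh]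
  refine false_of_comm_or_anticomm hΔ hW hirr ((ρ₃).ρ h₀ - a • 1) (fun s hs => ?_) fun g => ?_
  · exact hh₀s (s + a) (by rw [add_smul, ← hs, sub_add_cancel])
  set h₁ := g * h₀ * g⁻¹ with hh₁
  have hχ : χ h₁ = 1 := by rw [hh₁, map_mul, map_mul, map_inv, hh₀, mul_one, mul_inv_cancel]
  have hgg : (ρ₃).ρ g⁻¹ * (ρ₃).ρ g = 1 := by rw [← map_mul, inv_mul_cancel, map_one]
  have hconj : (ρ₃).ρ g * (ρ₃).ρ h₀ = (ρ₃).ρ h₁ * (ρ₃).ρ g := by
    rw [← map_mul, ← map_mul, hh₁, inv_mul_cancel_right]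
  have hns : ∀ s : ZMod 3, (ρ₃).ρ h₁ ≠ s • 1 := fun s hs => by
    refine hh₀s s ?_
    rw [show h₀ = g⁻¹ * h₁ * g by rw [hh₁]; group, map_mul, map_mul, hs, mul_smul_one,
      smul_mul_assoc, hgg]
  have hdiag₁ : M ((ρ₃).ρ h₁) 0 0 = a := by
    have e : LinearMap.trace (ZMod 3) _ ((ρ₃).ρ h₁) =
        LinearMap.trace (ZMod 3) _ ((ρ₃).ρ h₀) := by
      rw [hh₁, map_mul (ρ₃).ρ, LinearMap.trace_mul_comm, map_mul (ρ₃).ρ, ← mul_assoc, hgg, one_mul]
    rw [htrace, htrace, ← hdiag h₁ hχ, ← hdiag h₀ hh₀] at e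
    have : ∀ x y : ZMod 3, x + x = y + y → x = y := by decide
    exact this _ _ e
  have key : ∀ b d b' d' : ZMod 3, b * d' = d * b' → (b ≠ 0 ∨ d ≠ 0) → (b' ≠ 0 ∨ d' ≠ 0) →
      (b' = b ∧ d' = d) ∨ (b' = -b ∧ d' = -d) := by decide
  have hcases : (ρ₃).ρ h₁ - a • 1 = (ρ₃).ρ h₀ - a • 1 ∨
      (ρ₃).ρ h₁ - a • 1 = -((ρ₃).ρ h₀ - a • 1) := by
    rcases key _ _ _ _ (hprop h₀ h₁ hh₀ hχ) (hoff h₀ hh₀ hh₀s) (hoff h₁ hχ hns) with
      ⟨e1, e2⟩ | ⟨e1, e2⟩
    · left
      apply M.injective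
      ext i j
      fin_cases i <;> fin_cases j <;>
        simp [map_sub, e1, e2, hdiag₁, ← ha, ← hdiag h₁ hχ, ← hdiag h₀ hh₀]
    · right
      apply M.injective
      ext i j
      fin_cases i <;> fin_cases j <;>
        simp [map_sub, e1, e2, hdiag₁, ← ha, ← hdiag h₁ hχ, ← hdiag h₀ hh₀]
  rw [mul_sub, hconj, mul_smul_one]
  rcases hcases with e | e
  · left; rw [← e, sub_mul, smul_one_mul]
  · right; rw [← neg_mul, ← e, sub_mul, smul_one_mul]

/-- **The auxiliary prime.** -/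
theorem auxPrimeProperty : AuxPrimeProperty := by
  intro W hΔ hW hirr S
  classical
  obtain ⟨ζ, hζ⟩ : ∃ ζ : QBar, IsPrimitiveRoot ζ 12 :=
    HasEnoughRootsOfUnity.exists_primitiveRoot QBar 12
  obtain ⟨h, hh, htr⟩ := exists_trace_ne_zero hΔ hW hirr (hζ.autToPow ℚ)
  have happ : ∀ σ τ : GQ, hζ.autToPow ℚ σ = hζ.autToPow ℚ τ → σ ζ = τ ζ := fun σ τ e => by
    rw [← hζ.autToPow_spec ℚ σ, ← hζ.autToPow_spec ℚ τ, e]
  have hhζ : h ζ = ζ := by simpa using happ h 1 (hh.trans (map_one _).symm)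
  have hcζ : complexConjugation ζ = ζ ^ 11 := by
    refine complexEmbedding.toRingHom.injective ?_
    show complexEmbedding (complexConjugation ζ) = complexEmbedding (ζ ^ 11)
    have h12 : complexEmbedding ζ ^ 12 = 1 := by rw [← map_pow, hζ.pow_eq_one, map_one]
    rw [complexEmbedding_complexConjugation, map_pow,
      ← Complex.inv_eq_conj (Complex.norm_eq_one_of_pow_eq_one h12 (by norm_num))]
    exact inv_eq_of_mul_eq_one_right (by rw [← pow_succ']; exact h12)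
  obtain ⟨L₀, hL₀, hLker⟩ := (residualRep W 3 hΔ).factorsThroughFiniteLevel
  haveI : FiniteDimensional ℚ (IntermediateField.adjoin ℚ {ζ}) :=
    IntermediateField.adjoin.finiteDimensional (Algebra.IsIntegral.isIntegral ζ)
  obtain ⟨ℓ, hℓ, hℓS, A, hA, σ, hσ, he⟩ := Arith.Chebotarev.exists_frobenius_eq
    ((residualRep W 3 hΔ).ρ.prod (hζ.autToPow ℚ)) (L₀ ⊔ IntermediateField.adjoin ℚ {ζ})
    (fun τ hτ => by
      refine Prod.ext (hLker τ fun x hx => hτ x ((le_sup_left : L₀ ≤ L₀ ⊔ _) hx)) (Units.ext ?_)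
      refine ZMod.val_injective 12 (hζ.pow_inj (ZMod.val_lt _) (ZMod.val_lt _) ?_)
      show ζ ^ ((hζ.autToPow ℚ τ : ZMod 12)).val = _
      rw [hζ.autToPow_spec ℚ τ, hτ ζ ((le_sup_right : _ ≤ L₀ ⊔ _)
        (IntermediateField.mem_adjoin_simple_self ℚ ζ)), Prod.snd_one, Units.val_one]
      exact (pow_one ζ).symm)
    (complexConjugation * h) (S ∪ insert 2 (insert 3 W.Δ.natAbs.primeFactors))
  simp only [Finset.mem_union, Finset.mem_insert, not_or] at hℓS
  have hgood : W.IsGoodPrimeFor ℓ := fun hdvd => hℓS.2.2.2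
    (Nat.mem_primeFactors.mpr ⟨hℓ, Int.natCast_dvd.mp hdvd, Int.natAbs_ne_zero.mpr hΔ⟩)
  refine ⟨ℓ, hℓ, hℓS.1, hgood, ?_, fun hdvd => htr ?_⟩
  · have h12 : ¬ ℓ ∣ 12 := fun hd => by
      rcases (hℓ.dvd_mul (m := 4) (n := 3)).1 hd with h4 | h3
      · exact hℓS.2.1 ((Nat.prime_dvd_prime_iff_eq hℓ Nat.prime_two).1
          (hℓ.dvd_of_dvd_pow (n := 2) h4))
      · exact hℓS.2.2.1 ((Nat.prime_dvd_prime_iff_eq hℓ Nat.prime_three).1 h3)
    have e := happ σ _ (congrArg Prod.snd he)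
    rw [Arith.frobenius_root hA hℓ hσ hζ.pow_eq_one h12, AlgEquiv.mul_apply, hhζ, hcζ,
      ← pow_mod_orderOf ζ ℓ, ← hζ.eq_orderOf] at e
    exact hζ.pow_inj (Nat.mod_lt _ (by norm_num)) (by norm_num) e
  · rw [← show (residualRep W 3 hΔ).ρ σ = (residualRep W 3 hΔ).ρ (complexConjugation * h) from
      congrArg Prod.fst he]
    exact (EC.FrobTrace.galoisTrace_frobenius W hℓ hgood hℓS.2.2.1 hA hσ).trans
      ((ZMod.intCast_zmod_eq_zero_iff_dvd _ 3).2 hdvd)

end Fermat.Agent.RT.LowerQ
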