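import Fermat.Agent.RT.LowerQ.Defs
import Fermat.Agent.EC.Rep.Residual
import Fermat.Prelude.Def_FLTPrelim_ModularRep

/-!
# Lowering an unramified prime from the level of a semistable curve: the pieces

The principle of Mazur removes `q` unless `q = 1` and Frobenius is scalar modulo `p`; the patching
argument removes `q` in that case.
-/

set_option autoImplicit false

noncomputable section

namespace Fermat.Agent.RT.LowerQ

local notation "GQ" => AlgebraicClosure ℚ ≃ₐ[ℚ] AlgebraicClosure ℚ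

/-- The residual system of `E[p]`. -/
def curveAbar (W : WeierstrassCurve ℤ) (k : Type) [Field k] (ℓ : ℕ) : k := (W.apOfModel ℓ : k)

/-- The primes left out at level `M`: `p`, the primes of `M` and those of bad reduction. -/
def curveSet (W : WeierstrassCurve ℤ) (p M : ℕ) : Finset ℕ :=
  insert p (W.Δ.natAbs * M).primeFactors

/-- `E[p]` is unramified at `q`, `q = 1` modulo `p` and Frobenius at `q` is a scalar. -/
def IsScalarAt (W : WeierstrassCurve ℤ) (p : ℕ) [Fact p.Prime] (hΔ : W.Δ ≠ 0) (q : ℕ) : Prop :=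
  (q : ZMod p) = 1 ∧ ∀ A : ValuationSubring (AlgebraicClosure ℚ), A.LiesOverPrime q →
    ∀ σ : GQ, A.IsFrobeniusAt σ q → ∃ c : ZMod p, (EC.Rep.residualRep W p hΔ).ρ σ = c • 1

/-- If `p` divides the level then the curve is multiplicative and très ramifiée at `p`. -/
def LevelAtP (W : WeierstrassCurve ℤ) (p M : ℕ) : Prop :=
  p ∣ M → (p : ℤ) ∣ W.Δ ∧ ¬ p ∣ padicValInt p W.Δ

/-- Mazur's principle for a curve. -/
def MazurStepProperty (p : ℕ) [Fact p.Prime] : Prop :=
  ∀ (W : WeierstrassCurve ℤ) (hΔ : W.Δ ≠ 0), W.IsSemistableModel → W.ModRepIsIrreducible p →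
    ∀ (M q : ℕ), q.Prime → q ≠ p → q ∣ M → Squarefree M →
      (EC.Rep.residualRep W p hΔ).IsUnramifiedAt q → ¬ IsScalarAt W p hΔ q →
      W.IsResiduallyModularOfLevel p M → W.IsResiduallyModularOfLevel p (M / q)

/-- The patching step: all the unramified primes of the level are scalar. -/
def ScalarDropProperty (p : ℕ) [Fact p.Prime] : Prop :=
  ∀ (W : WeierstrassCurve ℤ) (hΔ : W.Δ ≠ 0), W.IsSemistableModel → W.ModRepIsIrreducible p →
    ∀ (M q : ℕ), q.Prime → q ≠ p → q ∣ M → Squarefree M → LevelAtP W p M →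
      (EC.Rep.residualRep W p hΔ).IsUnramifiedAt q →
      (∀ v : ℕ, v.Prime → v ≠ p → v ∣ M → (EC.Rep.residualRep W p hΔ).IsUnramifiedAt v →
        IsScalarAt W p hΔ v) →
      W.IsResiduallyModularOfLevel p M → W.IsResiduallyModularOfLevel p (M / q)

/-- An auxiliary prime without elliptic points at which the system cannot become new. -/
def AuxPrimeProperty : Prop :=
  ∀ (W : WeierstrassCurve ℤ), W.Δ ≠ 0 → W.IsSemistableModel → W.ModRepIsIrreducible 3 →
    ∀ S : Finset ℕ, ∃ ℓ : ℕ, ℓ.Prime ∧ ℓ ∉ S ∧ W.IsGoodPrimeFor ℓ ∧ ℓ % 12 = 11 ∧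
      ¬ (3 : ℤ) ∣ W.apOfModel ℓ

end Fermat.Agent.RT.LowerQ

end
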