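import Fermat.Agent.RT.Mazur.OrdersSides
import Fermat.Agent.RT.MazurP.Basic
import Fermat.Agent.RT.LowerQ.Classes

/-!
# The lifts of the reductions are eigen classes

If the reduction of a balanced eigen function of level `q M` is, up to a `p`-th power, the reduction
of a function of level `M` with divisor divisible by `p`, then that function gives an eigen class.
-/

set_option autoImplicit false
set_option synthInstance.maxHeartbeats 400000
set_option maxHeartbeats 1000000
set_option linter.unusedSectionVars false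

noncomputable section

namespace Fermat.Agent.RT.LowerQ

open AlgebraicCurve ModularCurve
open Fermat.Agent.JacTorsion (divGrp toTorsion)
open Fermat.Agent.Semistable Fermat.Agent.RT.Mazur Fermat.Agent.RT.MazurP
open Arith (QBar GQ)

variable (A : ValuationSubring QBar) (M p : ℕ) [NeZero M] [NeZero p]
  [FF.IsFunctionField (Res A) (KM A M)] [FF.IsFunctionField QBar (FB M)]

/-- Reduction at level `M` is injective on Kummer classes. -/
def KerProperty : Prop :=
  ∀ (h : divGrp QBar (FB M) p) (g : KM A M) (c : Res A),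
    IsRed A (((h : (FB M)ˣ) : FB M) : LSer)
      (algebraMap (Res A) (LaurentSeries (Res A)) c * (g : LaurentSeries (Res A)) ^ p) →
    toTorsion (Additive.ofMul h) = 0

variable {A M p} {q : ℕ} [hq : Fact q.Prime] [CharP (Res A) q] {hqM : ¬ q ∣ M}

/-- A reduction of a function of level `M` is a function of level `M`. -/
theorem mem_KM_of_isRed (hM : (M : Res A) ≠ 0) {x : FB M} {z : LaurentSeries (Res A)}
    (h : IsRed A (x : LSer) z) : z ∈ KM A M := by
  obtain ⟨-, c, -, hcx, rfl⟩ := h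
  exact red1_mem_KM M hM ⟨algebraMap QBar (FB M) c * x, (Semistable.mem_loc1 M).mpr hcx⟩

/-- **The lift of a reduction is an eigen class.** -/
theorem eigen_of_red (hker : KerProperty A M p) (hA : A.LiesOverPrime q) (hM : (M : Res A) ≠ 0)
    {l : ℕ} (hl : l.Prime) (hN : ¬ l ∣ q * M) {a : ℕ}
    (F : loc2 A (iota2 M q hqM)) (fD : divGrp QBar (FB (q * M)) p)
    (hfD : ((fD : (FB (q * M))ˣ) : FB (q * M)) = (F : FB (q * M)))
    (hT : heckeOperatorBar (q * M) ⟨l, hl⟩ (toTorsion (Additive.ofMul fD) : JZero (q * M)) =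
      a • (toTorsion (Additive.ofMul fD) : JZero (q * M)))
    (s : Fin 2) (hr0 : red2 A (iota2 M q hqM) F s ≠ 0)
    (h : divGrp QBar (FB M) p) {z' g : KM A M}
    (hh : IsRed A (((h : (FB M)ˣ) : FB M) : LSer) (z' : LaurentSeries (Res A)))
    (hr : redK hM F s = z' * g ^ p) :
    heckeOperatorBar M ⟨l, hl⟩ (toTorsion (Additive.ofMul h) : JZero M) =
      a • (toTorsion (Additive.ofMul h) : JZero M) := by
  have : NeZero l := ⟨hl.ne_zero⟩
  have hlM : ¬ l ∣ M := fun h' => hN (dvd_mul_of_dvd_right h' q)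
  have hlq : ¬ q ∣ l := fun h' => hN (((Nat.prime_dvd_prime_iff_eq hq.out hl).mp h') ▸ dvd_mul_right q M)
  set r : LaurentSeries (Res A) := red2 A (iota2 M q hqM) F s with hrdef
  have hr' : r = (z' : LaurentSeries (Res A)) * (g : LaurentSeries (Res A)) ^ p := by
    have h1 := congrArg (fun u : KM A M => (u : LaurentSeries (Res A))) hr
    simpa [coe_redK] using h1
  have hg0 : (g : LaurentSeries (Res A)) ≠ 0 := fun h0 => hr0 (by
    rw [hr', h0, zero_pow (NeZero.ne p), mul_zero])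
  have hz0 : (z' : LaurentSeries (Res A)) ≠ 0 := left_ne_zero_of_mul (hr' ▸ hr0)
  -- the side of level `q M`
  obtain ⟨H, hH0, he⟩ := exists_heckeNorm_eq l hl fD (a : ℤ) (by rw [natCast_zsmul]; exact hT)
  rw [zpow_natCast, hfD] at he
  have hrF : IsRed A (iota2 M q hqM s (F : FB (q * M))) r := by
    have := IsRed.of_locS ((mem_loc2 _).mp F.2 s) (by rw [← red2_apply]; exact hr0)
    rwa [← red2_apply] at this
  obtain ⟨X, hX, hXim⟩ := exists_isRed_heckeImage hA hq.out hlq (iota2_fracS M q hqM s _)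
    (fun ζ hζ => qExpand_iota2_heckeNorm q M l hqM hl hN s hζ (F : FB (q * M))) hrF
  obtain ⟨w, hw⟩ := IsRed.exists_of_ne_zero hA hq.out (iota2_fracS M q hqM s H)
    ((map_ne_zero _).mpr hH0)
  have hwK : w ∈ KM A M := isRed_mem_KM q M hqM hA hM hw
  obtain ⟨u, hu, hXu⟩ := ((hrF.pow a).mul (hw.pow p)).unique (by
    rw [he, map_mul, map_pow, map_pow] at hX; exact hX)
  -- the side of level `M`
  obtain ⟨x₁, hx₁⟩ := red1_surjective M hM g.2
  have hx₁r : IsRed A ((x₁ : FB M) : LSer) (g : LaurentSeries (Res A)) := by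
    have h1 : redL A ⟨((x₁ : FB M) : LSer), (Semistable.mem_loc1 M).mp x₁.2⟩ = g := hx₁
    have h2 := IsRed.of_locS ((Semistable.mem_loc1 M).mp x₁.2) (by rw [h1]; exact hg0)
    rwa [h1] at h2
  obtain ⟨Y, hY, hYim⟩ := exists_isRed_heckeImage hA hq.out hlq (mem_fracS_of_mem _)
    (fun ζ hζ => qExpand_heckeNorm hl hlM hζ (x₁ : FB M)) hx₁r
  obtain ⟨Z, hZ, hZim⟩ := exists_isRed_heckeImage hA hq.out hlq (mem_fracS_of_mem _)
    (fun ζ hζ => qExpand_heckeNorm hl hlM hζ ((h : (FB M)ˣ) : FB M)) hh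
  obtain ⟨ζ, hζ⟩ := exists_primitive (N := M) hl hlM
  have hη := resRoot_primitive hA hq.out hlq hζ
  have hXZ : X = Z * Y ^ p := qExpand_injective l (by
    rw [hXim _ hη, map_mul, map_pow, hZim _ hη, hYim _ hη, ← map_pow, ← map_mul, ← hr'])
  have hY0 : Y ≠ 0 := hY.1
  -- the quotient
  obtain ⟨f', hf', hTh⟩ := exists_norm_divGrp l hl h
  have hq' : IsRed A (((f' * (h ^ a)⁻¹ : divGrp QBar (FB M) p) : (FB M)ˣ) : FB M).1
      (Z * ((z' : LaurentSeries (Res A)) ^ a)⁻¹) := by
    have e : (((f' * (h ^ a)⁻¹ : divGrp QBar (FB M) p) : (FB M)ˣ) : FB M).1 =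
        (heckeNorm M l ((h : (FB M)ˣ) : FB M) : LSer) *
          (((((h : (FB M)ˣ) : FB M)) : LSer) ^ a)⁻¹ := by
      push_cast
      rw [hf']
    rw [e]
    exact hZ.mul (hh.pow a).inv
  have hmem : (g : LaurentSeries (Res A)) ^ a * w * Y⁻¹ ∈ KM A M :=
    mul_mem (mul_mem (pow_mem g.2 a) hwK) (inv_mem (mem_KM_of_isRed hM hY))
  have hzero := hker (f' * (h ^ a)⁻¹) ⟨_, hmem⟩ u (by
    convert hq' using 1
    show algebraMap (Res A) (LaurentSeries (Res A)) u *
      ((g : LaurentSeries (Res A)) ^ a * w * Y⁻¹) ^ p = _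
    rw [hXZ, hr'] at hXu
    rw [mul_pow, mul_pow, inv_pow, ← mul_assoc, mul_inv_eq_iff_eq_mul₀ (pow_ne_zero p hY0),
      eq_comm, mul_right_comm, mul_inv_eq_iff_eq_mul₀ (pow_ne_zero a hz0), hXu]
    ring)
  rw [ofMul_mul, ofMul_inv, map_add, map_neg, add_neg_eq_zero] at hzero
  rw [hTh, hzero, nsmul_toTorsion]

end Fermat.Agent.RT.LowerQ

end
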