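import Fermat.Agent.RT.LowerQ.Mazur
import Fermat.Agent.RT.Lifting.Interface
import Fermat.Agent.RT.Assembly.Forms
import Fermat.Agent.RT.Frey.Inputs

/-!
# Lowering the level at an unramified prime: assembly

Mazur's principle removes the primes with nonscalar Frobenius or `≠ 1` modulo `p`, the patching
step the others; the consequence for the Frey curve is milestone statement 43.
-/

set_option autoImplicit false

noncomputable section

namespace Fermat.Agent.RT.LowerQ

open Fermat.Agent.RT.Assembly (freyAbar isCongruentLevel_of_modularRepOfLevel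
  modularRepOfLevel_of_congruent)

variable {p : ℕ} [Fact p.Prime]

/-- The patching step at the levels satisfying `good`. -/
def DropAt (W : WeierstrassCurve ℤ) (p : ℕ) [Fact p.Prime] (hΔ : W.Δ ≠ 0) (good : ℕ → Prop) :
    Prop :=
  ∀ (M q : ℕ), q.Prime → q ≠ p → q ∣ M → Squarefree M → good M →
    (EC.Rep.residualRep W p hΔ).IsUnramifiedAt q →
    (∀ v : ℕ, v.Prime → v ≠ p → v ∣ M → (EC.Rep.residualRep W p hΔ).IsUnramifiedAt v →
      IsScalarAt W p hΔ v) →
    W.IsResiduallyModularOfLevel p M → W.IsResiduallyModularOfLevel p (M / q)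

theorem modular_div_of_minimal (hstep : MazurStepProperty p) {W : WeierstrassCurve ℤ}
    (hΔ : W.Δ ≠ 0) (hW : W.IsSemistableModel) (hirr : W.ModRepIsIrreducible p) {good : ℕ → Prop}
    (hgood : ∀ M M' : ℕ, M' ∣ M → good M → good M') (hdrop : DropAt W p hΔ good) :
    ∀ M q : ℕ, q.Prime → q ≠ p → q ∣ M → Squarefree M → good M →
      (EC.Rep.residualRep W p hΔ).IsUnramifiedAt q →
      W.IsResiduallyModularOfLevel p M → W.IsResiduallyModularOfLevel p (M / q) := by
  intro M
  induction M using Nat.strong_induction_on with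
  | _ M ih =>
    intro q hq hqp hqM hsq hP hunr hmod
    by_cases hall : ∀ v : ℕ, v.Prime → v ≠ p → v ∣ M →
        (EC.Rep.residualRep W p hΔ).IsUnramifiedAt v → IsScalarAt W p hΔ v
    · exact hdrop M q hq hqp hqM hsq hP hunr hall hmod
    simp only [not_forall] at hall
    obtain ⟨v, hv, hvp, hvM, hvunr, hns⟩ := hall
    have hMv := hstep W hΔ hW hirr M v hv hvp hvM hsq hvunr hns hmod
    rcases eq_or_ne v q with rfl | hvq
    · exact hMv
    have hM0 : 0 < M := Nat.pos_of_ne_zero hsq.ne_zero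
    have hdvd : M / v ∣ M := Nat.div_dvd_of_dvd hvM
    have hqd : q ∣ M / v := by
      refine (Nat.Coprime.dvd_of_dvd_mul_left ((Nat.coprime_primes hq hv).mpr hvq.symm) ?_)
      rwa [Nat.mul_div_cancel' hvM]
    have h := ih (M / v) (Nat.div_lt_self hM0 hv.one_lt) q hq hqp hqd
      (hsq.squarefree_of_dvd hdvd) (hgood M _ hdvd hP) hunr hMv
    exact residuallyModular_of_dvd (Nat.div_dvd_div hqd hdvd)
      (hsq.squarefree_of_dvd (Nat.div_dvd_of_dvd hqM)) h

/-- **Lowering the level at an unramified prime of a semistable curve.** -/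
theorem lowerQInput (hstep : MazurStepProperty p) (hdrop : ScalarDropProperty p) :
    Lifting.LowerQInput p :=
  fun _ hΔ hW hirr M q hq hqp hqM hsq hP hunr hmod =>
    modular_div_of_minimal hstep hΔ hW hirr (good := fun M' => LevelAtP _ p M')
      (fun _ _ hd hP h => hP (h.trans hd))
      (fun M' q' h1 h2 h3 h4 h5 h6 h7 h8 => hdrop _ hΔ hW hirr M' q' h1 h2 h3 h4 h5 h6 h7 h8)
      M q hq hqp hqM hsq hP hunr hmod

/-- **Milestone statement 43 from the two steps and milestone statement 44.** -/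
theorem lowerOddInput (hdrop : ∀ (p : ℕ) [Fact p.Prime], 5 ≤ p → ∀ (W : WeierstrassCurve ℤ)
    (hΔ : W.Δ ≠ 0), W.IsSemistableModel → W.ModRepIsIrreducible p →
      DropAt W p hΔ fun M => ¬ p ∣ M)
    (h44 : Frey.LowerAtPInput) : Frey.LowerOddInput := by
  intro P N q hcond hq hq2 hqp hqN hirr hmod hunr
  haveI := Fact.mk P.pp
  obtain ⟨M, hMN, hpM, hM⟩ : ∃ M, M ∣ N ∧ ¬ P.p ∣ M ∧ P.ModularRepOfLevel M := by
    by_cases hpN : P.p ∣ N
    · exact h44 P hcond hpN hirr hmod
    · exact ⟨N, dvd_rfl, hpN, hmod⟩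
  by_cases hqM : q ∣ M
  swap
  · exact ⟨M, hMN, hqM, hM⟩
  have hsq : Squarefree M := hcond.squarefree.squarefree_of_dvd hMN
  haveI : NeZero M := ⟨hsq.ne_zero⟩
  set W := P.freyCurveInt
  have hΔ : W.Δ ≠ 0 := EC.Reduction.Frey.Δ_ne_zero P
  have hW : W.IsSemistableModel := fun r hr h => EC.Reduction.Frey.not_dvd_c₄ P hr
    (by_contra fun h' => EC.Reduction.Frey.not_dvd_Δ P hr h' h)
  have hirr' : W.ModRepIsIrreducible P.p := by
    rw [EC.Reduction.Frey.freyCurve_eq_map] at hirr
    exact hirr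
  have hp2 : P.p ≠ 2 := by have := P.hp5; omega
  have hres : W.IsResiduallyModularOfLevel P.p M :=
    isResiduallyModular_of_isCongruentLevel (k := ZMod P.p) hΔ
      (isCongruentLevel_of_modularRepOfLevel (P := P) (k := ZMod P.p)
        GaloisReps.nonempty_heckeGaloisModel (S := curveSet W P.p M) (fun ℓ hℓ h => by
          rcases h with rfl | h | h
          · exact self_mem_curveSet
          · exact dvd_mem_curveSet hΔ hℓ h
          · exact Finset.mem_insert_of_mem (Nat.mem_primeFactors.mpr ⟨hℓ,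
              dvd_mul_of_dvd_left (Int.natCast_dvd.mp h) _,
              mul_ne_zero (Int.natAbs_ne_zero.mpr hΔ) (NeZero.ne M)⟩)) hM)
  have hunr' : (EC.Rep.residualRep W P.p hΔ).IsUnramifiedAt q := by
    rw [FreyPackage.GaloisRepUnramifiedAt, EC.Reduction.Frey.freyCurve_eq_map] at hunr
    exact fun A hA σ hσ => LinearMap.ext fun x => hunr A hA σ hσ x
  have hlow := modular_div_of_minimal
    (mazurStepProperty hp2 fun h => absurd h (by have := P.hp5; omega)) hΔ hW hirr'
    (good := fun M => ¬ P.p ∣ M) (fun _ _ hd h h' => h (h'.trans hd))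
    (hdrop P.p P.hp5 W hΔ hW hirr') M q hq hqp hqM hsq hpM hunr' hres
  haveI : NeZero (M / q) := ⟨(Nat.div_pos (Nat.le_of_dvd (Nat.pos_of_ne_zero hsq.ne_zero) hqM)
    hq.pos).ne'⟩
  obtain ⟨g, hg⟩ := isCongruentLevel_of_isResiduallyModular (k := ZMod P.p) hΔ hlow
  refine ⟨M / q, (Nat.div_dvd_of_dvd hqM).trans hMN, fun h => hq.not_isUnit (hsq q ?_),
    modularRepOfLevel_of_congruent (P := P) (k := ZMod P.p) GaloisReps.nonempty_heckeGaloisModel hg⟩
  exact Nat.mul_dvd_of_dvd_div hqM h

end Fermat.Agent.RT.LowerQ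

end
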