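import Fermat.Agent.RT.LowerQ.Toric
import Fermat.Agent.RT.LowerQ.EigenTorsion
import Fermat.Agent.RT.LowerQ.Curve
import Fermat.Agent.RT.LowerQ.AuxPrime
import Fermat.Agent.Deform.Burnside
import Fermat.Agent.Arith.RootsOfUnity

/-!
# Mazur's principle for semistable curves

An unramified prime `q ≠ p` of the level is removed unless `q = 1` and Frobenius is scalar modulo
`p`. The auxiliary level is `4 M` or `9 M` for `p ≥ 5`; for `p = 3` the level is first multiplied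
by a prime `ℓ = 11` modulo `12` at which the system cannot become new.
-/

set_option autoImplicit false
set_option synthInstance.maxHeartbeats 400000

noncomputable section

namespace Fermat.Agent.RT.LowerQ

open Fermat.Agent.RT.Mazur (EllFree ellFree_of_four_dvd ellFree_of_nine_dvd)
open ModularCurve
open Arith (QBar GQ)

/-! ### Levels -/

theorem ellFree_of_prime_dvd {ℓ N : ℕ} (hℓ : ℓ.Prime) (h11 : ℓ % 12 = 11) (hN : ℓ ∣ N) :
    EllFree N := by
  haveI := Fact.mk hℓ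
  refine Mazur.EllFree.of_dvd (M := ℓ) ⟨?_, ?_⟩ hN
  · refine Nat.card_eq_zero.mpr (Or.inl ⟨fun x => ?_⟩)
    have h : IsSquare (-1 : ZMod ℓ) := ⟨x.1, by linear_combination (-1 : ZMod ℓ) * x.2⟩
    exact ZMod.exists_sq_eq_neg_one_iff.mp h (by omega)
  · refine Nat.card_eq_zero.mpr (Or.inl ⟨fun x => ?_⟩)
    obtain ⟨y, hy⟩ := x
    have hy0 : y ≠ 0 := fun h => by simp [h] at hy
    have h3 : y ^ 3 = 1 := by linear_combination (y - 1) * hy
    have h1 : y ^ (ℓ - 1) = 1 := ZMod.pow_card_sub_one_eq_one hy0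
    have hy1 : y = 1 := by
      have hg := pow_gcd_eq_one.mpr ⟨h1, h3⟩
      have : Nat.gcd (ℓ - 1) 3 = 1 := Nat.Coprime.symm
        ((Nat.Prime.coprime_iff_not_dvd Nat.prime_three).mpr (by omega))
      rwa [this, pow_one] at hg
    rw [hy1] at hy
    have h3' : ((3 : ℕ) : ZMod ℓ) = 0 := by push_cast; linear_combination hy
    rw [ZMod.natCast_eq_zero_iff] at h3'
    have := Nat.le_of_dvd (by norm_num) h3'
    omega

theorem coprime_small {p d : ℕ} (hp : p.Prime) (hp5 : 5 ≤ p)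
    (hd : d = 4 ∨ d = 6 ∨ d = 9 ∨ d = 12) : p.Coprime d := by
  refine (Nat.Prime.coprime_iff_not_dvd hp).mpr fun h => ?_
  rcases hd with rfl | rfl | rfl | rfl
  all_goals
    have hle := Nat.le_of_dvd (by norm_num) h
    interval_cases p
  all_goals first | omega | norm_num at hp

theorem auxLevel_four {p M : ℕ} (hp : p.Prime) (hp5 : 5 ≤ p) : AuxLevel p M (4 * M) := by
  refine ⟨dvd_mul_left M 4, ellFree_of_four_dvd (dvd_mul_right 4 M), ?_⟩
  rcases dedekindPsi_four_mul (M := M) with e | e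
  · exact ⟨4, coprime_small hp hp5 (Or.inl rfl), e⟩
  · exact ⟨6, coprime_small hp hp5 (Or.inr (Or.inl rfl)), e⟩

theorem auxLevel_nine {p M : ℕ} (hp : p.Prime) (hp5 : 5 ≤ p) : AuxLevel p M (9 * M) := by
  refine ⟨dvd_mul_left M 9, ellFree_of_nine_dvd (dvd_mul_right 9 M), ?_⟩
  have h3 := Nat.prime_three
  have h : dedekindPsi (9 * M) = 3 * dedekindPsi (3 * M) := by
    rw [show 9 * M = 3 * (3 * M) by ring,
      Gamma0.dedekindPsi_mul_of_dvd h3 (dvd_mul_right 3 M)]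
  by_cases hM : 3 ∣ M
  · exact ⟨9, coprime_small hp hp5 (Or.inr (Or.inr (Or.inl rfl))), by
      rw [h, Gamma0.dedekindPsi_mul_of_dvd h3 hM]; ring⟩
  · exact ⟨12, coprime_small hp hp5 (Or.inr (Or.inr (Or.inr rfl))), by
      rw [h, Gamma0.dedekindPsi_mul_of_not_dvd h3 hM]; ring⟩

/-! ### The dichotomy -/

variable {W : WeierstrassCurve ℤ} {p : ℕ} [hp : Fact p.Prime]

theorem det_residualRep_frobenius (hΔ : W.Δ ≠ 0) {q : ℕ} (hq : q.Prime) (hqp : q ≠ p)
    {A : ValuationSubring QBar} (hA : A.LiesOverPrime q) {σ : GQ} (hσ : A.IsFrobeniusAt σ q) :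
    LinearMap.det ((EC.Rep.residualRep W p hΔ).ρ σ) = (q : ZMod p) :=
  (EC.Rep.det_residualRep hΔ (EC.FrobTrace.card_rootsOfUnity_Qbar p) σ).trans
    (Arith.modularCyclotomicCharacter_frobenius hA hq hσ _ fun h =>
      hqp ((Nat.prime_dvd_prime_iff_eq hq hp.out).mp h))

/-- **The dichotomy of Mazur's principle.** -/
theorem congruent_or_scalar (hΔ : W.Δ ≠ 0) (hp2 : p ≠ 2) (hirr : W.ModRepIsIrreducible p)
    {q M₁ M' : ℕ} [Fact q.Prime] [NeZero M₁] [NeZero M'] (hqp : q ≠ p) (hqM : ¬ q ∣ M₁)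
    (hqM' : ¬ q ∣ M') (haux : AuxLevel p M₁ M')
    (hunr : (EC.Rep.residualRep W p hΔ).IsUnramifiedAt q) {S : Finset ℕ}
    (hS : ∀ ℓ : ℕ, ℓ.Prime → ℓ ∣ q * M₁ * p → ℓ ∈ S)
    (hgood : ∀ ℓ : ℕ, ℓ.Prime → ℓ ∉ S → W.IsGoodPrimeFor ℓ)
    (h : IsCongruentLevel S (curveAbar W (ZMod p)) (q * M₁)) :
    IsCongruentLevel S (curveAbar W (ZMod p)) M₁ ∨ IsScalarAt W p hΔ q := by
  classical
  by_cases hdown : EigTors M₁ p S (curveAbar W (ZMod p)) = ⊥
  swap
  · exact Or.inl (isCongruentLevel_of_eigTors_ne_bot hdown)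
  right
  set ρ := EC.Rep.residualRep W p hΔ
  let b := Module.finBasisOfFinrankEq (ZMod p) ρ.V ρ.finrank_eq
  let r : GQ →* Matrix (Fin 2) (Fin 2) (ZMod p) :=
    (LinearMap.toMatrixAlgEquiv b).toMonoidHom.comp ρ.ρ
  have hr1 : ∀ σ, ρ.ρ σ = 1 → r σ = 1 := fun σ h => by
    show LinearMap.toMatrixAlgEquiv b _ = 1
    rw [h, map_one]
  obtain ⟨L, hL, hLker⟩ := ρ.factorsThroughFiniteLevel
  obtain ⟨ℓ, hℓ, hℓS, -, -, hℓa⟩ := EC.Rep.exists_apOfModel_ne hp2 hirr hΔ S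
  have main : ∀ A : ValuationSubring QBar, A.LiesOverPrime q → ∀ σ : GQ, A.IsFrobeniusAt σ q →
      (q : ZMod p) = 1 ∧ ∃ c : ZMod p, ρ.ρ σ = c • 1 := by
    intro A hA σ hσ
    have hfrob : ∀ ℓ : ℕ, ℓ.Prime → ℓ ∉ S → ∀ B : ValuationSubring QBar, B.LiesOverPrime ℓ →
        ∀ τ : GQ, B.IsFrobeniusAt τ ℓ →
          (r τ).trace = curveAbar W (ZMod p) ℓ ∧ (r τ).det = (ℓ : ZMod p) := by
      intro ℓ hℓ hℓS B hB τ hτ
      have hne : ℓ ≠ p := fun e => hℓS (hS ℓ hℓ (by rw [e]; exact dvd_mul_left p _))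
      exact ⟨(LinearMap.trace_eq_matrix_trace (ZMod p) b (ρ.ρ τ)).symm.trans
        (EC.FrobTrace.galoisTrace_frobenius W hℓ (hgood ℓ hℓ hℓS) hne hB hτ),
        (LinearMap.det_toMatrix b (ρ.ρ τ)).trans
          (det_residualRep_frobenius hΔ hℓ hne hB hτ)⟩
    have hdet : (r σ).det = (q : ZMod p) := (LinearMap.det_toMatrix b (ρ.ρ σ)).trans
      (det_residualRep_frobenius hΔ (Fact.out : q.Prime) hqp hA hσ)
    obtain ⟨h1, c, hc⟩ := scalar_of_toric hqM hp2 hqp (GaloisReps.congruenceProperty (q * M₁) p)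
      (toricProperty hqp hqM hqM' haux) hS ⟨ℓ, hℓ, hℓS, by rw [add_comm]; exact hℓa⟩
      (eigTors_ne_bot_of_isCongruentLevel h) hdown r
      ⟨L, hL, fun σ hσ => hr1 σ (hLker σ hσ)⟩
      (Deform.span_matrix_eq_top ρ (EC.Rep.isAbsolutelyIrreducible_residualRep hΔ hp2 hirr) b)
      hfrob hA (fun τ hτ => hr1 τ (hunr A hA τ hτ)) hσ hdet
    refine ⟨h1, c, (LinearMap.toMatrixAlgEquiv b).injective ?_⟩
    rw [map_smul, map_one]
    exact hc
  obtain ⟨A, hA⟩ := Arith.exists_liesOverPrime (Fact.out : q.Prime)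
  obtain ⟨σ, hσ⟩ := Arith.exists_isFrobeniusAt hA (Fact.out : q.Prime)
  exact ⟨(main A hA σ hσ).1, fun A hA σ hσ => (main A hA σ hσ).2⟩

/-! ### The step -/

/-- The Steinberg input at the primes exactly dividing the level, for some models. -/
def SpecialInput (p : ℕ) [Fact p.Prime] : Prop :=
  ∃ D : ∀ (M : ℕ) [NeZero M], GaloisReps.HeckeGaloisModel M p,
    ∀ (M : ℕ) [NeZero M] (v : ℕ), v.Prime → v ≠ p → v ∣ M → ¬ v ^ 2 ∣ M →
      NewformLocal.UnipotentAt (D M) v ∧ NewformLocal.ToricSquareAt (D M) v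

/-- **Mazur's principle for a semistable curve.** -/
theorem mazurStepProperty (hp2 : p ≠ 2) (hspec : p = 3 → SpecialInput p) :
    MazurStepProperty p := by
  intro W hΔ hW hirr M q hq hqp hqM hsq hunr hns hmod
  haveI := Fact.mk hq
  obtain ⟨M₀, rfl⟩ := hqM
  rw [Nat.mul_div_cancel_left _ hq.pos]
  have hqM₀ : ¬ q ∣ M₀ := fun h => hq.not_isUnit (hsq q (mul_dvd_mul_left q h))
  haveI : NeZero M₀ := ⟨fun h => hqM₀ (h ▸ dvd_zero q)⟩
  have h0 : IsCongruentLevel (curveSet W p (q * M₀)) (curveAbar W (ZMod p)) (q * M₀) :=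
    isCongruentLevel_of_isResiduallyModular hΔ hmod
  have hS0 : ∀ ℓ : ℕ, ℓ.Prime → ℓ ∣ q * M₀ * p → ℓ ∈ curveSet W p (q * M₀) := fun ℓ hℓ h => by
    rcases hℓ.dvd_mul.mp h with h | h
    · exact dvd_mem_curveSet hΔ hℓ h
    · rw [(Nat.prime_dvd_prime_iff_eq hℓ hp.out).mp h]; exact self_mem_curveSet
  have hgood0 : ∀ ℓ : ℕ, ℓ.Prime → ℓ ∉ curveSet W p (q * M₀) → W.IsGoodPrimeFor ℓ :=
    fun ℓ hℓ h => isGoodPrimeFor_of_not_mem_curveSet hΔ hℓ h
  by_cases hp5 : 5 ≤ p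
  · -- an auxiliary level of degree prime to `p`
    obtain ⟨M', hM'0, hqM', haux⟩ : ∃ M', M' ≠ 0 ∧ ¬ q ∣ M' ∧ AuxLevel p M₀ M' := by
      by_cases hq2 : q = 2
      · subst hq2
        exact ⟨9 * M₀, mul_ne_zero (by norm_num) (NeZero.ne M₀), fun h => by
          rcases hq.dvd_mul.mp h with h | h
          · norm_num at h
          · exact hqM₀ h, auxLevel_nine hp.out hp5⟩
      · refine ⟨4 * M₀, mul_ne_zero (by norm_num) (NeZero.ne M₀), fun h => ?_,
          auxLevel_four hp.out hp5⟩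
        rcases hq.dvd_mul.mp h with h | h
        · exact hq2 ((Nat.prime_dvd_prime_iff_eq hq Nat.prime_two).mp
            (hq.dvd_of_dvd_pow (show q ∣ 2 ^ 2 from h)))
        · exact hqM₀ h
    haveI : NeZero M' := ⟨hM'0⟩
    exact (congruent_or_scalar hΔ hp2 hirr hqp hqM₀ hqM' haux hunr hS0 hgood0 h0).elim
      (isResiduallyModular_of_isCongruentLevel hΔ) fun h => absurd h hns
  · -- `p = 3`: an auxiliary prime
    obtain rfl : p = 3 := by
      have h2 := hp.out.two_le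
      interval_cases p <;> first | rfl | omega | exact absurd hp.out (by norm_num)
    obtain ⟨D, hD⟩ := hspec rfl
    obtain ⟨ℓ, hℓ, hℓS, -, h11, ha⟩ :=
      auxPrimeProperty W hΔ hW hirr (curveSet W 3 (q * M₀))
    haveI : NeZero ℓ := ⟨hℓ.ne_zero⟩
    have hℓq : ¬ q ∣ ℓ := fun h => hℓS (((Nat.prime_dvd_prime_iff_eq hq hℓ).mp h) ▸
      dvd_mem_curveSet hΔ hq (dvd_mul_right q M₀))
    have hqℓ : ¬ q ∣ ℓ * M₀ := fun h => (hq.dvd_mul.mp h).elim hℓq hqM₀
    have hℓM₀ : ¬ ℓ ∣ M₀ := fun h => hℓS (dvd_mem_curveSet hΔ hℓ (dvd_mul_of_dvd_right h q))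
    set S := insert ℓ (curveSet W 3 (q * M₀))
    have hS : ∀ r : ℕ, r.Prime → r ∣ q * (ℓ * M₀) * 3 → r ∈ S := fun r hr h => by
      rw [show q * (ℓ * M₀) * 3 = ℓ * (q * M₀ * 3) by ring] at h
      rcases hr.dvd_mul.mp h with h | h
      · rw [(Nat.prime_dvd_prime_iff_eq hr hℓ).mp h]; exact Finset.mem_insert_self _ _
      · exact Finset.mem_insert_of_mem (hS0 r hr h)
    have h1 : IsCongruentLevel S (curveAbar W (ZMod 3)) (q * (ℓ * M₀)) := by
      obtain ⟨g, hg, φ, hφ⟩ := h0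
      exact isCongruentLevel_raise (M₂ := q * M₀)
        ⟨g, hg, φ, fun r hr hrS => hφ r hr fun h => hrS (Finset.mem_insert_of_mem h)⟩
        ⟨ℓ, by ring⟩ fun r hr h => hS r hr (dvd_mul_of_dvd_left h 3)
    rcases congruent_or_scalar hΔ hp2 hirr hqp hqℓ hqℓ
      ⟨dvd_rfl, ellFree_of_prime_dvd hℓ h11 (dvd_mul_right ℓ M₀), 1, Nat.coprime_one_right 3,
        (one_mul _).symm⟩ hunr hS
      (fun r hr h => hgood0 r hr fun h' => h (Finset.mem_insert_of_mem h')) h1 with h | h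
    swap
    · exact absurd h hns
    have hN : Squarefree (ℓ * M₀) := (Nat.squarefree_mul
      ((Nat.Prime.coprime_iff_not_dvd hℓ).mpr hℓM₀)).mpr
      ⟨hℓ.squarefree, hsq.squarefree_of_dvd (dvd_mul_left M₀ q)⟩
    refine residuallyModular_of_dvd dvd_rfl (hsq.squarefree_of_dvd (dvd_mul_left M₀ q)) ?_
    refine isResiduallyModular_drop hΔ D hD (Q := {ℓ}) hN (fun r hr h => ?_) (fun r hr => ?_)
      (fun r hr A hA σ hσ => ?_) (?_ : IsCongruentLevel _ (curveAbar W (ZMod 3)) (ℓ * M₀))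
    · exact (hr.dvd_mul.mp h).elim
        (fun h => Or.inr (Finset.mem_singleton.mpr ((Nat.prime_dvd_prime_iff_eq hr hℓ).mp h)))
        Or.inl
    · rw [Finset.mem_singleton.mp hr]
      exact fun h => hℓS (Finset.insert_subset_insert _
        (Nat.primeFactors_mono (mul_dvd_mul_left _ (dvd_mul_left M₀ q))
          (mul_ne_zero (Int.natAbs_ne_zero.mpr hΔ) (NeZero.ne (q * M₀)))) h)
    · obtain rfl := Finset.mem_singleton.mp hr
      have hgood := hgood0 r hℓ hℓS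
      have hr3 : r ≠ 3 := fun e => hℓS (e ▸ self_mem_curveSet)
      have ht := charpoly_curveRho_frobenius (k := ZMod 3) hΔ hℓ hgood hr3 hA hσ
      rw [EC.FrobTrace.charpoly_of_finrank_eq_two (curveRho W 3 (ZMod 3) hΔ).finrank_eq] at ht
      have h1 := congrArg (fun f => Polynomial.coeff f 1) ht
      simp [curveAbar] at h1
      rw [h1]
      have h3 : ((r : ZMod 3) + 1) = 0 := by
        rw [← Nat.cast_one, ← Nat.cast_add, ZMod.natCast_eq_zero_iff]
        omega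
      rw [h3, zero_pow two_ne_zero]
      exact pow_ne_zero 2 fun h => ha ((ZMod.intCast_zmod_eq_zero_iff_dvd _ 3).mp h)
    · obtain ⟨g, hg, φ, hφ⟩ := isCongruentLevel_of_isResiduallyModular (k := ZMod 3) hΔ
        (isResiduallyModular_of_isCongruentLevel (p := 3) hΔ h)
      refine ⟨g, hg, φ, fun r hr hrT a' ha' => hφ r hr (fun hrS => hrT ?_) a' ha'⟩
      rcases Finset.mem_insert.mp hrS with rfl | h'
      · exact Finset.mem_union_left _ self_mem_curveSet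
      · obtain ⟨-, hdvd, -⟩ := Nat.mem_primeFactors.mp h'
        rw [mul_left_comm] at hdvd
        rcases hr.dvd_mul.mp hdvd with h'' | h''
        · exact Finset.mem_union_right _
            (Finset.mem_singleton.mpr ((Nat.prime_dvd_prime_iff_eq hr hℓ).mp h''))
        · exact Finset.mem_union_left _ (Finset.mem_insert_of_mem (Nat.mem_primeFactors.mpr
            ⟨hr, h'', mul_ne_zero (Int.natAbs_ne_zero.mpr hΔ) (NeZero.ne M₀)⟩))

end Fermat.Agent.RT.LowerQ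

end
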