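import Fermat.Agent.RT.Assembly.Selmer
import Fermat.Agent.RT.Lifting.SelmerCount
import Fermat.Agent.CFT.Tangent.LocalBounds

/-!
# The Selmer input of the patching argument with primes of scalar Frobenius
-/

set_option autoImplicit false
set_option linter.style.haveILetI false

noncomputable section

namespace Fermat.Agent.RT.LowerQ

open Module Fermat.Agent.Deform Fermat.Agent.CFT.Tangent Fermat.Agent.Arith

/-- The bound at Taylor–Wiles primes in terms of the local excesses. -/
def SelmerBoundProperty (p : ℕ) [Fact p.Prime] (k : Type) [Field k] [Finite k] [CharP k p] :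
    Prop :=
  ∀ (r : Gal →* M2 k), p ≠ 2 → CFT.TWPrimes.TWHyp r → GaloisFactorsThroughFiniteLevel r →
    (∀ (σ : Gal) (n : ℕ), (∀ μ : QBar, μ ^ p = 1 → σ μ = μ ^ n) → (r σ).det = (n : k)) →
    ∀ (B : Finset ℕ), (∀ v ∈ B, v.Prime) → p ∈ B →
      (∀ l : ℕ, l.Prime → l ∉ B → ∀ A : ValuationSubring QBar, A.LiesOverPrime l →
        ∀ τ ∈ A.inertiaSubgroupIn ℚ, r τ = 1) →
    ∃ m : ℕ, ∀ (n : ℕ) (S : Finset ℕ), ∃ qv : Fin m → ℕ, Function.Injective qv ∧
      (∀ i, (qv i).Prime ∧ qv i ∉ S ∧ qv i ∉ B ∧ qv i ≠ p ∧ p ^ (n + 1) ∣ qv i - 1) ∧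
      (∀ i, ∀ P : ValuationSubring QBar, P.LiesOverPrime (qv i) → ∀ φ : Gal,
        P.IsFrobeniusAt φ (qv i) → (r φ).trace ^ 2 ≠ 4) ∧
      ∀ Z : Submodule k (Gal → M2 k), Module.Finite k Z →
        (∀ b ∈ Z, IsAdCocycle r b ∧ IsFiniteLevel b ∧ (∀ σ, (b σ).trace = 0) ∧
          ∀ l : ℕ, l.Prime → l ∉ B → (∀ i, qv i ≠ l) → ∀ A : ValuationSubring QBar,
            A.LiesOverPrime l → ∀ τ ∈ A.inertiaSubgroupIn ℚ, b τ = 0) →
        (∀ b ∈ Z, ∀ X, b = cobdLin r X → b = 0) →
        ∀ δ : ℕ → ℤ, (∀ (v : ℕ) [Fact v.Prime], v ∈ B → (finrank k Z : ℤ) ≤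
          finrank k (Z ⊓ cobdOn r ((padicPlace v).decompositionSubgroup ℚ) :
              Submodule k (Gal → M2 k)) +
            finrank k (fixedOn r ((padicPlace v).decompositionSubgroup ℚ)) + δ v) →
        (finrank k Z : ℤ) ≤ m + ∑ v ∈ B, δ v - 1

variable {k : Type} [Field k] {r : Gal →* M2 k}

/-- With trivial inertia and scalar Frobenius every decomposition element acts by a scalar. -/
theorem exists_scalar_decomposition {v : ℕ} [Fact v.Prime]
    (hr : GaloisFactorsThroughFiniteLevel r)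
    (hin : ∀ τ ∈ (padicPlace v).inertiaSubgroupIn ℚ, r τ = 1)
    (hfr : ∀ σ, (padicPlace v).IsFrobeniusAt σ v → ∃ e : k, r σ = e • 1) {σ : Gal}
    (hσ : σ ∈ (padicPlace v).decompositionSubgroup ℚ) : ∃ e : k, r σ = e • 1 := by
  obtain ⟨F, hF⟩ := exists_isFrobeniusAt (CFT.Local.padicPlace_liesOverPrime v) (Fact.out : v.Prime)
  obtain ⟨L, hLf, hLn, hL⟩ := exists_common_level hr (⊥ : Submodule k (Gal → M2 k))
    (fun b hb => by
      obtain ⟨L, hL, hL'⟩ := hr
      rw [(Submodule.mem_bot k).mp hb]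
      exact ⟨L, hL, fun _ _ => rfl⟩)
  obtain ⟨i, τ, hτ, he⟩ := exists_frobenius_mul_inertia L hF hσ
  obtain ⟨e, hFe⟩ := hfr F hF
  refine ⟨e ^ i, ?_⟩
  rw [map_eq_of_agree (fun τ h => (hL τ h).1) he, map_mul, hin τ hτ, mul_one, map_pow, hFe,
    smul_pow, one_pow]

/-- Where the decomposition group acts by scalars, every trace zero matrix is fixed. -/
theorem three_le_finrank_fixedOn {D : Subgroup Gal}
    (hD : ∀ σ ∈ D, ∃ e : k, r σ = e • 1) : 3 ≤ finrank k (fixedOn r D) := by
  have hle : LinearMap.ker (Matrix.traceLinearMap (Fin 2) k k) ≤ fixedOn r D := by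
    intro X hX
    refine ⟨LinearMap.mem_ker.mp hX, fun s hs => ?_⟩
    obtain ⟨e, he⟩ := hD s hs
    calc r s * X * r s⁻¹ = X * r s * r s⁻¹ := by
          rw [he, smul_mul_assoc, one_mul, mul_smul_comm, mul_one]
      _ = X := by rw [mul_assoc, ← map_mul, mul_inv_cancel, map_one, mul_one]
  refine le_trans ?_ (Submodule.finrank_mono hle)
  have h := (Matrix.traceLinearMap (Fin 2) k k).finrank_range_add_finrank_ker
  have h1 := Submodule.finrank_le (LinearMap.range (Matrix.traceLinearMap (Fin 2) k k))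
  rw [Module.finrank_matrix, Fintype.card_fin, Module.finrank_self, mul_one] at h
  rw [Module.finrank_self] at h1
  have h3 : 3 ≤ Module.finrank k (LinearMap.ker (Matrix.traceLinearMap (Fin 2) k k)) := by omega
  exact le_of_le_of_eq h3 rfl

variable {O : Type} [CommRing O] [IsDomain O] [IsDiscreteValuationRing O]
  [IsAdicComplete (IsLocalRing.maximalIdeal O) O] [Finite (IsLocalRing.ResidueField O)]
  {p : ℕ} [Fact p.Prime] [CharP (IsLocalRing.ResidueField O) p]

omit [IsAdicComplete (IsLocalRing.maximalIdeal O) O] in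
open scoped Classical in
/-- The input of the patching argument from the bound and a local bound at `p`. -/
theorem twSelmerInput_scalar (hbound : SelmerBoundProperty p (IsLocalRing.ResidueField O))
    (hp2 : p ≠ 2) (C : Assembly.CondAt O) (r : Gal →* M2 (IsLocalRing.ResidueField O))
    (hr : CFT.TWPrimes.TWHyp r) (hrfin : GaloisFactorsThroughFiniteLevel r)
    (hcyc : ∀ (σ : Gal) (n : ℕ), (∀ μ : QBar, μ ^ p = 1 → σ μ = μ ^ n) →
      (r σ).det = (n : IsLocalRing.ResidueField O))
    {T U V S : Finset ℕ} (hT : ∀ q ∈ T, q.Prime)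
    (hVT : V ⊆ T) (hVp : p ∉ V) (hU : ∀ q ∈ T, q ≠ p → q ∉ V → q ∈ U)
    (hrT : ∀ ℓ : ℕ, ℓ.Prime → ℓ ≠ p → ℓ ∉ T → ∀ A : ValuationSubring QBar, A.LiesOverPrime ℓ →
      ∀ τ ∈ A.inertiaSubgroupIn ℚ, r τ = 1)
    (hram : ∀ q ∈ T, q ≠ p → q ∉ V → ∀ A : ValuationSubring QBar, A.LiesOverPrime q →
      (∀ τ ∈ A.inertiaSubgroupIn ℚ, (r τ).trace = 2 ∧ (r τ).det = 1) ∧
        ∃ τ ∈ A.inertiaSubgroupIn ℚ, r τ ≠ 1)
    (hVin : ∀ v ∈ V, ∀ A : ValuationSubring QBar, A.LiesOverPrime v →
      ∀ τ ∈ A.inertiaSubgroupIn ℚ, r τ = 1)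
    (hVfr : ∀ v ∈ V, ∀ A : ValuationSubring QBar, A.LiesOverPrime v → ∀ σ,
      A.IsFrobeniusAt σ v → ∃ e : IsLocalRing.ResidueField O, r σ = e • 1)
    (hC : Lifting.LocalPBound p
      (IsTangentClass (fun _A _ _ _ ρ => C ρ ∧ ρ.DetIsCyclotomic p) r) r) :
    Assembly.TWSelmerInput p C r T U V S := by
  have hpp : p.Prime := Fact.out
  have hB : ∀ v ∈ insert p T, v.Prime := fun v hv =>
    (Finset.mem_insert.mp hv).elim (fun e => e ▸ hpp) (hT v)
  obtain ⟨m, hm⟩ := hbound r hp2 hr hrfin hcyc (insert p T) hB (Finset.mem_insert_self p T)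
    fun l hl hlB => hrT l hl (fun e => hlB (e ▸ Finset.mem_insert_self p T))
      (fun h => hlB (Finset.mem_insert_of_mem h))
  let δ : ℕ → ℤ := fun v => (if v = p then 1 else 0) + (if v ∈ V then -3 else 0)
  have hδ : ∑ v ∈ insert p T, δ v = 1 - 3 * V.card := by
    rw [Finset.sum_add_distrib, Finset.sum_ite_eq' (insert p T) p (fun _ => (1 : ℤ)),
      if_pos (Finset.mem_insert_self p T), Finset.sum_ite_mem,
      Finset.inter_eq_right.mpr (hVT.trans (Finset.subset_insert p T)), Finset.sum_const,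
      nsmul_eq_mul]
    ring
  have hfix : ∀ (v : ℕ) [Fact v.Prime], v ∈ V →
      3 ≤ finrank _ (fixedOn r ((padicPlace v).decompositionSubgroup ℚ)) := fun v _ hv =>
    three_le_finrank_fixedOn fun σ hσ => exists_scalar_decomposition hrfin
      (hVin v hv _ (CFT.Local.padicPlace_liesOverPrime v))
      (hVfr v hv _ (CFT.Local.padicPlace_liesOverPrime v)) hσ
  -- the count for the classes at a depth
  have key : ∀ n, ∃ qv : Fin m → ℕ, Assembly.IsTWSet p r S n qv ∧
      ∀ Z : Submodule (IsLocalRing.ResidueField O) (Gal → M2 (IsLocalRing.ResidueField O)),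
        Module.Finite (IsLocalRing.ResidueField O) Z →
        (∀ b ∈ Z, Assembly.IsSelmerClass p C r (T ∪ Finset.univ.image qv) U V b) →
        (∀ b ∈ Z, ∀ X, b = cobdLin r X → b = 0) →
        (finrank (IsLocalRing.ResidueField O) Z : ℤ) ≤ m - 3 * V.card := by
    intro n
    obtain ⟨qv, hinj, hq, hreg, hZ⟩ := hm n S
    refine ⟨qv, ⟨hinj, fun i => (hq i).1, fun i => (hq i).2.1, fun i => (hq i).2.2.2.1,
      fun i => (hq i).2.2.2.2, fun i A hA φ hφ => ?_⟩, fun Z hfin hcls hcob => ?_⟩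
    · have h1 : ((qv i - 1 : ℕ) : IsLocalRing.ResidueField O) = 0 :=
        (CharP.cast_eq_zero_iff _ p _).mpr ((dvd_pow_self p n.succ_ne_zero).trans (hq i).2.2.2.2)
      rw [Nat.cast_sub (hq i).1.one_le, Nat.cast_one, sub_eq_zero] at h1
      rw [h1]
      norm_num
      exact hreg i A hA φ hφ
    · haveI := hfin
      have h := hZ Z hfin (fun b hb => by
        have h := hcls b hb
        refine ⟨h.cocycle, h.level, h.trace, fun l hl hlB hlq => h.unramified l hl
          (fun e => hlB (e ▸ Finset.mem_insert_self p T)) fun hmem => ?_⟩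
        rcases Finset.mem_union.mp hmem with h' | h'
        · exact hlB (Finset.mem_insert_of_mem h')
        · obtain ⟨i, -, hi⟩ := Finset.mem_image.mp h'
          exact hlq i hi) hcob δ fun v _ hv => ?_
      · rw [hδ] at h
        linarith
      · by_cases hvp : v = p
        · subst hvp
          simp only [δ, if_neg hVp, add_zero]
          exact_mod_cast hC Z (fun b hb => (hcls b hb).cocycle) (fun b hb => (hcls b hb).level)
            fun b hb => (hcls b hb).atP
        · have hvT : v ∈ T := (Finset.mem_insert.mp hv).resolve_left hvp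
          by_cases hvV : v ∈ V
          · simp only [δ, if_neg hvp, if_pos hvV, zero_add]
            have hinf : Z ⊓ cobdOn r ((padicPlace v).decompositionSubgroup ℚ) = Z :=
              inf_eq_left.mpr fun b hb => ⟨0, by simp, fun s hs => by
                rw [(hcls b hb).decomposition v hvV s hs]; simp⟩
            rw [hinf]
            have := hfix v hvV
            omega
          · obtain ⟨h1, h2⟩ := hram v hvT hvp hvV _ (CFT.Local.padicPlace_liesOverPrime v)
            simp only [δ, if_neg hvp, if_neg hvV, add_zero]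
            exact_mod_cast finrank_le_unipotent p hr.two hvp hrfin Z
              (fun b hb => (hcls b hb).cocycle) (fun b hb => (hcls b hb).level)
              (fun b hb => (hcls b hb).trace) h1 h2
              fun b hb => (hcls b hb).unipotent v (hU v hvT hvp hvV) _
                (CFT.Local.padicPlace_liesOverPrime v)
  have hle : 3 * V.card ≤ m := by
    obtain ⟨qv, -, hZ⟩ := key 0
    have h0 : ∀ b ∈ (⊥ : Submodule (IsLocalRing.ResidueField O)
        (Gal → M2 (IsLocalRing.ResidueField O))), b = 0 := fun b hb => (Submodule.mem_bot _).mp hb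
    have h := hZ ⊥ inferInstance (fun b hb => by
      rw [h0 b hb]
      exact ⟨fun _ _ => by simp, ⟨⊥, inferInstance, fun _ _ => rfl⟩, fun _ => by simp,
        fun _ _ _ _ _ _ _ _ => rfl, fun _ _ _ _ _ _ => by simp, fun _ _ _ _ _ => rfl,
        fun h => absurd rfl h⟩) fun b hb _ _ => h0 b hb
    rw [finrank_bot] at h
    omega
  refine ⟨m, m - 3 * V.card, (Nat.add_sub_cancel' hle).symm, fun n => ?_⟩
  obtain ⟨qv, hqv, hZ⟩ := key n
  refine ⟨qv, hqv, fun Z hfin hcls hcob => ?_⟩
  have := hZ Z hfin hcls hcob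
  omega

end Fermat.Agent.RT.LowerQ
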