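import Fermat.Agent.RT.Assembly.SpecialGen
import Fermat.Agent.Deform.Burnside
import Fermat.Agent.Deform.Residual
import Fermat.Agent.GaloisReps.Models

/-!
# An irreducible system is unramified away from its level
-/

set_option autoImplicit false
set_option linter.style.haveILetI false

noncomputable section

open Polynomial CongruenceSubgroup ModularFormClass
open Fermat.Agent.Deform (matRes M2)

namespace Fermat.Agent.RT.LowerQ

local notation "Q̄" => AlgebraicClosure ℚ
local notation "GQ" => AlgebraicClosure ℚ ≃ₐ[ℚ] AlgebraicClosure ℚ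

variable {p : ℕ} [Fact p.Prime] {k : Type} [Field k] [CharP k p] {S : Finset ℕ} {abar : ℕ → k}
  {ρbar : ResidualGaloisRep k}

/-- An absolutely irreducible representation with a congruent form of level `M` is unramified at
the primes dividing neither `M` nor `p`. -/
theorem isUnramifiedAt_of_congruent
    (hbar : ∀ ℓ : ℕ, ℓ.Prime → ℓ ∉ S → ∀ A : ValuationSubring Q̄, A.LiesOverPrime ℓ →
      ∀ τ : GQ, A.IsFrobeniusAt τ ℓ →
        LinearMap.charpoly (ρbar.ρ τ) = X ^ 2 - C (abar ℓ) * X + C (ℓ : k))
    (habs : ρbar.IsAbsolutelyIrreducible) {M : ℕ} (h : IsCongruentLevel S abar M)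
    {q : ℕ} (hq : q.Prime) (hqM : ¬ q ∣ M) (hqp : q ≠ p) : ρbar.IsUnramifiedAt q := by
  classical
  obtain ⟨g, hg, φ, hφ⟩ := h
  have hM : M ≠ 0 := fun h => hqM (by rw [h]; exact dvd_zero q)
  have : NeZero M := ⟨hM⟩
  have : CharP (AlgebraicClosure k) p :=
    charP_of_injective_algebraMap (algebraMap k (AlgebraicClosure k)).injective p
  obtain ⟨ρ, hatt, hunr⟩ := GaloisReps.exists_residual_eigenform
    GaloisReps.nonempty_heckeGaloisModel hg (Fact.out : p.Prime) φ
  have hall : ∀ σ, LinearMap.trace _ _ (ρ.ρ σ) =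
      algebraMap k (AlgebraicClosure k) (LinearMap.trace k _ (ρbar.ρ σ)) := fun σ => by
    have h := Assembly.charpoly_eq_of_frobenius ρ (ρbar.baseChange (AlgebraicClosure k))
      (S ∪ insert p M.primeFactors) (fun w hw hwT A hA τ hτ => by
        simp only [Finset.mem_union, Finset.mem_insert, not_or] at hwT
        have hwM : ¬ w ∣ M := fun h => hwT.2.2 (Nat.mem_primeFactors.mpr ⟨hw, h, hM⟩)
        have hw0 : (w : AlgebraicClosure k) ≠ 0 := fun h => hwT.2.1
          ((Nat.prime_dvd_prime_iff_eq (Fact.out : p.Prime) hw).mp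
            ((CharP.cast_eq_zero_iff _ p w).mp h)).symm
        obtain ⟨b, hb, hc⟩ := hatt w hw hwM hw0 A hA τ hτ
        rw [hc, hφ w hw hwT.1 b hb]
        show _ = LinearMap.charpoly ((ρbar.ρ τ).baseChange (AlgebraicClosure k))
        rw [LinearMap.charpoly_baseChange, hbar w hw hwT.1 A hA τ hτ]
        simp) σ
    rw [show LinearMap.charpoly ((ρbar.baseChange (AlgebraicClosure k)).ρ σ) =
      (LinearMap.charpoly (ρbar.ρ σ)).map (algebraMap k (AlgebraicClosure k)) from
        LinearMap.charpoly_baseChange _ _,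
      EC.FrobTrace.charpoly_of_finrank_eq_two ρ.finrank_eq,
      EC.FrobTrace.charpoly_of_finrank_eq_two ρbar.finrank_eq] at h
    have h1 := congrArg (fun f => Polynomial.coeff f 1) h
    simpa [coeff_X_pow] using h1
  let bb : Module.Basis (Fin 2) k ρbar.V :=
    Module.finBasisOfFinrankEq k ρbar.V ρbar.finrank_eq
  intro A hA σ hσ
  have hρσ : ρ.ρ σ = 1 := hunr q hq (fun h => (hq.dvd_mul.mp h).elim hqM fun h' =>
    hqp ((Nat.prime_dvd_prime_iff_eq hq Fact.out).mp h')) A hA σ hσ
  have htr : ∀ g, (matRes ρbar bb σ * matRes ρbar bb g).trace = (matRes ρbar bb g).trace := by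
    intro g
    have e : ∀ x, (matRes ρbar bb x).trace = LinearMap.trace k _ (ρbar.ρ x) := fun x =>
      (LinearMap.trace_eq_matrix_trace k bb _).symm
    rw [← map_mul, e, e]
    apply (algebraMap k (AlgebraicClosure k)).injective
    rw [← hall, ← hall, map_mul, hρσ, one_mul]
  have hY : ∀ Y : M2 k, ((matRes ρbar bb σ - 1) * Y).trace = 0 := fun Y => by
    have hY : Y ∈ Submodule.span k (Set.range (matRes ρbar bb)) := by
      rw [show Submodule.span k (Set.range (matRes ρbar bb)) = ⊤ from
        Deform.span_matrix_eq_top ρbar habs bb]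
      trivial
    induction hY using Submodule.span_induction with
    | mem Y hY =>
      obtain ⟨g, rfl⟩ := hY
      rw [sub_mul, one_mul, Matrix.trace_sub, htr, sub_self]
    | zero => rw [mul_zero, Matrix.trace_zero]
    | add x y _ _ hx hy => rw [mul_add, Matrix.trace_add, hx, hy, add_zero]
    | smul a x _ hx => rw [mul_smul_comm, Matrix.trace_smul, hx, smul_zero]
  have h1 : matRes ρbar bb σ - 1 = 0 := Matrix.ext fun i j => by
    have h2 := hY (Matrix.single j i 1)
    rw [Matrix.trace_mul_comm, Matrix.trace_single_mul, one_smul] at h2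
    simpa using h2
  exact (LinearMap.toMatrixAlgEquiv bb).map_eq_one_iff.mp (sub_eq_zero.mp h1)

end Fermat.Agent.RT.LowerQ
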