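import Fermat.Agent.RT.Assembly.Lower
import Fermat.Agent.RT.Assembly.Coeff
import Fermat.Agent.RT.LowerQ.Curve
import Fermat.Agent.RT.LowerQ.PatchSelmer
import Fermat.Agent.RT.LowerQ.PatchUnramified
import Fermat.Agent.RT.Lifting.Selmer
import Fermat.Agent.FiniteFlat.TorsionOrder
import Fermat.Agent.GaloisReps.Flat
import Fermat.Agent.GaloisReps.Models
import Fermat.Agent.EC.Rep.IndexTwo

/-!
# The patching step of level lowering for a semistable curve

`residuallyModular_drop_of_local`: when all unramified primes of the level are scalar one of them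
can be removed, given a condition at `p` with its local bound. `localInputs_flat` gives one when
`p` does not divide the level.
-/

set_option autoImplicit false
set_option linter.style.haveILetI false

noncomputable section

namespace Fermat.Agent.RT.LowerQ

open IsLocalRing Module
open Fermat.Agent.Deform Fermat.Agent.CFT.Tangent Fermat.Agent.Arith Fermat.Agent.RT.Assembly
open Fermat.Agent.GaloisReps (HeckeGaloisModel ModelLevel)
open Fermat.Agent.FiniteFlat (GalOrder)

/-- The model of `J₀(M)` at `p`. -/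
abbrev models (p : ℕ) [Fact p.Prime] : ∀ (M : ℕ) [NeZero M], HeckeGaloisModel M p :=
  fun M _ => GaloisReps.heckeGaloisModel M p

/-- The rank bound of the patching argument in every setting. -/
def RankBoundProperty (p : ℕ) [Fact p.Prime] : Prop :=
  ∀ (O : Type) [CommRing O] [IsDomain O] [IsDiscreteValuationRing O]
    [IsAdicComplete (maximalIdeal O) O] [Finite (ResidueField O)] [CharZero O]
    [CharP (ResidueField O) p] (ρbar : ResidualGaloisRep (ResidueField O)) (W : Rigid O)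
    (abar : ℕ → ResidueField O) (S : Finset ℕ) (M₀ : ℕ) (V : Finset ℕ),
    p ≠ 2 → (p : O) ∈ maximalIdeal O → PatchSetting p ρbar W abar S M₀ V →
    ModelInputs p (models p) → ∀ m, RankBoundInput p W abar M₀ S m

/-- A condition at `p` for the level `M` of a curve, with its local bound. -/
def LocalInputs (p : ℕ) [Fact p.Prime] (E : WeierstrassCurve ℤ) (hΔ : E.Δ ≠ 0) (M : ℕ) : Prop :=
  ∀ (O : Type) [CommRing O] [IsDomain O] [IsDiscreteValuationRing O]
    [IsAdicComplete (maximalIdeal O) O] [Finite (ResidueField O)] [CharZero O]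
    [CharP (ResidueField O) p] (W : Rigid O)
    (bb : Basis (Fin 2) (ResidueField O) (curveRho E p (ResidueField O) hΔ).V),
    (p : O) ∈ maximalIdeal O → W.rb = matRes _ bb →
    (∀ σ, ∃ α β : ResidueField O, (W.rb σ).trace = α + β ∧ (W.rb σ).det = α * β) →
    ∃ C : CondAt O, IsLocalCond (curveRho E p (ResidueField O) hΔ) C ∧
      CondAtPInput p (curveRho E p (ResidueField O) hΔ) (curveAbar E (ResidueField O)) (models p) C
        M (curveSet E p M) ∧
      Lifting.LocalPBound p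
        (IsTangentClass (fun _A _ _ _ ρ => C ρ ∧ ρ.DetIsCyclotomic p) W.rb) W.rb

theorem nonempty_galOrder_models {p : ℕ} [Fact p.Prime] (M : ℕ) [NeZero M] (N : ℕ)
    (hpM : ¬ p ∣ M) : Nonempty (GalOrder p (ModelLevel (models p M) N)) := by
  obtain ⟨O'⟩ := FiniteFlat.nonempty_galOrder_jTorsBy (N := M) (Fact.out : p.Prime) hpM
    (c := ((p ^ N : ℕ) : ℤ))
    (Int.natCast_ne_zero.mpr (pow_ne_zero N (Fact.out : p.Prime).ne_zero))
  exact GaloisReps.nonempty_galOrder_modelLevel (X := FiniteFlat.JTorsBy M ((p ^ N : ℕ) : ℤ))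
    (GaloisReps.torsionIso M p (GaloisReps.conjProperty M))
    (GaloisReps.torsionGalois M p (GaloisReps.congruenceProperty M p)) N
    { toFun := fun x => ⟨(x : ModularCurve.JZero M), x.2⟩
      map_zero' := rfl
      map_add' := fun _ _ => rfl }
    (fun x y h => Subtype.ext (congrArg Subtype.val h :)) (fun σ x => rfl) O'

section Matrix

variable {p : ℕ} [Fact p.Prime] {k : Type} [Field k] [CharP k p] {E : WeierstrassCurve ℤ}
  {hΔ : E.Δ ≠ 0}

/-- The matrices of `E[p]` over `k` are those over `ZMod p`. -/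
theorem exists_matRes_curveRho (b : Basis (Fin 2) (ZMod p) (EC.Rep.residualRep E p hΔ).V) :
    ∃ bb : Basis (Fin 2) k (curveRho E p k hΔ).V, matRes (curveRho E p k hΔ) bb =
      mapM (ZMod.castHom dvd_rfl k) (matRes _ b) := by
  letI := ZMod.algebra k p
  refine ⟨b.baseChange k, MonoidHom.ext fun σ => Matrix.ext fun i j => ?_⟩
  rw [mapM_apply, matRes_apply (EC.Rep.residualRep E p hΔ)]
  refine (matRes_apply (curveRho E p k hΔ) _ σ i j).trans ?_
  show (b.baseChange k).repr (((EC.Rep.residualRep E p hΔ).ρ σ).baseChange k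
    ((b.baseChange k) j)) i = _
  rw [Basis.baseChange_apply, LinearMap.baseChange_tmul, Basis.baseChange_repr_tmul,
    Algebra.smul_def, mul_one]
  rfl

theorem det_matRes_residual (b : Basis (Fin 2) (ZMod p) (EC.Rep.residualRep E p hΔ).V)
    {σ : Gal} {n : ℕ} (hn : ∀ μ : QBar, μ ^ p = 1 → σ μ = μ ^ n) :
    (matRes _ b σ).det = (n : ZMod p) := by
  have hn' := EC.FrobTrace.card_rootsOfUnity_Qbar p
  refine Eq.trans ?_ ((EC.Rep.det_residualRep hΔ hn' σ).trans
    (Arith.modularCyclotomicCharacter_eq_natCast hn' hn))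
  exact LinearMap.det_toMatrix b _

end Matrix

variable {p : ℕ} [Fact p.Prime] {E : WeierstrassCurve ℤ} {hΔ : E.Δ ≠ 0}

set_option maxHeartbeats 800000 in
open scoped Classical in
/-- **The patching step**, given a condition at `p`. -/
theorem residuallyModular_drop_of_local (hp2 : p ≠ 2)
    (hbound : ∀ (k : Type) [Field k] [Finite k] [CharP k p], SelmerBoundProperty p k)
    (hrank : RankBoundProperty p) (hmod : ModelInputs p (models p))
    (hss : E.IsSemistableModel) (hirr : E.ModRepIsIrreducible p) {M q : ℕ}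
    (hq : q.Prime) (hqp : q ≠ p) (hqM : q ∣ M) (hM : Squarefree M)
    (hloc : LocalInputs p E hΔ M)
    (hunr : (EC.Rep.residualRep E p hΔ).IsUnramifiedAt q)
    (hsc : ∀ v : ℕ, v.Prime → v ≠ p → v ∣ M → (EC.Rep.residualRep E p hΔ).IsUnramifiedAt v →
      IsScalarAt E p hΔ v)
    (hE : E.IsResiduallyModularOfLevel p M) : E.IsResiduallyModularOfLevel p (M / q) := by
  have hpp : p.Prime := Fact.out
  haveI : NeZero M := ⟨hM.ne_zero⟩
  obtain ⟨O, i1, i2, i3, i4, i5, i6, i7, hpO, ⟨ζ, hζ⟩, hroot, φK, hφinj, hφlt⟩ :=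
    Assembly.exists_coeff p
  set φ : ZMod p →+* ResidueField O := ZMod.castHom dvd_rfl (ResidueField O)
  let ρ₀ := EC.Rep.residualRep E p hΔ
  let b := Module.finBasisOfFinrankEq (ZMod p) ρ₀.V ρ₀.finrank_eq
  set ρbar := curveRho E p (ResidueField O) hΔ with hρbar
  obtain ⟨bb, hbb⟩ : ∃ bb : Basis (Fin 2) (ResidueField O) ρbar.V,
      matRes ρbar bb = mapM φ (matRes ρ₀ b) := exists_matRes_curveRho b
  have habs : ρbar.IsAbsolutelyIrreducible := isAbsolutelyIrreducible_curveRho hΔ hp2 hirr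
  obtain ⟨W, hW⟩ := exists_rigid ρbar habs bb
  have hrb : W.rb = mapM φ (matRes ρ₀ b) := hW.trans hbb
  have hrbσ : ∀ σ, W.rb σ = (matRes ρ₀ b σ).map φ := fun σ => by rw [hrb]; rfl
  have hdet : ∀ (σ : Gal) (n : ℕ), (∀ μ : QBar, μ ^ p = 1 → σ μ = μ ^ n) →
      (W.rb σ).det = (n : ResidueField O) := fun σ n hn => by
    rw [hrbσ, ← φ.mapMatrix_apply, ← RingHom.map_det, det_matRes_residual b hn, map_natCast]
  have hsplit : ∀ σ, ∃ α β : ResidueField O, (W.rb σ).trace = α + β ∧ (W.rb σ).det = α * β := by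
    intro σ
    set t := (matRes ρ₀ b σ).trace
    set d := (matRes ρ₀ b σ).det
    have hd : (W.rb σ).det = φ d := by
      rw [hrbσ, ← φ.mapMatrix_apply, ← RingHom.map_det]
    have ht : (W.rb σ).trace = φ t := by
      rw [hrbσ]; simp [t, Matrix.trace_fin_two]
    obtain ⟨x, hx⟩ := hroot (Polynomial.X ^ 2 - Polynomial.C t * Polynomial.X + Polynomial.C d)
      (by compute_degree!)
    simp only [Polynomial.IsRoot, Polynomial.map_add, Polynomial.map_sub, Polynomial.map_mul,
      Polynomial.map_pow, Polynomial.map_X, Polynomial.map_C, Polynomial.eval_add,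
      Polynomial.eval_sub, Polynomial.eval_mul, Polynomial.eval_pow, Polynomial.eval_X,
      Polynomial.eval_C] at hx
    refine ⟨x, φ t - x, by rw [ht, add_sub_cancel], ?_⟩
    rw [hd]
    linear_combination hx
  have hfin : GaloisFactorsThroughFiniteLevel W.rb := by
    rw [hW]; exact CFT.TWPrimes.finiteLevel_matRes ρbar bb
  have htw : CFT.TWPrimes.TWHyp W.rb := by
    letI : Algebra (ZMod p) (ResidueField O) := φ.toAlgebra
    refine ⟨Ring.two_ne_zero (by rw [ringChar.eq (ResidueField O) p]; exact hp2), hsplit, ?_,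
      fun H hH => ?_⟩
    · rw [hrb]
      exact Lifting.noLine_mapM _ b ⊤ fun U hU =>
        EC.Rep.baseChange_residualRep_isIrreducible hΔ hp2 hirr _ U
          fun σ x hx => hU σ (Subgroup.mem_top σ) x hx
    · rw [hrb]
      exact Lifting.noLine_mapM _ b H
        (EC.Rep.residualRep_indexTwo_irreducible (hΔ := hΔ) hss hp2 hirr _ H hH)
  -- the residual behaviour at the primes
  have hone : ∀ σ, W.rb σ = 1 ↔ ρbar.ρ σ = 1 := fun σ => by
    rw [hW]; exact (LinearMap.toMatrixAlgEquiv bb).map_eq_one_iff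
  have hone₀ : ∀ σ, W.rb σ = 1 ↔ ρ₀.ρ σ = 1 := fun σ => by
    rw [hrbσ, ← (LinearMap.toMatrixAlgEquiv b).map_eq_one_iff]
    show _ ↔ matRes ρ₀ b σ = 1
    rw [← φ.mapMatrix_apply]
    exact ⟨fun h => Matrix.map_injective φ.injective (h.trans (map_one φ.mapMatrix).symm),
      fun h => by rw [h, map_one]⟩
  have hcong := isCongruentLevel_of_isResiduallyModular (k := ResidueField O) hΔ hE
  have hunrT : ∀ ℓ : ℕ, ℓ.Prime → ℓ ≠ p → ℓ ∉ M.primeFactors → ∀ A : ValuationSubring QBar,
      A.LiesOverPrime ℓ → ∀ τ ∈ A.inertiaSubgroupIn ℚ, W.rb τ = 1 :=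
    fun ℓ hℓ hℓp hℓT A hA τ hτ => (hone τ).2 (isUnramifiedAt_of_congruent
      (hasCharpolys_curveRho hΔ M) habs hcong hℓ
      (fun h => hℓT (Nat.mem_primeFactors.mpr ⟨hℓ, h, hM.ne_zero⟩)) hℓp A hA τ hτ)
  set V := M.primeFactors.filter fun v => v ≠ p ∧ ρ₀.IsUnramifiedAt v with hVdef
  have hVmem : ∀ {v}, v ∈ V → v.Prime ∧ v ∣ M ∧ v ≠ p ∧ ρ₀.IsUnramifiedAt v := fun {v} hv => by
    rw [hVdef, Finset.mem_filter] at hv
    exact ⟨Nat.prime_of_mem_primeFactors hv.1, Nat.dvd_of_mem_primeFactors hv.1, hv.2.1, hv.2.2⟩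
  have hVscalar : ∀ v ∈ V, ∀ A : ValuationSubring QBar, A.LiesOverPrime v → ∀ σ,
      A.IsFrobeniusAt σ v → ∃ e : ResidueField O, W.rb σ = e • 1 := fun v hv A hA σ hσ => by
    obtain ⟨h1, h2, h3, h4⟩ := hVmem hv
    obtain ⟨c, hc⟩ := (hsc v h1 h3 h2 h4).2 A hA σ hσ
    refine ⟨φ c, ?_⟩
    rw [hrbσ, show matRes ρ₀ b σ = c • (1 : M2 (ZMod p)) from by
      show LinearMap.toMatrixAlgEquiv b (ρ₀.ρ σ) = _
      rw [hc, map_smul, map_one]]
    ext i j
    simp [Matrix.one_apply, apply_ite φ]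
  have hVin : ∀ v ∈ V, ∀ A : ValuationSubring QBar, A.LiesOverPrime v →
      ∀ τ ∈ A.inertiaSubgroupIn ℚ, W.rb τ = 1 := fun v hv A hA τ hτ =>
    (hone₀ τ).2 ((hVmem hv).2.2.2 A hA τ hτ)
  have htr : ∀ v : ℕ, v.Prime → v ≠ p → ∀ A : ValuationSubring QBar, A.LiesOverPrime v →
      ∀ τ ∈ A.inertiaSubgroupIn ℚ,
        LinearMap.trace (ResidueField O) ρbar.V (ρbar.ρ τ) = 2 :=
    fun v hv hvp A hA τ hτ => trace_curveRho_inertia hΔ hss hv hvp hA hτ
  have hram : ∀ v ∈ M.primeFactors, v ≠ p → v ∉ V → ∀ A : ValuationSubring QBar,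
      A.LiesOverPrime v →
      (∀ τ ∈ A.inertiaSubgroupIn ℚ, (W.rb τ).trace = 2 ∧ (W.rb τ).det = 1) ∧
        ∃ τ ∈ A.inertiaSubgroupIn ℚ, W.rb τ ≠ 1 := by
    intro v hv hvp hvV A hA
    have hv' := Nat.prime_of_mem_primeFactors hv
    refine ⟨fun τ hτ => ⟨?_, ?_⟩, ?_⟩
    · rw [Assembly.trace_rb_eq bb hW]
      exact htr v hv' hvp A hA τ hτ
    · rw [hdet τ 1 fun μ hμ => ?_, Nat.cast_one]
      rw [pow_one]
      exact inertia_root hA hv' hτ hμ fun hd =>
        hvp ((Nat.prime_dvd_prime_iff_eq hv' hpp).mp hd)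
    · have h : ¬ ρ₀.IsUnramifiedAt v := fun h =>
        hvV (by rw [hVdef, Finset.mem_filter]; exact ⟨hv, hvp, h⟩)
      simp only [ResidualGaloisRep.IsUnramifiedAt, not_forall] at h
      obtain ⟨B, hB, τ, hτ, hτ1⟩ := h
      obtain ⟨g, rfl⟩ := exists_smul_eq hA hB hv'
      refine ⟨g⁻¹ * τ * g, EC.Rep.conj_mem_inertia hτ, fun h1 => hτ1 ((hone₀ τ).mp ?_)⟩
      rw [show τ = g * (g⁻¹ * τ * g) * g⁻¹ by group, map_mul, map_mul, h1, mul_one, ← map_mul,
        mul_inv_cancel, map_one]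
  set S := curveSet E p M
  have hset : PatchSetting p ρbar W (curveAbar E (ResidueField O)) S M V :=
    { absIrr := habs
      rigid := ⟨bb, hW⟩
      charpolys := hasCharpolys_curveRho hΔ M
      squarefree := hM
      primes_mem := fun v hv hd => dvd_mem_curveSet hΔ hv hd
      p_mem := self_mem_curveSet
      V_prime := fun v hv => (hVmem hv).1
      V_dvd := fun v hv => (hVmem hv).2.1
      V_ne_p := fun v hv => (hVmem hv).2.2.1
      V_mod := fun v hv => by
        obtain ⟨h1, h2, h3, h4⟩ := hVmem hv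
        refine (CharP.cast_eq_zero_iff (ZMod p) p _).mp ?_
        rw [Nat.cast_sub h1.one_le, Nat.cast_one, (hsc v h1 h3 h2 h4).1, sub_self]
      inertia_trace := htr
      V_inertia := hVin
      V_frobenius := fun v hv A hA σ hσ => by
        obtain ⟨e, he⟩ := hVscalar v hv A hA σ hσ
        exact ⟨e, fun i j => by rw [he]; simp [Matrix.one_apply]⟩ }
  obtain ⟨C, hC, hCP, hCloc⟩ := hloc O W bb hpO hW hsplit
  have hTW : TWSelmerInput p C W.rb M.primeFactors (uniPlaces p M V) V S :=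
    twSelmerInput_scalar (hbound _) hp2 C W.rb htw hfin hdet
      (fun v hv => Nat.prime_of_mem_primeFactors hv) (Finset.filter_subset _ _)
      (fun h => (hVmem h).2.2.1 rfl)
      (fun v hv hvp hvV => Finset.mem_erase.mpr ⟨hvp, Finset.mem_sdiff.mpr ⟨hv, hvV⟩⟩)
      hunrT hram hVin hVscalar hCloc
  exact isResiduallyModular_of_isCongruentLevel hΔ (isCongruentLevel_div φK hφinj hφlt hp2 hpO hζ
    hset hmod hC hCP hTW (hrank O ρbar W _ S M V hp2 hpO hset hmod) hcong
    (by rw [hVdef, Finset.mem_filter]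
        exact ⟨Nat.mem_primeFactors.mpr ⟨hq, hqM, hM.ne_zero⟩, hqp, hunr⟩))

/-- The flat condition, when `p` does not divide the level. -/
theorem localInputs_flat (hp2 : p ≠ 2) {M : ℕ} (hpM : ¬ p ∣ M) : LocalInputs p E hΔ M := by
  intro O _ _ _ _ _ _ _ W bb hpO hW hsplit
  refine ⟨fun _A _ _ _ ρ => ρ.IsFlatAt p, isLocalCond_flat _ p,
    condAtPInput_flat hpO _ _ hpM self_mem_curveSet fun M _ N h => nonempty_galOrder_models M N h,
    Lifting.localPBound_flat hp2 (by rw [hW]; exact CFT.TWPrimes.finiteLevel_matRes _ bb) ?_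
      hsplit⟩
  intro σ n hn
  obtain ⟨bb', hbb'⟩ := exists_matRes_curveRho (k := ResidueField O) (hΔ := hΔ)
    (Module.finBasisOfFinrankEq (ZMod p) _ (EC.Rep.residualRep E p hΔ).finrank_eq)
  have h : (matRes (curveRho E p (ResidueField O) hΔ) bb σ).det =
      (matRes (curveRho E p (ResidueField O) hΔ) bb' σ).det :=
    (LinearMap.det_toMatrix bb _).trans (LinearMap.det_toMatrix bb' _).symm
  rw [hW, h, hbb']
  show ((matRes _ _ σ).map (ZMod.castHom dvd_rfl (ResidueField O))).det = _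
  rw [← RingHom.mapMatrix_apply, ← RingHom.map_det, det_matRes_residual _ hn, map_natCast]

/-- The patching step, given local inputs at the levels divisible by `p`. -/
theorem scalarDropProperty_of (hp2 : p ≠ 2)
    (hbound : ∀ (k : Type) [Field k] [Finite k] [CharP k p], SelmerBoundProperty p k)
    (hrank : RankBoundProperty p) (hmod : ModelInputs p (models p))
    (hloc : ∀ (E : WeierstrassCurve ℤ) (hΔ : E.Δ ≠ 0), E.IsSemistableModel →
      E.ModRepIsIrreducible p → ∀ M : ℕ, Squarefree M → p ∣ M → LevelAtP E p M →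
      LocalInputs p E hΔ M) :
    ScalarDropProperty p := by
  intro E hΔ hss hirr M q hq hqp hqM hM hlev hunr hsc hE
  refine residuallyModular_drop_of_local hp2 hbound hrank hmod hss hirr hq hqp hqM hM ?_ hunr hsc hE
  by_cases hpM : p ∣ M
  · exact hloc E hΔ hss hirr M hM hpM hlev
  · exact localInputs_flat hp2 hpM

end Fermat.Agent.RT.LowerQ
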