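import Fermat.Agent.RT.LowerQ.PatchInputs
import Fermat.Agent.RT.LowerQ.Main
import Fermat.Agent.CFT.Selmer.Bound

/-!
# The patching step at levels prime to `p`

The Selmer bound of the patching argument, the step for `p` prime to the level, and milestone
statement 43 from milestone statement 44.
-/

set_option autoImplicit false
set_option linter.style.haveILetI false

noncomputable section

namespace Fermat.Agent.RT.LowerQ

variable {p : ℕ} [Fact p.Prime]

/-- The Selmer bound. -/
theorem selmerBound (p : ℕ) [Fact p.Prime] (k : Type) [Field k] [Finite k] [CharP k p] :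
    SelmerBoundProperty p k := fun _ hp2 hr hrfin hcyc B hB hpB hBr => by
  obtain ⟨m, hm⟩ := CFT.Selmer.exists_selmer_bound hp2 hr hrfin hcyc B hB hpB hBr
  refine ⟨m, fun n S => ?_⟩
  obtain ⟨qv, hinj, hq, -, hfr, hZ⟩ := hm n S
  exact ⟨qv, hinj, hq, fun i P hP φ hφ => (hfr i P hP φ hφ).2.1, hZ⟩

/-- The patching step at the levels prime to `p`. -/
theorem dropAt_flat (hp2 : p ≠ 2)
    (W : WeierstrassCurve ℤ) (hΔ : W.Δ ≠ 0) (hW : W.IsSemistableModel)
    (hirr : W.ModRepIsIrreducible p) : DropAt W p hΔ fun M => ¬ p ∣ M :=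
  fun _ _ hq hqp hqM hM hpM hunr hsc hE =>
    residuallyModular_drop_of_local hp2 (fun k _ _ _ => selmerBound p k) (rankBoundProperty p)
      (modelInputs p) hW hirr hq hqp hqM hM
      (localInputs_flat hp2 hpM) hunr hsc hE

/-- **Milestone statement 43 from milestone statement 44.** -/
theorem lowerOddInput_of_lowerAtP (h44 : Frey.LowerAtPInput) : Frey.LowerOddInput :=
  lowerOddInput (fun _ _ hp5 W hΔ hW hirr => dropAt_flat (by omega) W hΔ hW hirr) h44

end Fermat.Agent.RT.LowerQ

end
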