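import Fermat.Agent.RT.LowerQ.Patch
import Fermat.Agent.RT.Assembly.RankBound
import Fermat.Agent.Semistable.Toric.Model
import Fermat.Agent.Semistable.Unipotent.Main
import Fermat.Agent.GaloisReps.UnipotentModel
import Fermat.Agent.RT.InertiaTW.Main

/-!
# The standing inputs of the patching step hold
-/

set_option autoImplicit false
set_option linter.style.haveILetI false

noncomputable section

namespace Fermat.Agent.RT.LowerQ

open IsLocalRing
open Fermat.Agent.RT.Assembly

/-- The facts on the models of `J₀(M)`. -/
theorem modelInputs (p : ℕ) [Fact p.Prime] : ModelInputs p (models p) where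
  special M _ v hv hvp hvM hv2 := by
    haveI : Fact v.Prime := ⟨hv⟩
    exact ⟨GaloisReps.unipotentAt_modelOfCongruence _ hv hvp
      (Semistable.Unipotent.torsionUnipotentAt hv hvM hv2),
      Semistable.Toric.toricSquareAt hvp hv2⟩
  traceInertia q R M _ _ _ g := InertiaTW.traceInertia p q R M g
  congruence N _ := GaloisReps.congruenceProperty N p

/-- The rank bound. -/
theorem rankBoundProperty (p : ℕ) [Fact p.Prime] : RankBoundProperty p := by
  intro O _ _ _ _ _ _ _ ρbar W abar S M₀ V _ _ hset hM m
  exact rankBoundInput hset hM (exists_abar_ne_one_add hset.absIrr hset.charpolys) m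

/-- **The patching step**, from the Selmer bound and the local inputs at levels divisible by `p`. -/
theorem scalarDropProperty_of_selmer {p : ℕ} [Fact p.Prime] (hp2 : p ≠ 2)
    (hbound : ∀ (k : Type) [Field k] [Finite k] [CharP k p], SelmerBoundProperty p k)
    (hloc : ∀ (E : WeierstrassCurve ℤ) (hΔ : E.Δ ≠ 0), E.IsSemistableModel →
      E.ModRepIsIrreducible p → ∀ M : ℕ, Squarefree M → p ∣ M → LevelAtP E p M →
      LocalInputs p E hΔ M) :
    ScalarDropProperty p :=
  scalarDropProperty_of hp2 hbound (rankBoundProperty p) (modelInputs p) hloc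

end Fermat.Agent.RT.LowerQ
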