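import Fermat.Agent.RT.LowerQ.Defs
import Fermat.Agent.RT.Mazur.Residual
import Fermat.Agent.RT.MazurP.HeckeSeries
import Fermat.Agent.GaloisReps.HeckeGalois
import Fermat.Agent.Arith.Chebotarev.Main
import Fermat.Agent.JacTorsion.Main

/-!
# Mazur's principle from the toric property

An irreducible system occurring at level `q M` and not at level `M`, whose representation is
unramified at `q`, has scalar Frobenius at `q`, and `q = 1` in `ℤ/p`.
-/

set_option autoImplicit false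
set_option synthInstance.maxHeartbeats 400000

noncomputable section

namespace Fermat.Agent.RT.LowerQ

open AlgebraicCurve ModularCurve Matrix
open Fermat.Agent.Semistable
open Arith (QBar GQ)

section Involution

variable {q M : ℕ} [Fact q.Prime] [NeZero M] (hqM : ¬ q ∣ M)

theorem wJ_mul_self : wJ q M hqM * wJ q M hqM = 1 := by
  rw [wJ, ← map_mul, show wEquiv q M hqM * wEquiv q M hqM = 1 from
    AlgEquiv.ext (wEquiv_wEquiv q M hqM), map_one]

theorem wJ_smul_wJ_smul (x : JZero (q * M)) : wJ q M hqM • wJ q M hqM • x = x := by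
  rw [← mul_smul, wJ_mul_self, one_smul]

theorem wJ_smul_comm_galois (σ : GQ) (x : JZero (q * M)) :
    wJ q M hqM • σ • x = σ • wJ q M hqM • x := by
  have e : wJ q M hqM * arithmeticGalois (modularFunctionFieldFull (q * M)) σ =
      arithmeticGalois (modularFunctionFieldFull (q * M)) σ * wJ q M hqM := by
    refine Subtype.ext (Prod.ext (RingEquiv.ext fun y => ?_) ?_)
    · exact wEquiv_galois q M hqM σ y
    · exact (one_mul _).trans (mul_one _).symm
  rw [galois_smul_pic0_def, galois_smul_pic0_def, ← mul_smul, e, mul_smul]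

theorem smul_nsmul_jac {N : ℕ} [NeZero N] (g : SemilinearAut QBar (FB N)) (n : ℕ) (x : JZero N) :
    g • n • x = n • g • x :=
  map_nsmul (DistribSMul.toAddMonoidHom (Pic0 QBar (FB N)) g) n x

theorem smul_zsmul_jac {N : ℕ} [NeZero N] (g : SemilinearAut QBar (FB N)) (n : ℤ) (x : JZero N) :
    g • n • x = n • g • x :=
  map_zsmul (DistribSMul.toAddMonoidHom (Pic0 QBar (FB N)) g) n x

theorem galois_nsmul_jac {N : ℕ} [NeZero N] (σ : GQ) (n : ℕ) (x : JZero N) :
    σ • n • x = n • σ • x := smul_nsmul_jac (arithmeticGalois (modularFunctionFieldFull N) σ) n x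

theorem galois_zsmul_jac {N : ℕ} [NeZero N] (σ : GQ) (n : ℤ) (x : JZero N) :
    σ • n • x = n • σ • x := smul_zsmul_jac (arithmeticGalois (modularFunctionFieldFull N) σ) n x

set_option maxHeartbeats 1600000 in
theorem wJ_smul_comm_hecke {l : ℕ} (hl : l.Prime) (hN : ¬ l ∣ q * M) (x : JZero (q * M)) :
    wJ q M hqM • heckeOperatorBar (q * M) ⟨l, hl⟩ x =
      heckeOperatorBar (q * M) ⟨l, hl⟩ (wJ q M hqM • x) := by
  have : NeZero l := ⟨hl.ne_zero⟩
  have : NeZero (q * M * l) := ⟨Nat.mul_ne_zero (NeZero.ne (q * M)) hl.ne_zero⟩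
  have : FF.IsFunctionField QBar (modularFunctionFieldBar (q * M)) :=
    ModFun.isFunctionField_bar (q * M)
  have : FF.IsFunctionField QBar (modularFunctionFieldBar (q * M * l)) :=
    ModFun.isFunctionField_bar (q * M * l)
  obtain ⟨W, hWa, hWb⟩ := MazurP.exists_wLift q M l hqM (fun h => hN (h ▸ dvd_mul_right q M)) hl
  rw [heckeOperatorBar_apply, heckeOperatorBar_apply,
    heckeOperatorAlong_eq (FF.isIntegralAlong _) (FF.isIntegralAlong _)
      (FF.fundamentalIdentityAlong _ _) (FF.finiteAlong _) (FF.normFormulaAlong _ _)]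
  exact GaloisReps.correspondence_smul (wJ q M hqM) (SemilinearAut.ofAlgAut W) _ _ _ _
    (fun y => (hWb y).symm) (fun y => (hWa y).symm) _ _ _ x

end Involution

variable {p q M : ℕ} [Fact p.Prime] [Fact q.Prime] [NeZero M]

/-- Mazur's principle: the representation of a system new at `q` and unramified at `q` has scalar
Frobenius at `q`, and `q = 1` modulo `p`. -/
theorem scalar_of_toric (hqM : ¬ q ∣ M) (_hp : p ≠ 2) (hqp : q ≠ p)
    (hES : GaloisReps.CongruenceProperty (q * M) p)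
    (htor : ToricProperty p q M hqM) {S : Finset ℕ} {a : ℕ → ZMod p}
    (hS : ∀ ℓ : ℕ, ℓ.Prime → ℓ ∣ q * M * p → ℓ ∈ S)
    (hna : ∃ ℓ : ℕ, ℓ.Prime ∧ ℓ ∉ S ∧ a ℓ ≠ (ℓ : ZMod p) + 1)
    (hup : EigTors (q * M) p S a ≠ ⊥) (hdown : EigTors M p S a = ⊥)
    (r : GQ →* Matrix (Fin 2) (Fin 2) (ZMod p))
    (hfin : ∃ L : IntermediateField ℚ QBar, FiniteDimensional ℚ L ∧
      ∀ σ : GQ, (∀ z ∈ L, σ z = z) → r σ = 1)
    (hspan : Submodule.span (ZMod p) (Set.range r) = ⊤)
    (hfrob : ∀ ℓ : ℕ, ℓ.Prime → ℓ ∉ S → ∀ A : ValuationSubring QBar, A.LiesOverPrime ℓ →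
      ∀ σ : GQ, A.IsFrobeniusAt σ ℓ → (r σ).trace = a ℓ ∧ (r σ).det = (ℓ : ZMod p))
    {A : ValuationSubring QBar} (hA : A.LiesOverPrime q)
    (hunr : ∀ τ ∈ A.inertiaSubgroupIn ℚ, r τ = 1)
    {σ : GQ} (hσ : A.IsFrobeniusAt σ q) (hdet : (r σ).det = (q : ZMod p)) :
    (q : ZMod p) = 1 ∧ ∃ c : ZMod p, r σ = c • 1 := by
  classical
  have hp : p.Prime := Fact.out
  haveI : NeZero p := ⟨hp.ne_zero⟩
  -- a sign for the involution
  obtain ⟨s, hs, y₀, hy₀, hy₀0, hwy₀⟩ : ∃ s : ℤ, s * s = 1 ∧ ∃ y ∈ EigTors (q * M) p S a,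
      y ≠ 0 ∧ wJ q M hqM • y = s • y := by
    obtain ⟨⟨x, hx⟩, hx0⟩ : ∃ x : EigTors (q * M) p S a, x ≠ 0 := by
      by_contra h
      push Not at h
      exact hup ((AddSubgroup.eq_bot_iff_forall _).2 fun x hx => congrArg Subtype.val (h ⟨x, hx⟩))
    have hwx : wJ q M hqM • x ∈ EigTors (q * M) p S a := by
      refine mem_eigTors.2 ⟨?_, fun ℓ hℓ hℓS => ?_⟩
      · rw [← smul_nsmul_jac, hx.1]
        exact (DistribSMul.toAddMonoidHom (Pic0 QBar (FB (q * M))) (wJ q M hqM)).map_zero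
      rw [← wJ_smul_comm_hecke hqM hℓ (fun h => hℓS (hS ℓ hℓ (h.mul_right p))), hx.2 ℓ hℓ hℓS,
        smul_nsmul_jac]
    by_cases h : x + wJ q M hqM • x = 0
    · exact ⟨-1, by norm_num, x, hx, fun h0 => hx0 (Subtype.ext h0), by
        rw [neg_one_zsmul]; exact eq_neg_of_add_eq_zero_right h⟩
    · exact ⟨1, by norm_num, _, add_mem hx hwx, h, by
        rw [one_zsmul, smul_add, wJ_smul_wJ_smul, add_comm]⟩
  let V := Pic0.torsion QBar (modularFunctionFieldBar (q * M)) p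
  haveI : Finite V := JacTorsion.finite_torsion_JZero (q * M) (m := p)
  let ψ : GQ →* Module.End (ZMod p) V := JZero.torsionGaloisRep (q * M) p
  have hval : ∀ (g : GQ) (v : V), ((ψ g v : V) : JZero (q * M)) = g • (v : JZero (q * M)) :=
    fun g v => JZero.coe_torsionGaloisRep_apply (q * M) g v
  let C : AddSubgroup V :=
    { carrier := {v | (v : JZero (q * M)) ∈ EigTors (q * M) p S a ∧
        wJ q M hqM • (v : JZero (q * M)) = s • (v : JZero (q * M))}
      zero_mem' := ⟨zero_mem _, (smul_zero _).trans (zsmul_zero s).symm⟩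
      add_mem' := fun {u v} hu hv => ⟨add_mem hu.1 hv.1, by
        show wJ q M hqM • ((u : JZero (q * M)) + v) = s • ((u : JZero (q * M)) + v)
        rw [smul_add, hu.2, hv.2, zsmul_add]⟩
      neg_mem' := fun {u} hu => ⟨neg_mem hu.1, by
        show wJ q M hqM • (-(u : JZero (q * M))) = s • (-(u : JZero (q * M)))
        rw [smul_neg, hu.2, zsmul_neg]⟩ }
  let V₁ : Submodule (ZMod p) V := AddSubgroup.toZModSubmodule p C
  have hmem : ∀ {v : V}, v ∈ V₁ ↔ (v : JZero (q * M)) ∈ EigTors (q * M) p S a ∧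
      wJ q M hqM • (v : JZero (q * M)) = s • (v : JZero (q * M)) := Iff.rfl
  have hstab : Mazur.IsStableUnder ψ V₁ := fun g v hv => by
    obtain ⟨⟨hv1, hv2⟩, hv3⟩ := hmem.1 hv
    refine hmem.2 ⟨mem_eigTors.2 ⟨?_, fun ℓ hℓ hℓS => ?_⟩, ?_⟩
    · rw [hval, ← galois_nsmul_jac, hv1]
      exact (DistribSMul.toAddMonoidHom (Pic0 QBar (FB (q * M)))
        (arithmeticGalois (modularFunctionFieldFull (q * M)) g)).map_zero
    · rw [hval, ← GaloisReps.galois_heckeOperatorBar, hv2 ℓ hℓ hℓS, galois_nsmul_jac]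
    · rw [hval, wJ_smul_comm_galois, hv3, galois_zsmul_jac]
  have hV₁ : V₁ ≠ ⊥ := by
    intro h
    have hy : y₀ ∈ V := by rw [Pic0.mem_torsion, natCast_zsmul]; exact hy₀.1
    have : (⟨y₀, hy⟩ : V) ∈ V₁ := hmem.2 ⟨hy₀, hwy₀⟩
    rw [h, Submodule.mem_bot] at this
    exact hy₀0 (congrArg Subtype.val this)
  -- the quadratic relation
  obtain ⟨L, hL, hrL⟩ := hfin
  choose Lv hLv hfix using fun v : V => GaloisReps.exists_fixing_torsion (q * M) v
  haveI : FiniteDimensional ℚ (⨆ v : V, Lv v : IntermediateField ℚ QBar) :=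
    IntermediateField.finiteDimensional_iSup_of_finite
  have hker : ∀ g : GQ, (∀ z ∈ (L ⊔ ⨆ v : V, Lv v : IntermediateField ℚ QBar), g z = z) →
      (r.prod ψ) g = 1 := fun g hg => Prod.ext
    (hrL g fun z hz => hg z ((le_sup_left : L ≤ L ⊔ _) hz))
    (LinearMap.ext fun v => Subtype.ext ((hval g v).trans (hfix v g fun z hz =>
      hg z ((le_sup_right : _ ≤ L ⊔ _) (le_iSup Lv v hz)))))
  have hquad : ∀ g, ∀ v ∈ V₁,
      ψ g (ψ g v) - (r g).trace • ψ g v + (r g).det • v = 0 := by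
    intro g v hv
    obtain ⟨ℓ, hℓ, hℓS, B, hB, τ, hτ, he⟩ :=
      Arith.Chebotarev.exists_frobenius_eq (r.prod ψ) _ hker g S
    obtain ⟨htr, hd⟩ := hfrob ℓ hℓ hℓS B hB τ hτ
    rw [← show r τ = r g from congrArg Prod.fst he, ← show ψ τ = ψ g from congrArg Prod.snd he,
      htr, hd]
    have hx : (v : JZero (q * M)) ∈ Pic0.torsion QBar (modularFunctionFieldBar (q * M)) (p ^ 1) := by
      rw [pow_one]; exact v.2
    have h := (hES ℓ hℓ (fun hdv => hℓS (hS ℓ hℓ hdv)) B hB 1 ⟨_, hx⟩).2 τ hτ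
    obtain ⟨hτv, -⟩ := hmem.1 (hstab τ v hv)
    rw [← hval, hτv.2 ℓ hℓ hℓS] at h
    rw [← ZMod.natCast_zmod_val (a ℓ), Nat.cast_smul_eq_nsmul, Nat.cast_smul_eq_nsmul]
    refine Subtype.ext (Eq.trans ?_ h)
    simp only [AddSubgroup.coe_add, AddSubgroup.coe_sub, AddSubgroup.coe_nsmul, hval]
  -- the submodule seen by the representation
  obtain ⟨U, hUle, hU0, -, hUker, hUscal⟩ :=
    Mazur.exists_submodule_kernel ψ r hspan V₁ hstab hV₁ hquad
  have hFrob : ∀ v ∈ U, ψ σ v = (-((q : ZMod p) * (s : ZMod p))) • v := by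
    intro v hv
    obtain ⟨hve, hvw⟩ := hmem.1 (hUle hv)
    have h := htor S a hS hna hdown A hA _ hve (fun τ hτ => by
      rw [← hval, hUker τ (hunr τ hτ) v hv]) σ hσ
    rw [hvw] at h
    rw [neg_smul, mul_smul, Nat.cast_smul_eq_nsmul, Int.cast_smul_eq_zsmul]
    refine eq_neg_of_add_eq_zero_left (Subtype.ext ?_)
    rw [AddSubgroup.coe_add, hval, AddSubgroup.coe_nsmul, AddSubgroup.coe_zsmul]
    exact h
  obtain ⟨c, hc⟩ : ∃ c : ZMod p, r σ = c • 1 := by
    by_contra hno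
    push Not at hno
    obtain ⟨v, hv, hne⟩ := hUscal σ hno (-((q : ZMod p) * (s : ZMod p)))
    exact hne (hFrob v hv)
  refine ⟨?_, c, hc⟩
  obtain ⟨u, hu, hu0⟩ := Submodule.exists_mem_ne_zero_of_ne_bot hU0
  have h2 := hquad σ u (hUle hu)
  rw [hFrob u hu, map_smul, hFrob u hu, smul_smul, smul_smul, ← sub_smul, ← add_smul] at h2
  have h3 := (smul_eq_zero.1 h2).resolve_right hu0
  rw [hc, det_smul, det_one, mul_one, Fintype.card_fin] at hdet
  rw [hc, trace_smul, trace_one, det_smul, det_one, Fintype.card_fin, smul_eq_mul] at h3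
  have hk : c = -((q : ZMod p) * (s : ZMod p)) := by
    refine sub_eq_zero.1 ((pow_eq_zero_iff two_ne_zero).1 ?_)
    push_cast at h3
    linear_combination h3
  have hs' : (s : ZMod p) * (s : ZMod p) = 1 := by rw [← Int.cast_mul, hs, Int.cast_one]
  have hq0 : (q : ZMod p) ≠ 0 := fun h => hqp
    ((Nat.prime_dvd_prime_iff_eq hp Fact.out).1 ((ZMod.natCast_eq_zero_iff _ _).1 h)).symm
  rw [hk] at hdet
  exact mul_left_cancel₀ hq0 (by linear_combination hdet - (q : ZMod p) ^ 2 * hs')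

end Fermat.Agent.RT.LowerQ

end
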