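import Fermat.Agent.RT.LowerQ.Normalise
import Fermat.Agent.RT.LowerQ.Eigen
import Fermat.Agent.RT.LowerQ.Incl
import Fermat.Agent.RT.LowerQ.Reduction
import Fermat.Agent.RT.LowerQ.Principle
import Fermat.Agent.RT.Mazur.Orders
import Fermat.Agent.Semistable.Unipotent.Main
import Fermat.Agent.RedTorsion.Injective

/-!
# Inertia-fixed eigen torsion of a system absent below is toric

Let `x` be inertia fixed at `q` on level `q M`, eigen for a system which does not occur at level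
`M`, and `M'` a multiple of `M` without elliptic points, prime to `q`, of degree prime to `p`.
Both reductions of a balanced function of `x` have orders divisible by `p` by the count at level
`M'`, so are `p`-th powers as the system is absent at level `M`; hence `x` has a Kummer function
with constant reductions, and Frobenius is `-q w` on it.
-/

set_option autoImplicit false
set_option synthInstance.maxHeartbeats 400000
set_option maxHeartbeats 1000000
set_option linter.unusedSectionVars false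

noncomputable section

namespace Fermat.Agent.RT.LowerQ

open AlgebraicCurve ModularCurve
open Fermat.Agent.JacTorsion (divGrp toTorsion)
open Fermat.Agent.Semistable Fermat.Agent.RT.Mazur Fermat.Agent.RT.MazurP
open Arith (QBar GQ)

/-- `M'` can serve as auxiliary level for `M`: no elliptic points, degree prime to `p`. -/
def AuxLevel (p M M' : ℕ) : Prop :=
  M ∣ M' ∧ EllFree M' ∧ ∃ d : ℕ, p.Coprime d ∧ dedekindPsi M' = d * dedekindPsi M

section Degree

variable {p q M M' : ℕ} [hq : Fact q.Prime] [NeZero M] [NeZero M'] {A : ValuationSubring QBar}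

theorem coprime_finrankAlong_inclF_of_psi {d : ℕ} (hd : p.Coprime d)
    (hψ : dedekindPsi M' = d * dedekindPsi M) (hqM : ¬ q ∣ M) (hqM' : ¬ q ∣ M')
    [FF.IsFunctionField QBar (FB (q * M))] [FF.IsFunctionField QBar (FB (q * M'))]
    (h : M ∣ M') : p.Coprime (finrankAlong QBar (inclF (mul_dvd_mul_left q h) :
      FB (q * M) →ₐ[QBar] FB (q * M'))) := by
  have h1 := finrankAlong_mul (inclF (mul_dvd_mul_left q h) : FB (q * M) →ₐ[QBar] FB (q * M'))
    (x := upF M q (jM M)) (transcendental_upF_jM M q)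
  rw [show inclF (mul_dvd_mul_left q h) (upF M q (jM M)) = upF M' q (jM M') from Subtype.ext (by
      rw [coe_inclF, coe_upF, coe_upF, coe_jM, coe_jM]),
    degree_poles_upF_jM, degree_poles_upF_jM, Gamma0.dedekindPsi_mul_of_not_dvd hq.out hqM,
    Gamma0.dedekindPsi_mul_of_not_dvd hq.out hqM', hψ] at h1
  have h2 : (q + 1) * dedekindPsi M * finrankAlong QBar (inclF (mul_dvd_mul_left q h) :
      FB (q * M) →ₐ[QBar] FB (q * M')) = (q + 1) * dedekindPsi M * d :=
    Nat.cast_injective (R := ℤ) (by push_cast at h1 ⊢; linarith)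
  rwa [Nat.eq_of_mul_eq_mul_left (mul_pos q.succ_pos (dedekindPsi_pos M)) h2]

theorem coprime_finrankAlong_inclK_of_psi {d : ℕ} (hd : p.Coprime d)
    (hψ : dedekindPsi M' = d * dedekindPsi M)
    [FF.IsFunctionField (Res A) (KM A M)] [FF.IsFunctionField (Res A) (KM A M')]
    (hM : (M : Res A) ≠ 0) (hM'0 : (M' : Res A) ≠ 0) (h : M ∣ M') :
    p.Coprime (finrankAlong (Res A) (inclK A h)) := by
  have h1 := finrankAlong_mul (inclK A h) (x := jK A M) (jK_transcendental (A := A) M)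
  rw [show inclK A h (jK A M) = jK A M' from Subtype.ext (by rw [coe_inclK, coe_jK, coe_jK]),
    degree_poles_jK M hM, degree_poles_jK M' hM'0, hψ] at h1
  have h2 : dedekindPsi M * finrankAlong (Res A) (inclK A h) = dedekindPsi M * d :=
    Nat.cast_injective (R := ℤ) (by push_cast at h1 ⊢; linarith)
  rwa [Nat.eq_of_mul_eq_mul_left (dedekindPsi_pos M) h2]

end Degree

variable {A : ValuationSubring QBar} {p q M M' : ℕ} [hp : Fact p.Prime] [hq : Fact q.Prime]
  [NeZero M] [NeZero M'] {hqM : ¬ q ∣ M} {hqM' : ¬ q ∣ M'} [CharP (Res A) q]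
  [FF.IsFunctionField (Res A) (KM A M)] [FF.IsFunctionField (Res A) (KM A M')]
  [FF.IsFunctionField QBar (FB M)] [FF.IsFunctionField QBar (FB (q * M))]
  [FF.IsFunctionField QBar (FB (q * M'))]

/-- **The reductions are `p`-th powers.** -/
theorem exists_redK_eq_pow (hA : A.LiesOverPrime q) (hM : (M : Res A) ≠ 0)
    (hM' : (M' : Res A) ≠ 0) (hMM' : M ∣ M') (he : EllFree M')
    (hdeg : p.Coprime (finrankAlong (Res A) (inclK A hMM'))) (hpq : p ≠ q) {S : Finset ℕ}
    {a : ℕ → ZMod p} (hS : ∀ ℓ : ℕ, ℓ.Prime → ℓ ∣ q * M → ℓ ∈ S)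
    (hdown : EigTors M p S a = ⊥) (hqM' : ¬ q ∣ M')
    (F : loc2 A (iota2 M q hqM)) (fD : divGrp QBar (FB (q * M)) p)
    (hfD : ((fD : (FB (q * M))ˣ) : FB (q * M)) = (F : FB (q * M)))
    (hfix : InertiaFixed A ((F : FB (q * M)) : LSer))
    (hne : ∀ s, red2 A (iota2 M q hqM) F s ≠ 0)
    (heig : ∀ (ℓ : ℕ) (hℓ : ℓ.Prime), ℓ ∉ S →
      heckeOperatorBar (q * M) ⟨ℓ, hℓ⟩ (toTorsion (Additive.ofMul fD) : JZero (q * M)) =
        (a ℓ).val • (toTorsion (Additive.ofMul fD) : JZero (q * M)))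
    (s : Fin 2) : ∃ G : KM A M, G ≠ 0 ∧ redK hM F s = G ^ p := by
  have := Arith.residueField_isAlgClosed A
  haveI : NeZero p := ⟨hp.out.ne_zero⟩
  have hinj : EichlerShimura.InjectiveOnTorsion M := RedTorsion.injectiveOnTorsion M
  set F' : loc2 A (iota2 M' q hqM') := inclLoc (hqM' := hqM') hMM' F
  have hfix' : InertiaFixed A ((F' : FB (q * M')) : LSer) := by
    show InertiaFixed A (inclF (mul_dvd_mul_left q hMM') (F : FB (q * M)) : LSer)
    rw [coe_inclF]
    exact hfix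
  have hdiv' : ∀ w : Place QBar (FB (q * M')), (p : ℤ) ∣ w.ord (F' : FB (q * M')) := fun w => by
    show (p : ℤ) ∣ w.ord (inclF (mul_dvd_mul_left q hMM') (F : FB (q * M)))
    rw [Place.ord_restrictAlong _ (FF.isIntegralAlong _), ← hfD]
    exact dvd_mul_of_dvd_right (fD.2 _) _
  have hne' : ∀ s, red2 A (iota2 M' q hqM') F' s ≠ 0 := fun s => by
    rw [red2_inclLoc]; exact hne s
  have hz0 : redK hM F s ≠ 0 := fun h0 => hne s (congrArg Subtype.val h0)
  have hord : ∀ P : Place (Res A) (KM A M), (p : ℤ) ∣ P.ord (redK hM F s) :=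
    dvd_ord_descend (inclK A hMM') hdeg hz0 fun w => by
      rw [show inclK A hMM' (redK hM F s) = redK hM' F' s from Subtype.ext (by
        rw [coe_inclK, coe_redK, coe_redK, red2_inclLoc])]
      exact dvd_ord_red_of_ellFree hA he hp.out.pos hfix' hdiv' hne' hM' s w
  obtain ⟨h, z', g, hg, hh, hzg⟩ := exists_kummer_lift hA hqM hinj hpq hz0 hord
  have hker : KerProperty A M p := fun h' g' c hr =>
    toTorsion_eq_zero_of_isRed_pow hA hqM hinj hpq h' c hr
  have hmem : (toTorsion (Additive.ofMul h) : JZero M) ∈ EigTors M p S a :=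
    mem_eigTors.2 ⟨nsmul_m_toTorsion h, fun ℓ hℓ hℓS =>
      eigen_of_red hker hA hM hℓ (fun hd => hℓS (hS ℓ hℓ hd)) F fD hfD (heig ℓ hℓ hℓS) s (hne s)
        h hh hzg⟩
  rw [hdown, AddSubgroup.mem_bot] at hmem
  obtain ⟨g₀, hg₀, hhg⟩ := exists_eq_pow_of_toTorsion_eq_zero (f := h) (Subtype.ext hmem)
  obtain ⟨w, hw⟩ := IsRed.exists_of_ne_zero hA hq.out (mem_fracS_of_mem g₀)
    (fun h0 => hg₀ (Subtype.ext h0))
  have hwK : w ∈ KM A M := mem_KM_of_isRed hM hw
  obtain ⟨c, hc, hzc⟩ := (hw.pow p).unique (by rw [hhg] at hh; push_cast at hh; exact hh)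
  obtain ⟨d, hd⟩ := IsAlgClosed.exists_pow_nat_eq c hp.out.pos
  refine ⟨algebraMap (Res A) (KM A M) d * ⟨w, hwK⟩ * g, mul_ne_zero (mul_ne_zero
    ((map_ne_zero _).mpr fun h0 => hc (by rw [← hd, h0, zero_pow hp.out.ne_zero]))
    fun h0 => hw.1 (congrArg Subtype.val h0)) hg, ?_⟩
  rw [hzg, mul_pow, mul_pow, ← map_pow, hd]
  congr 1
  exact Subtype.ext (by rw [hzc]; rfl)

/-- **Frobenius on a class with constant reductions.** -/
theorem galois_add_wJ_eq_zero (hA : A.LiesOverPrime q) (hMM' : M ∣ M')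
    (hdeg : p.Coprime (finrankAlong QBar (inclF (mul_dvd_mul_left q hMM') :
      FB (q * M) →ₐ[QBar] FB (q * M'))))
    (hpq : p ≠ q) (hqM' : ¬ q ∣ M') (F : loc2 A (iota2 M q hqM))
    (fD : divGrp QBar (FB (q * M)) p)
    (hfD : ((fD : (FB (q * M))ˣ) : FB (q * M)) = (F : FB (q * M)))
    (hred : ∀ s, red2 A (iota2 M q hqM) F s = 1) {σ : GQ} (hσ : A.IsFrobeniusAt σ q) :
    σ • (toTorsion (Additive.ofMul fD) : JZero (q * M)) +
      q • (wJ q M hqM • (toTorsion (Additive.ofMul fD) : JZero (q * M))) = 0 := by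
  haveI : NeZero p := ⟨hp.out.ne_zero⟩
  set j : FB (q * M) →ₐ[QBar] FB (q * M') := inclF (mul_dvd_mul_left q hMM') with hj
  have hf' : ∀ w : Place QBar (FB (q * M')), (p : ℤ) ∣ w.ord (j (F : FB (q * M))) := fun w => by
    rw [Place.ord_restrictAlong _ (FF.isIntegralAlong _), ← hfD]
    exact dvd_mul_of_dvd_right (fD.2 _) _
  have hF0 : j (F : FB (q * M)) ≠ 0 := (map_ne_zero j).mpr (hfD ▸ Units.ne_zero _)
  let fD' : divGrp QBar (FB (q * M')) p := ⟨Units.mk0 _ hF0, hf'⟩
  have hS : Setup A M' q := Semistable.Unipotent.setup hA hqM'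
  have hk : HasKummer hS (JacTorsion.divQuot fD') p 1 := by
    refine ⟨fun _ => one_ne_zero, inclLoc (hqM' := hS.hqM) hMM' F, fun v => ?_, fun s => ?_⟩
    · have h1 := congrArg (fun D => D v) (JacTorsion.smul_divQuot fD')
      simp only [Finsupp.smul_apply, smul_eq_mul, FF.div_apply] at h1
      exact h1.symm
    · rw [red2_inclLoc, hred, Pi.one_apply, map_one]
  have key := Setup.frobenius_add_wAut_principal hσ hp.out.ne_zero
    (fun hd => hpq ((Nat.prime_dvd_prime_iff_eq hq.out hp.out).1 hd).symm) hk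
  set t : JZero (q * M') := (toTorsion (Additive.ofMul fD') : JZero (q * M'))
  have h0 : σ • t + q • (wJ q M' hqM' • t) = 0 :=
    (QuotientAddGroup.eq_zero_iff _).mpr (AddSubgroup.mem_addSubgroupOf.mpr key)
  rw [galois_smul_toTorsion, smul_toTorsion, ← nsmul_toTorsion, ← add_toTorsion] at h0
  obtain ⟨G, -, hG⟩ := exists_eq_pow_of_toTorsion_eq_zero (Subtype.ext h0)
  set E := smulDiv (arithmeticGalois (modularFunctionFieldFull (q * M)) σ) fD *
    (smulDiv (wJ q M hqM) fD) ^ q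
  have hE : j ((E : (FB (q * M))ˣ) : FB (q * M)) = G ^ p := by
    rw [← hG]
    push_cast [E, coe_smulDiv_galois, coe_smulDiv_wJ]
    rw [map_mul, map_pow, hfD, hj, ← galF_inclF, ← wEquiv_inclF (hqM' := hqM') hMM']
    rfl
  obtain ⟨G₀, -, hG₀⟩ := exists_pow_descend j hp.out.ne_zero hdeg (Units.ne_zero _) hE
  have hE0 := congrArg Subtype.val (toTorsion_eq_zero_of_eq_pow hG₀)
  rw [add_toTorsion, nsmul_toTorsion, ← smul_toTorsion, ← smul_toTorsion, ← galois_smul_pic0_def] at hE0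
  exact hE0

section Main

variable {p q M M' : ℕ} [hp : Fact p.Prime] [hq : Fact q.Prime] [NeZero M] [NeZero M']

/-- An integer prime to `p` acts injectively on `p`-torsion. -/
theorem eq_zero_of_zsmul_eq_zero {G : Type*} [AddCommGroup G] {u : ℤ} (hu : (u : ZMod p) ≠ 0)
    {y : G} (hy : p • y = 0) (huy : u • y = 0) : y = 0 := by
  have hco : IsCoprime (p : ℤ) u := (Nat.prime_iff_prime_int.mp hp.out).coprime_iff_not_dvd.mpr
    fun h => hu ((ZMod.intCast_zmod_eq_zero_iff_dvd u p).mpr h)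
  obtain ⟨a, b, hab⟩ := hco
  rw [← one_zsmul y, ← hab, add_zsmul, mul_zsmul, mul_zsmul, huy, natCast_zsmul, hy,
    zsmul_zero, zsmul_zero, add_zero]

theorem zsmul_nsmul_comm {G : Type*} [AddCommGroup G] (u : ℤ) (n : ℕ) (y : G) :
    u • n • y = n • u • y :=
  map_nsmul (zsmulAddGroupHom u) n y

/-- **The toric property.** -/
theorem toricProperty (hqp : q ≠ p) (hqM : ¬ q ∣ M) (hqM' : ¬ q ∣ M')
    (haux : AuxLevel p M M') : ToricProperty p q M hqM := by
  obtain ⟨hMM', he, d, hd, hψ⟩ := haux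
  intro S a hS hna hdown A hA x hx hfix σ hσ
  haveI : NeZero p := ⟨hp.out.ne_zero⟩
  haveI : CharP (Res A) q := Arith.residueField_charP hA hq.out
  haveI := Arith.residueField_isAlgClosed A
  have hM : (M : Res A) ≠ 0 := EichlerShimura.natCast_ne_zero hq.out hqM hA
  have hM' : (M' : Res A) ≠ 0 := EichlerShimura.natCast_ne_zero hq.out hqM' hA
  haveI : FF.IsFunctionField (Res A) (KM A M) := RedTorsion.isFunctionField_full rfl hM
  haveI : FF.IsFunctionField (Res A) (KM A M') := RedTorsion.isFunctionField_full rfl hM'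
  haveI : FF.IsFunctionField QBar (FB M) := ModFun.isFunctionField_bar M
  haveI : FF.IsFunctionField QBar (FB (q * M)) := ModFun.isFunctionField_bar (q * M)
  haveI : FF.IsFunctionField QBar (FB (q * M')) := ModFun.isFunctionField_bar (q * M')
  have hS' : ∀ ℓ : ℕ, ℓ.Prime → ℓ ∣ q * M → ℓ ∈ S := fun ℓ hℓ h => hS ℓ hℓ (h.mul_right p)
  obtain ⟨l, hl, hlS, hal⟩ := hna
  obtain ⟨F, fD, u, hfD, hFfix, hne, hu, hy⟩ := exists_balanced hA (hqM := hqM) hx.1 hfix hl
    (fun h => hlS (hS' l hl h)) (a := (a l).val) (by rwa [ZMod.natCast_zmod_val]) (hx.2 l hl hlS)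
  have heig : ∀ (ℓ : ℕ) (hℓ : ℓ.Prime), ℓ ∉ S →
      heckeOperatorBar (q * M) ⟨ℓ, hℓ⟩ (toTorsion (Additive.ofMul fD) : JZero (q * M)) =
        (a ℓ).val • (toTorsion (Additive.ofMul fD) : JZero (q * M)) := fun ℓ hℓ hℓS => by
    rw [hy, map_zsmul, hx.2 ℓ hℓ hℓS, zsmul_nsmul_comm]
  -- both reductions are powers
  have hpow := exists_redK_eq_pow hA hM hM' hMM' he
    (coprime_finrankAlong_inclK_of_psi hd hψ hM hM' hMM') hqp.symm hS' hdown hqM' F fD hfD hFfix
    hne heig
  obtain ⟨G₀, hG₀, e₀⟩ := hpow 0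
  obtain ⟨G₁, hG₁, e₁⟩ := hpow 1
  obtain ⟨y, hyred⟩ := red2_surjective (hqM := hqM) (M := M) (q := q) hM G₀.2 G₁.2
  have hy0 : ∀ s, red2 A (iota2 M q hqM) y s ≠ 0 := fun s => by
    rw [hyred]
    fin_cases s
    · exact fun h0 => hG₀ (Subtype.ext h0)
    · exact fun h0 => hG₁ (Subtype.ext h0)
  obtain ⟨hi, hi'⟩ := inv_mem_loc2 (iota2 M q hqM) y hy0
  have hred : ∀ s, red2 A (iota2 M q hqM) (F * ⟨_, hi⟩ ^ p) s = 1 := fun s => by
    rw [map_mul, map_pow, Pi.mul_apply, Pi.pow_apply, hi', inv_pow]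
    refine mul_inv_eq_one₀ (pow_ne_zero p (hy0 s)) |>.mpr ?_
    rw [← coe_redK hM, hyred]
    fin_cases s
    · exact congrArg Subtype.val e₀
    · exact congrArg Subtype.val e₁
  have hyv : ((y : FB (q * M)))⁻¹ ≠ 0 := inv_ne_zero fun h0 => hy0 0 (by
    rw [show y = 0 from Subtype.ext h0, map_zero]; rfl)
  let gy : divGrp QBar (FB (q * M)) p := ⟨(Units.mk0 _ hyv) ^ p, fun v => by
    rw [Units.val_pow_eq_pow_val, FF.ord_pow]; exact dvd_mul_right _ _⟩
  have hgy : toTorsion (Additive.ofMul gy) = 0 :=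
    toTorsion_eq_zero_of_eq_pow (g := (y : FB (q * M))⁻¹) (Units.val_pow_eq_pow_val _ p)
  have h := galois_add_wJ_eq_zero hA hMM'
    (coprime_finrankAlong_inclF_of_psi hd hψ hqM hqM' hMM') hqp.symm hqM'
    (F * ⟨_, hi⟩ ^ p) (fD * gy) (by push_cast [gy, hfD]; rfl) hred hσ
  rw [add_toTorsion, hgy, ZeroMemClass.coe_zero, add_zero, hy, galois_zsmul_jac, smul_zsmul_jac,
    ← zsmul_nsmul_comm, ← zsmul_add] at h
  refine eq_zero_of_zsmul_eq_zero hu ?_ h
  rw [nsmul_add, ← galois_nsmul_jac, hx.1, smul_comm p q, ← smul_nsmul_jac, hx.1]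
  have h1 : σ • (0 : JZero (q * M)) = 0 :=
    (DistribSMul.toAddMonoidHom (Pic0 QBar (FB (q * M)))
      (arithmeticGalois (modularFunctionFieldFull (q * M)) σ)).map_zero
  have h2 : wJ q M hqM • (0 : JZero (q * M)) = 0 :=
    (DistribSMul.toAddMonoidHom (Pic0 QBar (FB (q * M))) (wJ q M hqM)).map_zero
  rw [h1, h2, nsmul_zero, add_zero]

/-- At a level without elliptic points no auxiliary level is needed. -/
theorem toricProperty_of_ellFree (hqp : q ≠ p) (hqM : ¬ q ∣ M) (he : EllFree M) :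
    ToricProperty p q M hqM :=
  toricProperty hqp hqM hqM ⟨dvd_rfl, he, 1, Nat.coprime_one_right p, (one_mul _).symm⟩

end Main

end Fermat.Agent.RT.LowerQ

end
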